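import Fermat.Agent.S41.IharaFinal

/-!
# S41, Theorem M: shared basics (piece M0)

`F : Γ₀(N)[1/q] → V` is a homomorphism to an abelian group with `F(T) = F(L_N) = 0`.

* `IsZq q x` : `x ∈ ℤ[1/q]`.
* `mbU x`, `mbL x`, `mbD u` : the matrices `[[1, x], [0, 1]]`, `[[1, 0], [x, 1]]`,
  `diag(u, 1/u)` of `SL(2, ℚ)`.
* `mb_F_U`, `mb_F_L`, `mb_F_D` : `F` kills `U(x)` (`x ∈ ℤ[1/q]`), `L(N x)` and `diag(v, 1/v)` for a
  unit `v ≡ 1 mod N` of `ℤ[1/q]`.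
* `IsRow F a b v` : some `g ∈ Γ₀(N)[1/q]` with first row `(a, b)` has `F g = v`; the value is
  unique (`IsRow.unique`) and the row moves are `IsRow.m1`, `IsRow.m2`, `IsRow.m5`.
* `IsBot F c d v` : the same for the bottom row.
-/

set_option autoImplicit false
set_option linter.unusedSectionVars false
set_option linter.unusedSimpArgs false

noncomputable section

namespace Fermat.Agent.S41

open Matrix CongruenceSubgroup

/-! ### `ℤ[1/q]` -/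

/-- `x ∈ ℤ[1/q]`. -/
def IsZq (q : ℕ) (x : ℚ) : Prop := ∃ (k : ℕ) (m : ℤ), x * (q : ℚ) ^ k = m

theorem isZq_int (q : ℕ) (m : ℤ) : IsZq q (m : ℚ) := ⟨0, m, by simp⟩

theorem isZq_nat (q : ℕ) (m : ℕ) : IsZq q (m : ℚ) := ⟨0, m, by simp⟩

theorem isZq_zero (q : ℕ) : IsZq q 0 := ⟨0, 0, by simp⟩

theorem isZq_one (q : ℕ) : IsZq q 1 := ⟨0, 1, by simp⟩

theorem IsZq.neg {q : ℕ} {x : ℚ} (hx : IsZq q x) : IsZq q (-x) := by
  obtain ⟨k, m, h⟩ := hx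
  exact ⟨k, -m, by push_cast; rw [← h]; ring⟩

theorem IsZq.add {q : ℕ} {x y : ℚ} (hx : IsZq q x) (hy : IsZq q y) : IsZq q (x + y) := by
  obtain ⟨k, m, h⟩ := hx
  obtain ⟨l, n, h'⟩ := hy
  refine ⟨k + l, m * (q : ℤ) ^ l + n * (q : ℤ) ^ k, ?_⟩
  push_cast
  rw [← h, ← h']
  ring

theorem IsZq.sub {q : ℕ} {x y : ℚ} (hx : IsZq q x) (hy : IsZq q y) : IsZq q (x - y) := by
  rw [sub_eq_add_neg]
  exact hx.add hy.neg

theorem IsZq.mul {q : ℕ} {x y : ℚ} (hx : IsZq q x) (hy : IsZq q y) : IsZq q (x * y) := by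
  obtain ⟨k, m, h⟩ := hx
  obtain ⟨l, n, h'⟩ := hy
  refine ⟨k + l, m * n, ?_⟩
  push_cast
  rw [← h, ← h']
  ring

theorem IsZq.pow {q : ℕ} {x : ℚ} (hx : IsZq q x) (n : ℕ) : IsZq q (x ^ n) := by
  induction n with
  | zero => simpa using isZq_one q
  | succ n ih => rw [pow_succ]; exact ih.mul hx

theorem isZq_inv_pow (q : ℕ) [NeZero q] (k : ℕ) : IsZq q (((q : ℚ) ^ k)⁻¹) := by
  have hq : (q : ℚ) ≠ 0 := Nat.cast_ne_zero.mpr (NeZero.ne q)
  exact ⟨k, 1, by field_simp; simp⟩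

theorem isZq_div_pow (q : ℕ) [NeZero q] (m : ℤ) (k : ℕ) : IsZq q ((m : ℚ) / (q : ℚ) ^ k) := by
  rw [div_eq_mul_inv]
  exact (isZq_int q m).mul (isZq_inv_pow q k)

theorem IsZq.exists_pow {q : ℕ} [NeZero q] {x : ℚ} (hx : IsZq q x) :
    ∃ k : ℕ, ∀ n : ℕ, k ≤ n → ∃ m : ℤ, x * (q : ℚ) ^ n = m := by
  obtain ⟨k, m, h⟩ := hx
  refine ⟨k, fun n hn => ⟨m * (q : ℤ) ^ (n - k), ?_⟩⟩
  obtain ⟨d, rfl⟩ := Nat.exists_eq_add_of_le hn
  push_cast
  rw [← h, Nat.add_sub_cancel_left]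
  ring

/-- Membership in `Γ₀(N)[1/q]` from the entries. -/
theorem mem_gamma0Inv_of_isZq {N q : ℕ} [NeZero q] {g : SL2Q} (h00 : IsZq q (g.1 0 0))
    (h01 : IsZq q (g.1 0 1)) (h10 : ∃ x : ℚ, IsZq q x ∧ g.1 1 0 = N * x)
    (h11 : IsZq q (g.1 1 1)) : g ∈ gamma0Inv N q := by
  obtain ⟨x, hx, hx'⟩ := h10
  obtain ⟨k0, H0⟩ := h00.exists_pow
  obtain ⟨k1, H1⟩ := h01.exists_pow
  obtain ⟨k2, H2⟩ := hx.exists_pow
  obtain ⟨k3, H3⟩ := h11.exists_pow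
  set n := k0 + k1 + k2 + k3 with hn
  obtain ⟨A, hA⟩ := H0 n (by omega)
  obtain ⟨B, hB⟩ := H1 n (by omega)
  obtain ⟨C, hC⟩ := H2 n (by omega)
  obtain ⟨D, hD⟩ := H3 n (by omega)
  refine ⟨n, A, B, C, D, hA, hB, ?_, hD⟩
  rw [hx', mul_assoc, hC]

theorem isZq_of_mem {N q : ℕ} [NeZero q] {g : SL2Q} (hg : g ∈ gamma0Inv N q) (i j : Fin 2) :
    IsZq q (g.1 i j) := by
  have hq : (q : ℚ) ≠ 0 := Nat.cast_ne_zero.mpr (NeZero.ne q)
  obtain ⟨n, A, B, C, D, h00, h01, h10, h11⟩ := hg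
  fin_cases i <;> fin_cases j
  · exact ⟨n, A, h00⟩
  · exact ⟨n, B, h01⟩
  · exact ⟨n, N * C, by simpa using h10⟩
  · exact ⟨n, D, h11⟩

theorem isZq_lower_of_mem {N q : ℕ} [NeZero q] {g : SL2Q} (hg : g ∈ gamma0Inv N q) :
    ∃ x : ℚ, IsZq q x ∧ g.1 1 0 = N * x := by
  have hq : (q : ℚ) ≠ 0 := Nat.cast_ne_zero.mpr (NeZero.ne q)
  obtain ⟨n, A, B, C, D, h00, h01, h10, h11⟩ := hg
  refine ⟨(C : ℚ) / (q : ℚ) ^ n, isZq_div_pow q C n, ?_⟩
  field_simp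
  exact h10

/-! ### Elementary matrices -/

/-- `U(x) = [[1, x], [0, 1]]`. -/
def mbU (x : ℚ) : SL2Q := sl2qMk 1 x 0 1 (by ring)

/-- `L(x) = [[1, 0], [x, 1]]`. -/
def mbL (x : ℚ) : SL2Q := sl2qMk 1 0 x 1 (by ring)

/-- `D(u) = diag(u, 1/u)` (junk value `1`-determinant matrix `diag(u, u⁻¹)` needs `u ≠ 0`). -/
def mbD (u : ℚ) (hu : u ≠ 0) : SL2Q := sl2qMk u 0 0 u⁻¹ (by field_simp; ring)

@[simp] theorem mbU_00 (x : ℚ) : (mbU x).1 0 0 = 1 := rfl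
@[simp] theorem mbU_01 (x : ℚ) : (mbU x).1 0 1 = x := rfl
@[simp] theorem mbU_10 (x : ℚ) : (mbU x).1 1 0 = 0 := rfl
@[simp] theorem mbU_11 (x : ℚ) : (mbU x).1 1 1 = 1 := rfl
@[simp] theorem mbL_00 (x : ℚ) : (mbL x).1 0 0 = 1 := rfl
@[simp] theorem mbL_01 (x : ℚ) : (mbL x).1 0 1 = 0 := rfl
@[simp] theorem mbL_10 (x : ℚ) : (mbL x).1 1 0 = x := rfl
@[simp] theorem mbL_11 (x : ℚ) : (mbL x).1 1 1 = 1 := rfl
@[simp] theorem mbD_00 (u : ℚ) (hu : u ≠ 0) : (mbD u hu).1 0 0 = u := rfl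
@[simp] theorem mbD_01 (u : ℚ) (hu : u ≠ 0) : (mbD u hu).1 0 1 = 0 := rfl
@[simp] theorem mbD_10 (u : ℚ) (hu : u ≠ 0) : (mbD u hu).1 1 0 = 0 := rfl
@[simp] theorem mbD_11 (u : ℚ) (hu : u ≠ 0) : (mbD u hu).1 1 1 = u⁻¹ := rfl

theorem mbU_add (x y : ℚ) : mbU (x + y) = mbU x * mbU y := by
  apply sl2q_ext <;> simp [sl2q_mul00, sl2q_mul01, sl2q_mul10, sl2q_mul11]
  ring

theorem mbL_add (x y : ℚ) : mbL (x + y) = mbL x * mbL y := by
  apply sl2q_ext <;> simp [sl2q_mul00, sl2q_mul01, sl2q_mul10, sl2q_mul11]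

theorem mbU_zero : mbU 0 = 1 := by
  apply sl2q_ext <;> simp

theorem mbL_zero : mbL 0 = 1 := by
  apply sl2q_ext <;> simp

theorem mbU_mem {N q : ℕ} [NeZero q] {x : ℚ} (hx : IsZq q x) : mbU x ∈ gamma0Inv N q :=
  mem_gamma0Inv_of_isZq (by simpa using isZq_one q) (by simpa using hx)
    ⟨0, isZq_zero q, by simp⟩ (by simpa using isZq_one q)

theorem mbL_mem {N q : ℕ} [NeZero q] {x : ℚ} (hx : IsZq q x) : mbL (N * x) ∈ gamma0Inv N q :=
  mem_gamma0Inv_of_isZq (by simpa using isZq_one q) (by simpa using isZq_zero q)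
    ⟨x, hx, by simp⟩ (by simpa using isZq_one q)

theorem mbD_mem {N q : ℕ} [NeZero q] {u : ℚ} (hu : u ≠ 0) (h : IsZq q u) (h' : IsZq q u⁻¹) :
    mbD u hu ∈ gamma0Inv N q :=
  mem_gamma0Inv_of_isZq (by simpa using h) (by simpa using isZq_zero q)
    ⟨0, isZq_zero q, by simp⟩ (by simpa using h')

/-- `U(x)` as an element of `Γ₀(N)[1/q]`. -/
def mbUel (N q : ℕ) [NeZero q] (x : ℚ) (hx : IsZq q x) : ↥(gamma0Inv N q) := ⟨mbU x, mbU_mem hx⟩

/-- `L(N x)` as an element of `Γ₀(N)[1/q]`. -/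
def mbLel (N q : ℕ) [NeZero q] (x : ℚ) (hx : IsZq q x) : ↥(gamma0Inv N q) :=
  ⟨mbL (N * x), mbL_mem hx⟩

/-- `diag(u, 1/u)` as an element of `Γ₀(N)[1/q]`. -/
def mbDel (N q : ℕ) [NeZero q] (u : ℚ) (hu : u ≠ 0) (h : IsZq q u) (h' : IsZq q u⁻¹) :
    ↥(gamma0Inv N q) := ⟨mbD u hu, mbD_mem hu h h'⟩

@[simp] theorem mbUel_coe (N q : ℕ) [NeZero q] (x : ℚ) (hx : IsZq q x) :
    ((mbUel N q x hx : ↥(gamma0Inv N q)) : SL2Q) = mbU x := rfl

@[simp] theorem mbLel_coe (N q : ℕ) [NeZero q] (x : ℚ) (hx : IsZq q x) :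
    ((mbLel N q x hx : ↥(gamma0Inv N q)) : SL2Q) = mbL (N * x) := rfl

@[simp] theorem mbDel_coe (N q : ℕ) [NeZero q] (u : ℚ) (hu : u ≠ 0) (h : IsZq q u)
    (h' : IsZq q u⁻¹) : ((mbDel N q u hu h h' : ↥(gamma0Inv N q)) : SL2Q) = mbD u hu := rfl

theorem qpow_ne_zero (q : ℕ) [NeZero q] (k : ℕ) : ((q : ℚ) ^ k) ≠ 0 :=
  pow_ne_zero _ (Nat.cast_ne_zero.mpr (NeZero.ne q))

/-- `h^k = diag(q^k, q^{-k})` as an element of `Γ₀(N)[1/q]`. -/
def mbHel (N q : ℕ) [NeZero q] (k : ℕ) : ↥(gamma0Inv N q) :=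
  mbDel N q ((q : ℚ) ^ k) (qpow_ne_zero q k) ((isZq_nat q q).pow k) (isZq_inv_pow q k)

@[simp] theorem mbHel_coe (N q : ℕ) [NeZero q] (k : ℕ) :
    ((mbHel N q k : ↥(gamma0Inv N q)) : SL2Q) = mbD ((q : ℚ) ^ k) (qpow_ne_zero q k) := rfl

/-! ### Values of `F` -/

section Values

variable {N q : ℕ} [NeZero q] {V : Type*} [AddCommGroup V]
  (F : Additive ↥(gamma0Inv N q) →+ V)

theorem mbF_mul (g h : ↥(gamma0Inv N q)) :
    F (Additive.ofMul (g * h)) = F (Additive.ofMul g) + F (Additive.ofMul h) := by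
  rw [ofMul_mul, map_add]

theorem mbF_inv (g : ↥(gamma0Inv N q)) :
    F (Additive.ofMul g⁻¹) = - F (Additive.ofMul g) := by
  rw [ofMul_inv, map_neg]

theorem mbF_one : F (Additive.ofMul (1 : ↥(gamma0Inv N q))) = 0 := by
  rw [ofMul_one, map_zero]

theorem mbF_conj (g h : ↥(gamma0Inv N q)) :
    F (Additive.ofMul (g * h * g⁻¹)) = F (Additive.ofMul h) := by
  rw [mbF_mul, mbF_mul, mbF_inv]
  abel

theorem mbF_conj' (g h : ↥(gamma0Inv N q)) :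
    F (Additive.ofMul (g⁻¹ * h * g)) = F (Additive.ofMul h) := by
  rw [mbF_mul, mbF_mul, mbF_inv]
  abel

theorem mbF_congr {g h : ↥(gamma0Inv N q)} (e : (g : SL2Q) = (h : SL2Q)) :
    F (Additive.ofMul g) = F (Additive.ofMul h) := by
  rw [Subtype.ext e]

theorem mbUel_one_eq : mbUel N q 1 (isZq_one q) = iotaInv N q (Tel N) := by
  apply Subtype.ext
  apply sl2q_ext <;> simp [gamma0Q_apply, Tel]

theorem mbLel_one_eq : mbLel N q 1 (isZq_one q) = iotaInv N q (Lel N) := by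
  apply Subtype.ext
  apply sl2q_ext <;> simp [gamma0Q_apply, Lel]

theorem mbF_U_add (x y : ℚ) (hx : IsZq q x) (hy : IsZq q y) :
    F (Additive.ofMul (mbUel N q (x + y) (hx.add hy))) =
      F (Additive.ofMul (mbUel N q x hx)) + F (Additive.ofMul (mbUel N q y hy)) := by
  rw [← mbF_mul]
  apply mbF_congr
  simp [mbU_add]

theorem mbF_L_add (x y : ℚ) (hx : IsZq q x) (hy : IsZq q y) :
    F (Additive.ofMul (mbLel N q (x + y) (hx.add hy))) =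
      F (Additive.ofMul (mbLel N q x hx)) + F (Additive.ofMul (mbLel N q y hy)) := by
  rw [← mbF_mul]
  apply mbF_congr
  simp [mul_add, mbL_add]

variable (hT : F (Additive.ofMul (iotaInv N q (Tel N))) = 0)
  (hL : F (Additive.ofMul (iotaInv N q (Lel N))) = 0)

theorem mbF_U_congr {x y : ℚ} (hx : IsZq q x) (hy : IsZq q y) (e : x = y) :
    F (Additive.ofMul (mbUel N q x hx)) = F (Additive.ofMul (mbUel N q y hy)) := by
  subst e; rfl

theorem mbF_L_congr {x y : ℚ} (hx : IsZq q x) (hy : IsZq q y) (e : x = y) :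
    F (Additive.ofMul (mbLel N q x hx)) = F (Additive.ofMul (mbLel N q y hy)) := by
  subst e; rfl

theorem mbF_U_neg (x : ℚ) (hx : IsZq q x) :
    F (Additive.ofMul (mbUel N q (-x) hx.neg)) = - F (Additive.ofMul (mbUel N q x hx)) := by
  have h := mbF_U_add F (-x) x hx.neg hx
  have h0 : F (Additive.ofMul (mbUel N q (-x + x) (hx.neg.add hx))) = 0 := by
    rw [← mbF_one F]
    apply mbF_congr
    simp [mbU_zero]
  rw [h0] at h
  exact eq_neg_of_add_eq_zero_left h.symm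

theorem mbF_L_neg (x : ℚ) (hx : IsZq q x) :
    F (Additive.ofMul (mbLel N q (-x) hx.neg)) = - F (Additive.ofMul (mbLel N q x hx)) := by
  have h := mbF_L_add F (-x) x hx.neg hx
  have h0 : F (Additive.ofMul (mbLel N q (-x + x) (hx.neg.add hx))) = 0 := by
    rw [← mbF_one F]
    apply mbF_congr
    simp [mbL_zero]
  rw [h0] at h
  exact eq_neg_of_add_eq_zero_left h.symm

include hT in
theorem mbF_U_nat (n : ℕ) : F (Additive.ofMul (mbUel N q n (isZq_nat q n))) = 0 := by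
  have h1 : F (Additive.ofMul (mbUel N q 1 (isZq_one q))) = 0 := by rw [mbUel_one_eq]; exact hT
  induction n with
  | zero =>
    rw [← mbF_one F]
    apply mbF_congr
    simp [mbU_zero]
  | succ n ih =>
    have := mbF_U_add F (n : ℚ) 1 (isZq_nat q n) (isZq_one q)
    rw [ih, h1, add_zero] at this
    rw [← this]
    exact mbF_U_congr F _ _ (by push_cast; ring)

include hL in
theorem mbF_L_nat (n : ℕ) : F (Additive.ofMul (mbLel N q n (isZq_nat q n))) = 0 := by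
  have h1 : F (Additive.ofMul (mbLel N q 1 (isZq_one q))) = 0 := by rw [mbLel_one_eq]; exact hL
  induction n with
  | zero =>
    rw [← mbF_one F]
    apply mbF_congr
    simp [mbL_zero]
  | succ n ih =>
    have := mbF_L_add F (n : ℚ) 1 (isZq_nat q n) (isZq_one q)
    rw [ih, h1, add_zero] at this
    rw [← this]
    exact mbF_L_congr F _ _ (by push_cast; ring)

include hT in
theorem mbF_U_int (n : ℤ) : F (Additive.ofMul (mbUel N q n (isZq_int q n))) = 0 := by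
  obtain ⟨m, rfl | rfl⟩ := Int.eq_nat_or_neg n
  · rw [← mbF_U_nat F hT m]
    exact mbF_U_congr F _ _ (by push_cast; ring)
  · have := mbF_U_neg F (m : ℚ) (isZq_nat q m)
    rw [mbF_U_nat F hT m, neg_zero] at this
    rw [← this]
    exact mbF_U_congr F _ _ (by push_cast; ring)

include hL in
theorem mbF_L_int (n : ℤ) : F (Additive.ofMul (mbLel N q n (isZq_int q n))) = 0 := by
  obtain ⟨m, rfl | rfl⟩ := Int.eq_nat_or_neg n
  · rw [← mbF_L_nat F hL m]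
    exact mbF_L_congr F _ _ (by push_cast; ring)
  · have := mbF_L_neg F (m : ℚ) (isZq_nat q m)
    rw [mbF_L_nat F hL m, neg_zero] at this
    rw [← this]
    exact mbF_L_congr F _ _ (by push_cast; ring)

include hT in
/-- `F` kills `U(x)` for every `x ∈ ℤ[1/q]`. -/
theorem mb_F_U (x : ℚ) (hx : IsZq q x) : F (Additive.ofMul (mbUel N q x hx)) = 0 := by
  have hq : (q : ℚ) ≠ 0 := Nat.cast_ne_zero.mpr (NeZero.ne q)
  obtain ⟨k, m, h⟩ := id hx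
  rw [← mbF_conj F (mbHel N q k), ← mbF_U_int F hT (m * (q : ℤ) ^ k)]
  apply mbF_congr
  have hk := qpow_ne_zero q k
  apply sl2q_ext <;>
    simp only [Subgroup.coe_mul, Subgroup.coe_inv, mbHel_coe, mbUel_coe, sl2q_mul00, sl2q_mul01,
      sl2q_mul10, sl2q_mul11, sl2q_inv00, sl2q_inv01, sl2q_inv10, sl2q_inv11, mbU_00, mbU_01,
      mbU_10, mbU_11, mbD_00, mbD_01, mbD_10, mbD_11]
  · field_simp
    ring
  · push_cast
    rw [← h]
    field_simp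
    ring
  · ring
  · field_simp
    ring

include hL in
/-- `F` kills `L(N x)` for every `x ∈ ℤ[1/q]`. -/
theorem mb_F_L (x : ℚ) (hx : IsZq q x) : F (Additive.ofMul (mbLel N q x hx)) = 0 := by
  have hq : (q : ℚ) ≠ 0 := Nat.cast_ne_zero.mpr (NeZero.ne q)
  obtain ⟨k, m, h⟩ := id hx
  rw [← mbF_conj' F (mbHel N q k), ← mbF_L_int F hL (m * (q : ℤ) ^ k)]
  apply mbF_congr
  have hk := qpow_ne_zero q k
  apply sl2q_ext <;>
    simp only [Subgroup.coe_mul, Subgroup.coe_inv, mbHel_coe, mbLel_coe, sl2q_mul00, sl2q_mul01,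
      sl2q_mul10, sl2q_mul11, sl2q_inv00, sl2q_inv01, sl2q_inv10, sl2q_inv11, mbL_00, mbL_01,
      mbL_10, mbL_11, mbD_00, mbD_01, mbD_10, mbD_11]
  · field_simp
    ring
  · ring
  · push_cast
    rw [← h]
    field_simp
    ring
  · field_simp
    ring

include hT hL in
/-- (W) `F` kills `diag(v, 1/v)` for a unit `v` of `ℤ[1/q]` with `v ≡ 1 mod N`. -/
theorem mb_F_D (v : ℚ) (hv : v ≠ 0) (h : IsZq q v) (h' : IsZq q v⁻¹) (x : ℚ) (hx : IsZq q x)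
    (hvx : v - 1 = N * x) : F (Additive.ofMul (mbDel N q v hv h h')) = 0 := by
  have e : mbDel N q v hv h h' = mbLel N q (-(x * v⁻¹)) (hx.mul h').neg *
      mbUel N q 1 (isZq_one q) * mbLel N q x hx * mbUel N q (-v⁻¹) h'.neg := by
    apply Subtype.ext
    apply sl2q_ext <;>
      simp only [Subgroup.coe_mul, mbDel_coe, mbUel_coe, mbLel_coe, sl2q_mul00, sl2q_mul01,
        sl2q_mul10, sl2q_mul11, mbU_00, mbU_01, mbU_10, mbU_11, mbL_00, mbL_01, mbL_10, mbL_11,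
        mbD_00, mbD_01, mbD_10, mbD_11]
    · rw [← hvx]; ring
    · rw [← hvx]; field_simp; ring
    · have : (N : ℚ) * -(x * v⁻¹) = -((N * x) * v⁻¹) := by ring
      rw [this, ← hvx]; field_simp; ring
    · have : (N : ℚ) * -(x * v⁻¹) = -((N * x) * v⁻¹) := by ring
      rw [this, ← hvx]; field_simp; ring
  rw [e, mbF_mul, mbF_mul, mbF_mul, mb_F_L F hL, mb_F_L F hL, mb_F_U F hT, mb_F_U F hT]
  simp

include hT hL in
/-- `F` kills `h^(2j) = diag(q^(2j), q^(-2j))` when `q^(2j) ≡ 1 mod N`. -/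
theorem mb_F_H (k : ℕ) (hk : (q : ℤ) ^ k ≡ 1 [ZMOD (N : ℤ)]) :
    F (Additive.ofMul (mbHel N q k)) = 0 := by
  obtain ⟨t, ht⟩ := (Int.modEq_iff_dvd.mp hk.symm)
  refine mb_F_D F hT hL _ _ _ _ (t : ℚ) (isZq_int q t) ?_
  have : (((q : ℤ) ^ k - 1 : ℤ) : ℚ) = ((N * t : ℤ) : ℚ) := by rw [ht]
  push_cast at this
  exact this

include hT hL in
/-- `F` kills `-1` when `N ∣ 2`. -/
theorem mb_F_negOne (hN : N ∣ 2) (g : ↥(gamma0Inv N q)) (hg : (g : SL2Q) = -1) :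
    F (Additive.ofMul g) = 0 := by
  obtain ⟨t, ht⟩ := hN
  have h1 : IsZq q (-1 : ℚ) := (isZq_one q).neg
  have h1' : IsZq q ((-1 : ℚ))⁻¹ := by
    have : ((-1 : ℚ))⁻¹ = -1 := by norm_num
    rw [this]; exact h1
  rw [← mb_F_D F hT hL (-1) (by norm_num) h1 h1' (-(t : ℚ)) (isZq_nat q t).neg (by
    have : ((2 : ℕ) : ℚ) = ((N * t : ℕ) : ℚ) := by rw [ht]
    push_cast at this
    linarith)]
  apply mbF_congr
  rw [hg]
  apply sl2q_ext <;> simp [mbD]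

end Values

/-! ### Rows -/

section Rows

variable {N q : ℕ} [NeZero q] {V : Type*} [AddCommGroup V]
  (F : Additive ↥(gamma0Inv N q) →+ V)

/-- Some element of `Γ₀(N)[1/q]` with first row `(a, b)` has `F`-value `v`. -/
def IsRow (a b : ℚ) (v : V) : Prop :=
  ∃ g : ↥(gamma0Inv N q), g.1.1 0 0 = a ∧ g.1.1 0 1 = b ∧ F (Additive.ofMul g) = v

/-- Some element of `Γ₀(N)[1/q]` with bottom row `(c, d)` has `F`-value `v`. -/
def IsBot (c d : ℚ) (v : V) : Prop :=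
  ∃ g : ↥(gamma0Inv N q), g.1.1 1 0 = c ∧ g.1.1 1 1 = d ∧ F (Additive.ofMul g) = v

theorem isRow_of (g : ↥(gamma0Inv N q)) : IsRow F (g.1.1 0 0) (g.1.1 0 1) (F (Additive.ofMul g)) :=
  ⟨g, rfl, rfl, rfl⟩

theorem isBot_of (g : ↥(gamma0Inv N q)) : IsBot F (g.1.1 1 0) (g.1.1 1 1) (F (Additive.ofMul g)) :=
  ⟨g, rfl, rfl, rfl⟩

theorem isRow_iota (γ : ↥(Gamma0 N)) :
    IsRow F (γ.1.1 0 0 : ℚ) (γ.1.1 0 1 : ℚ) (F (Additive.ofMul (iotaInv N q γ))) :=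
  ⟨iotaInv N q γ, by simp [gamma0Q_apply], by simp [gamma0Q_apply], rfl⟩

theorem isBot_iota (γ : ↥(Gamma0 N)) :
    IsBot F (γ.1.1 1 0 : ℚ) (γ.1.1 1 1 : ℚ) (F (Additive.ofMul (iotaInv N q γ))) :=
  ⟨iotaInv N q γ, by simp [gamma0Q_apply], by simp [gamma0Q_apply], rfl⟩

theorem IsRow.congr {a b a' b' : ℚ} {v v' : V} (h : IsRow F a b v) (ha : a = a') (hb : b = b')
    (hv : v = v') : IsRow F a' b' v' := by
  subst ha hb hv; exact h

theorem IsBot.congr {c d c' d' : ℚ} {v v' : V} (h : IsBot F c d v) (hc : c = c') (hd : d = d')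
    (hv : v = v') : IsBot F c' d' v' := by
  subst hc hd hv; exact h

variable (hT : F (Additive.ofMul (iotaInv N q (Tel N))) = 0)
  (hL : F (Additive.ofMul (iotaInv N q (Lel N))) = 0)

include hL in
/-- The value of `F` depends only on the first row. -/
theorem IsRow.unique {a b : ℚ} {v v' : V} (h : IsRow F a b v) (h' : IsRow F a b v') : v = v' := by
  obtain ⟨g, ha, hb, rfl⟩ := h
  obtain ⟨g', ha', hb', rfl⟩ := h'
  obtain ⟨x, hx, hx'⟩ := isZq_lower_of_mem (g' * g⁻¹).2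
  have e0 : g'.1.1 0 0 = g.1.1 0 0 := ha'.trans ha.symm
  have e1 : g'.1.1 0 1 = g.1.1 0 1 := hb'.trans hb.symm
  have e : g' * g⁻¹ = mbLel N q x hx := by
    apply Subtype.ext
    have hd0 := sl2q_det g.1
    apply sl2q_ext
    · simp only [Subgroup.coe_mul, Subgroup.coe_inv, mbLel_coe, sl2q_mul00, sl2q_inv00,
        sl2q_inv10, mbL_00]
      rw [e0, e1]
      linarith
    · simp only [Subgroup.coe_mul, Subgroup.coe_inv, mbLel_coe, sl2q_mul01, sl2q_inv01,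
        sl2q_inv11, mbL_01]
      rw [e0, e1]
      ring
    · rw [hx']; rfl
    · have hd1 := sl2q_det g'.1
      simp only [Subgroup.coe_mul, Subgroup.coe_inv, mbLel_coe, sl2q_mul11, sl2q_inv01,
        sl2q_inv11, mbL_11]
      rw [← e0, ← e1]
      linarith
  have := mb_F_L F hL x hx
  rw [← e, mbF_mul, mbF_inv] at this
  exact (eq_of_sub_eq_zero (by rw [sub_eq_add_neg]; exact this)).symm

include hT in
/-- The value of `F` depends only on the bottom row. -/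
theorem IsBot.unique {c d : ℚ} {v v' : V} (h : IsBot F c d v) (h' : IsBot F c d v') : v = v' := by
  obtain ⟨g, hc, hd, rfl⟩ := h
  obtain ⟨g', hc', hd', rfl⟩ := h'
  have hx := isZq_of_mem (g' * g⁻¹).2 0 1
  have e0 : g'.1.1 1 0 = g.1.1 1 0 := hc'.trans hc.symm
  have e1 : g'.1.1 1 1 = g.1.1 1 1 := hd'.trans hd.symm
  have e : g' * g⁻¹ = mbUel N q _ hx := by
    apply Subtype.ext
    have hd0 := sl2q_det g.1
    apply sl2q_ext
    · have hd1 := sl2q_det g'.1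
      simp only [Subgroup.coe_mul, Subgroup.coe_inv, mbUel_coe, sl2q_mul00, sl2q_inv00,
        sl2q_inv10, mbU_00]
      rw [← e0, ← e1]
      linarith
    · rfl
    · simp only [Subgroup.coe_mul, Subgroup.coe_inv, mbUel_coe, sl2q_mul10, sl2q_inv00,
        sl2q_inv10, mbU_10]
      rw [e0, e1]
      ring
    · simp only [Subgroup.coe_mul, Subgroup.coe_inv, mbUel_coe, sl2q_mul11, sl2q_inv01,
        sl2q_inv11, mbU_11]
      rw [e0, e1]
      linarith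
  have := mb_F_U F hT _ hx
  rw [← e, mbF_mul, mbF_inv] at this
  exact (eq_of_sub_eq_zero (by rw [sub_eq_add_neg]; exact this)).symm

theorem mbHel_mul_self (N q : ℕ) [NeZero q] (j : ℕ) :
    mbHel N q j * mbHel N q j = mbHel N q (2 * j) := by
  have hq : (q : ℚ) ≠ 0 := Nat.cast_ne_zero.mpr (NeZero.ne q)
  apply Subtype.ext
  apply sl2q_ext <;>
    simp only [Subgroup.coe_mul, mbHel_coe, sl2q_mul00, sl2q_mul01, sl2q_mul10, sl2q_mul11,
      mbD_00, mbD_01, mbD_10, mbD_11]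
  · ring
  · ring
  · ring
  · field_simp
    ring

include hT hL in
theorem mbF_H_conj (j : ℕ) (hj : (q : ℤ) ^ (2 * j) ≡ 1 [ZMOD (N : ℤ)]) (g : ↥(gamma0Inv N q)) :
    F (Additive.ofMul (mbHel N q j * g * mbHel N q j)) = F (Additive.ofMul g) := by
  have h2 := mb_F_H F hT hL (2 * j) hj
  rw [← mbHel_mul_self, mbF_mul] at h2
  rw [mbF_mul, mbF_mul]
  calc F (Additive.ofMul (mbHel N q j)) + F (Additive.ofMul g) + F (Additive.ofMul (mbHel N q j))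
      = F (Additive.ofMul g) +
        (F (Additive.ofMul (mbHel N q j)) + F (Additive.ofMul (mbHel N q j))) := by abel
    _ = F (Additive.ofMul g) := by rw [h2, add_zero]

include hT hL in
theorem mbF_H_conj' (j : ℕ) (hj : (q : ℤ) ^ (2 * j) ≡ 1 [ZMOD (N : ℤ)]) (g : ↥(gamma0Inv N q)) :
    F (Additive.ofMul ((mbHel N q j)⁻¹ * g * (mbHel N q j)⁻¹)) = F (Additive.ofMul g) := by
  have h2 := mb_F_H F hT hL (2 * j) hj
  rw [← mbHel_mul_self, mbF_mul] at h2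
  rw [mbF_mul, mbF_mul, mbF_inv]
  calc -F (Additive.ofMul (mbHel N q j)) + F (Additive.ofMul g) +
        -F (Additive.ofMul (mbHel N q j))
      = F (Additive.ofMul g) -
        (F (Additive.ofMul (mbHel N q j)) + F (Additive.ofMul (mbHel N q j))) := by abel
    _ = F (Additive.ofMul g) := by rw [h2, sub_zero]

include hT in
/-- (M1) `(a, b) ↦ (a, b + x a)`, `x ∈ ℤ[1/q]`. -/
theorem IsRow.m1 {a b : ℚ} {v : V} (h : IsRow F a b v) {x : ℚ} (hx : IsZq q x) :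
    IsRow F a (b + x * a) v := by
  obtain ⟨g, ha, hb, rfl⟩ := h
  refine ⟨g * mbUel N q x hx, ?_, ?_, ?_⟩
  · simp only [Subgroup.coe_mul, mbUel_coe, sl2q_mul00, mbU_00, mbU_10]
    rw [ha]; ring
  · simp only [Subgroup.coe_mul, mbUel_coe, sl2q_mul01, mbU_01, mbU_11]
    rw [ha, hb]; ring
  · rw [mbF_mul, mb_F_U F hT, add_zero]

include hL in
/-- (M2) `(a, b) ↦ (a + N x b, b)`, `x ∈ ℤ[1/q]`. -/
theorem IsRow.m2 {a b : ℚ} {v : V} (h : IsRow F a b v) {x : ℚ} (hx : IsZq q x) :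
    IsRow F (a + N * x * b) b v := by
  obtain ⟨g, ha, hb, rfl⟩ := h
  refine ⟨g * mbLel N q x hx, ?_, ?_, ?_⟩
  · simp only [Subgroup.coe_mul, mbLel_coe, sl2q_mul00, mbL_00, mbL_10]
    rw [ha, hb]; ring
  · simp only [Subgroup.coe_mul, mbLel_coe, sl2q_mul01, mbL_01, mbL_11]
    rw [hb]; ring
  · rw [mbF_mul, mb_F_L F hL, add_zero]

include hT hL in
/-- (M5) `(a, b) ↦ (q^(2j) a, b)` when `q^(2j) ≡ 1 mod N`. -/
theorem IsRow.m5 {a b : ℚ} {v : V} (h : IsRow F a b v) (j : ℕ)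
    (hj : (q : ℤ) ^ (2 * j) ≡ 1 [ZMOD (N : ℤ)]) : IsRow F ((q : ℚ) ^ (2 * j) * a) b v := by
  have hq : (q : ℚ) ≠ 0 := Nat.cast_ne_zero.mpr (NeZero.ne q)
  obtain ⟨g, ha, hb, rfl⟩ := h
  refine ⟨mbHel N q j * g * mbHel N q j, ?_, ?_, mbF_H_conj F hT hL j hj g⟩
  · simp only [Subgroup.coe_mul, mbHel_coe, sl2q_mul00, sl2q_mul01, sl2q_mul10, mbD_00, mbD_01,
      mbD_10, mbD_11]
    rw [ha]; ring
  · simp only [Subgroup.coe_mul, mbHel_coe, sl2q_mul00, sl2q_mul01, sl2q_mul11, mbD_00, mbD_01,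
      mbD_10, mbD_11]
    rw [hb]; field_simp; ring

include hT hL in
/-- (M5') `(a, b) ↦ (a / q^(2j), b)` when `q^(2j) ≡ 1 mod N`. -/
theorem IsRow.m5' {a b : ℚ} {v : V} (h : IsRow F a b v) (j : ℕ)
    (hj : (q : ℤ) ^ (2 * j) ≡ 1 [ZMOD (N : ℤ)]) : IsRow F (a / (q : ℚ) ^ (2 * j)) b v := by
  have hq : (q : ℚ) ≠ 0 := Nat.cast_ne_zero.mpr (NeZero.ne q)
  obtain ⟨g, ha, hb, rfl⟩ := h
  refine ⟨(mbHel N q j)⁻¹ * g * (mbHel N q j)⁻¹, ?_, ?_, mbF_H_conj' F hT hL j hj g⟩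
  · simp only [Subgroup.coe_mul, Subgroup.coe_inv, mbHel_coe, sl2q_mul00, sl2q_mul01, sl2q_mul10,
      sl2q_inv00, sl2q_inv01, sl2q_inv10, sl2q_inv11, mbD_00, mbD_01, mbD_10, mbD_11]
    rw [ha]; field_simp; ring
  · simp only [Subgroup.coe_mul, Subgroup.coe_inv, mbHel_coe, sl2q_mul00, sl2q_mul01, sl2q_mul11,
      sl2q_inv00, sl2q_inv01, sl2q_inv10, sl2q_inv11, mbD_00, mbD_01, mbD_10, mbD_11]
    rw [hb]; field_simp; ring

include hT in
/-- `F` vanishes on the rows `(1, x)`. -/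
theorem isRow_one {x : ℚ} (hx : IsZq q x) : IsRow F 1 x 0 :=
  ⟨mbUel N q x hx, by simp, by simp, mb_F_U F hT x hx⟩

include hT in
/-- (B1) `(c, d) ↦ (c, d + x c)`, `x ∈ ℤ[1/q]`. -/
theorem IsBot.b1 {c d : ℚ} {v : V} (h : IsBot F c d v) {x : ℚ} (hx : IsZq q x) :
    IsBot F c (d + x * c) v := by
  obtain ⟨g, hc, hd, rfl⟩ := h
  refine ⟨g * mbUel N q x hx, ?_, ?_, ?_⟩
  · simp only [Subgroup.coe_mul, mbUel_coe, sl2q_mul10, mbU_00, mbU_10]
    rw [hc]; ring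
  · simp only [Subgroup.coe_mul, mbUel_coe, sl2q_mul11, mbU_01, mbU_11]
    rw [hc, hd]; ring
  · rw [mbF_mul, mb_F_U F hT, add_zero]

include hL in
/-- (B2) `(c, d) ↦ (c + N x d, d)`, `x ∈ ℤ[1/q]`. -/
theorem IsBot.b2 {c d : ℚ} {v : V} (h : IsBot F c d v) {x : ℚ} (hx : IsZq q x) :
    IsBot F (c + N * x * d) d v := by
  obtain ⟨g, hc, hd, rfl⟩ := h
  refine ⟨g * mbLel N q x hx, ?_, ?_, ?_⟩
  · simp only [Subgroup.coe_mul, mbLel_coe, sl2q_mul10, mbL_00, mbL_10]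
    rw [hc, hd]; ring
  · simp only [Subgroup.coe_mul, mbLel_coe, sl2q_mul11, mbL_01, mbL_11]
    rw [hd]; ring
  · rw [mbF_mul, mb_F_L F hL, add_zero]

include hT hL in
/-- (B5) `(c, d) ↦ (c, q^(2j) d)` when `q^(2j) ≡ 1 mod N`. -/
theorem IsBot.b5 {c d : ℚ} {v : V} (h : IsBot F c d v) (j : ℕ)
    (hj : (q : ℤ) ^ (2 * j) ≡ 1 [ZMOD (N : ℤ)]) : IsBot F c ((q : ℚ) ^ (2 * j) * d) v := by
  have hq : (q : ℚ) ≠ 0 := Nat.cast_ne_zero.mpr (NeZero.ne q)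
  obtain ⟨g, hc, hd, rfl⟩ := h
  refine ⟨(mbHel N q j)⁻¹ * g * (mbHel N q j)⁻¹, ?_, ?_, mbF_H_conj' F hT hL j hj g⟩
  · simp only [Subgroup.coe_mul, Subgroup.coe_inv, mbHel_coe, sl2q_mul00, sl2q_mul01, sl2q_mul10,
      sl2q_mul11, sl2q_inv00, sl2q_inv01, sl2q_inv10, sl2q_inv11, mbD_00, mbD_01, mbD_10, mbD_11]
    rw [hc]; field_simp; ring
  · simp only [Subgroup.coe_mul, Subgroup.coe_inv, mbHel_coe, sl2q_mul00, sl2q_mul01, sl2q_mul10,
      sl2q_mul11, sl2q_inv00, sl2q_inv01, sl2q_inv10, sl2q_inv11, mbD_00, mbD_01, mbD_10, mbD_11]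
    rw [hd]; ring

include hT hL in
/-- (B5') `(c, d) ↦ (c, d / q^(2j))` when `q^(2j) ≡ 1 mod N`. -/
theorem IsBot.b5' {c d : ℚ} {v : V} (h : IsBot F c d v) (j : ℕ)
    (hj : (q : ℤ) ^ (2 * j) ≡ 1 [ZMOD (N : ℤ)]) : IsBot F c (d / (q : ℚ) ^ (2 * j)) v := by
  have hq : (q : ℚ) ≠ 0 := Nat.cast_ne_zero.mpr (NeZero.ne q)
  obtain ⟨g, hc, hd, rfl⟩ := h
  refine ⟨mbHel N q j * g * mbHel N q j, ?_, ?_, mbF_H_conj F hT hL j hj g⟩
  · simp only [Subgroup.coe_mul, mbHel_coe, sl2q_mul00, sl2q_mul01, sl2q_mul10, sl2q_mul11,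
      mbD_00, mbD_01, mbD_10, mbD_11]
    rw [hc]; field_simp; ring
  · simp only [Subgroup.coe_mul, mbHel_coe, sl2q_mul00, sl2q_mul01, sl2q_mul10, sl2q_mul11,
      mbD_00, mbD_01, mbD_10, mbD_11]
    rw [hd]; field_simp; ring

include hL in
/-- `F` vanishes on the bottom rows `(N x, 1)`. -/
theorem isBot_one {x : ℚ} (hx : IsZq q x) : IsBot F (N * x) 1 0 :=
  ⟨mbLel N q x hx, by simp, by simp, mb_F_L F hL x hx⟩

end Rows


end Fermat.Agent.S41
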