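import Mathlib

/-!
# S41, Theorem M: Dirichlet's theorem with integer moduli and CRT

`mdir_prime`, `mdir_prime2`, `mdir_prime3`: primes in prescribed residue classes modulo one, two
or three pairwise coprime integer moduli.
-/

set_option autoImplicit false

namespace Fermat.Agent.S41.M

/-- Dirichlet's theorem with an integer modulus. -/
theorem mdir_prime (B : ℕ) {M a : ℤ} (hM : M ≠ 0) (h : IsCoprime a M) :
    ∃ π : ℕ, B < π ∧ π.Prime ∧ (π : ℤ) ≡ a [ZMOD M] := by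
  have hM' : M.natAbs ≠ 0 := Int.natAbs_ne_zero.mpr hM
  have h' : IsCoprime a (M.natAbs : ℤ) := by
    rcases Int.natAbs_eq M with e | e
    · rw [← e]; exact h
    · have : (M.natAbs : ℤ) = -M := by omega
      rw [this]; exact h.neg_right
  obtain ⟨π, hπB, hπ, hmod⟩ := Nat.forall_exists_prime_gt_and_zmodEq B hM' h'
  refine ⟨π, hπB, hπ, ?_⟩
  have hd : (M.natAbs : ℤ) ∣ a - π := hmod.dvd
  exact (Int.modEq_of_dvd ((Int.natAbs_dvd.mp hd)))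

/-- CRT for two coprime integer moduli. -/
theorem mdir_crt {M1 M2 : ℤ} (h12 : IsCoprime M1 M2) (a1 a2 : ℤ) :
    ∃ a : ℤ, a ≡ a1 [ZMOD M1] ∧ a ≡ a2 [ZMOD M2] := by
  obtain ⟨u, w, huw⟩ := h12
  refine ⟨a1 * (w * M2) + a2 * (u * M1), ?_, ?_⟩
  · refine Int.modEq_of_dvd ⟨(a1 - a2) * u, ?_⟩
    linear_combination (-a1) * huw
  · refine Int.modEq_of_dvd ⟨(a2 - a1) * w, ?_⟩
    linear_combination (-a2) * huw

theorem mdir_isCoprime_of_modEq {a b M : ℤ} (h : a ≡ b [ZMOD M]) (hb : IsCoprime b M) :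
    IsCoprime a M := by
  obtain ⟨k, hk⟩ := h.dvd
  obtain ⟨u, w, huw⟩ := hb
  exact ⟨u, w + u * k, by linear_combination huw - u * hk⟩

/-- Dirichlet's theorem for two coprime integer moduli. -/
theorem mdir_prime2 (B : ℕ) {M1 M2 a1 a2 : ℤ} (hM1 : M1 ≠ 0) (hM2 : M2 ≠ 0)
    (h12 : IsCoprime M1 M2) (h1 : IsCoprime a1 M1) (h2 : IsCoprime a2 M2) :
    ∃ π : ℕ, B < π ∧ π.Prime ∧ (π : ℤ) ≡ a1 [ZMOD M1] ∧ (π : ℤ) ≡ a2 [ZMOD M2] := by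
  obtain ⟨a, ha1, ha2⟩ := mdir_crt h12 a1 a2
  have hc : IsCoprime a (M1 * M2) :=
    IsCoprime.mul_right (mdir_isCoprime_of_modEq ha1 h1) (mdir_isCoprime_of_modEq ha2 h2)
  obtain ⟨π, hπB, hπ, hmod⟩ := mdir_prime B (mul_ne_zero hM1 hM2) hc
  exact ⟨π, hπB, hπ, (hmod.of_mul_right M2).trans ha1, (hmod.of_mul_left M1).trans ha2⟩

/-- Dirichlet's theorem for three pairwise coprime integer moduli. -/
theorem mdir_prime3 (B : ℕ) {M1 M2 M3 a1 a2 a3 : ℤ} (hM1 : M1 ≠ 0) (hM2 : M2 ≠ 0)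
    (hM3 : M3 ≠ 0) (h12 : IsCoprime M1 M2) (h13 : IsCoprime M1 M3) (h23 : IsCoprime M2 M3)
    (h1 : IsCoprime a1 M1) (h2 : IsCoprime a2 M2) (h3 : IsCoprime a3 M3) :
    ∃ π : ℕ, B < π ∧ π.Prime ∧ (π : ℤ) ≡ a1 [ZMOD M1] ∧ (π : ℤ) ≡ a2 [ZMOD M2] ∧
      (π : ℤ) ≡ a3 [ZMOD M3] := by
  obtain ⟨a, ha1, ha2⟩ := mdir_crt h12 a1 a2
  have hc : IsCoprime a (M1 * M2) :=
    IsCoprime.mul_right (mdir_isCoprime_of_modEq ha1 h1) (mdir_isCoprime_of_modEq ha2 h2)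
  obtain ⟨π, hπB, hπ, hmod, hmod3⟩ := mdir_prime2 B (mul_ne_zero hM1 hM2) hM3
    (IsCoprime.mul_left h13 h23) hc h3
  exact ⟨π, hπB, hπ, (hmod.of_mul_right M2).trans ha1, (hmod.of_mul_left M1).trans ha2, hmod3⟩

end Fermat.Agent.S41.M
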