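import Fermat.Agent.S41.M.Plan

/-!
# S41, Theorem M, route B: elementary consequences of `IsMZ`

`Φ : Γ₀(N) → ZMod p` with `IsMZ N q p Φ`.  Everything here is about integral matrices.
-/

set_option autoImplicit false

noncomputable section

namespace Fermat.Agent.S41.M

open Matrix CongruenceSubgroup
open scoped MatrixGroups

variable {N q p : ℕ} {Φ : ↥(Gamma0 N) → ZMod p}

/-- Two elements of `Γ₀(N)` with the same four entries are equal. -/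
theorem mz_ext {g h : ↥(Gamma0 N)} (h00 : g.1.1 0 0 = h.1.1 0 0) (h01 : g.1.1 0 1 = h.1.1 0 1)
    (h10 : g.1.1 1 0 = h.1.1 1 0) (h11 : g.1.1 1 1 = h.1.1 1 1) : g = h := by
  apply Subtype.ext
  apply Subtype.ext
  ext i j
  fin_cases i <;> fin_cases j
  · exact h00
  · exact h01
  · exact h10
  · exact h11

theorem mz_mul00 (g h : ↥(Gamma0 N)) :
    (g * h).1.1 0 0 = g.1.1 0 0 * h.1.1 0 0 + g.1.1 0 1 * h.1.1 1 0 := by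
  show ((g.1 * h.1 : SL(2, ℤ)) : Matrix (Fin 2) (Fin 2) ℤ) 0 0 = _
  rw [Matrix.SpecialLinearGroup.coe_mul, Matrix.mul_apply, Fin.sum_univ_two]

theorem mz_mul01 (g h : ↥(Gamma0 N)) :
    (g * h).1.1 0 1 = g.1.1 0 0 * h.1.1 0 1 + g.1.1 0 1 * h.1.1 1 1 := by
  show ((g.1 * h.1 : SL(2, ℤ)) : Matrix (Fin 2) (Fin 2) ℤ) 0 1 = _
  rw [Matrix.SpecialLinearGroup.coe_mul, Matrix.mul_apply, Fin.sum_univ_two]

theorem mz_mul10 (g h : ↥(Gamma0 N)) :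
    (g * h).1.1 1 0 = g.1.1 1 0 * h.1.1 0 0 + g.1.1 1 1 * h.1.1 1 0 := by
  show ((g.1 * h.1 : SL(2, ℤ)) : Matrix (Fin 2) (Fin 2) ℤ) 1 0 = _
  rw [Matrix.SpecialLinearGroup.coe_mul, Matrix.mul_apply, Fin.sum_univ_two]

theorem mz_mul11 (g h : ↥(Gamma0 N)) :
    (g * h).1.1 1 1 = g.1.1 1 0 * h.1.1 0 1 + g.1.1 1 1 * h.1.1 1 1 := by
  show ((g.1 * h.1 : SL(2, ℤ)) : Matrix (Fin 2) (Fin 2) ℤ) 1 1 = _
  rw [Matrix.SpecialLinearGroup.coe_mul, Matrix.mul_apply, Fin.sum_univ_two]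

theorem mz_inv00 (g : ↥(Gamma0 N)) : (g⁻¹).1.1 0 0 = g.1.1 1 1 := by
  show ((g.1⁻¹ : SL(2, ℤ)) : Matrix (Fin 2) (Fin 2) ℤ) 0 0 = _
  rw [Matrix.SpecialLinearGroup.coe_inv, Matrix.adjugate_fin_two]
  simp

theorem mz_inv01 (g : ↥(Gamma0 N)) : (g⁻¹).1.1 0 1 = - g.1.1 0 1 := by
  show ((g.1⁻¹ : SL(2, ℤ)) : Matrix (Fin 2) (Fin 2) ℤ) 0 1 = _
  rw [Matrix.SpecialLinearGroup.coe_inv, Matrix.adjugate_fin_two]
  simp

theorem mz_inv10 (g : ↥(Gamma0 N)) : (g⁻¹).1.1 1 0 = - g.1.1 1 0 := by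
  show ((g.1⁻¹ : SL(2, ℤ)) : Matrix (Fin 2) (Fin 2) ℤ) 1 0 = _
  rw [Matrix.SpecialLinearGroup.coe_inv, Matrix.adjugate_fin_two]
  simp

theorem mz_inv11 (g : ↥(Gamma0 N)) : (g⁻¹).1.1 1 1 = g.1.1 0 0 := by
  show ((g.1⁻¹ : SL(2, ℤ)) : Matrix (Fin 2) (Fin 2) ℤ) 1 1 = _
  rw [Matrix.SpecialLinearGroup.coe_inv, Matrix.adjugate_fin_two]
  simp

theorem mz_one (hΦ : IsMZ N q p Φ) : Φ 1 = 0 := by
  have := hΦ.mul 1 1
  rw [mul_one] at this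
  exact left_eq_add.mp this

theorem mz_inv (hΦ : IsMZ N q p Φ) (g : ↥(Gamma0 N)) : Φ g⁻¹ = - Φ g := by
  have := hΦ.mul g g⁻¹
  rw [mul_inv_cancel, mz_one hΦ] at this
  exact eq_neg_of_add_eq_zero_right this.symm

theorem mz_conj (hΦ : IsMZ N q p Φ) (x g : ↥(Gamma0 N)) : Φ (x * g * x⁻¹) = Φ g := by
  rw [hΦ.mul, hΦ.mul, mz_inv hΦ]
  ring

theorem mz_pow (hΦ : IsMZ N q p Φ) (g : ↥(Gamma0 N)) (n : ℕ) : Φ (g ^ n) = n * Φ g := by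
  induction n with
  | zero => simp [mz_one hΦ]
  | succ n ih => rw [pow_succ, hΦ.mul, ih]; push_cast; ring

/-- `Φ` depends only on the bottom row, and only on `d mod c`. -/
theorem mz_Tmove (hΦ : IsMZ N q p Φ) {g g' : ↥(Gamma0 N)} (hc : g'.1.1 1 0 = g.1.1 1 0)
    (hd : g'.1.1 1 1 ≡ g.1.1 1 1 [ZMOD g.1.1 1 0]) : Φ g' = Φ g := by
  refine hΦ.unitBot g g' 0 (by simp) hc ?_
  simpa using hd

theorem mz_sameRow (hΦ : IsMZ N q p Φ) {g g' : ↥(Gamma0 N)} (hc : g'.1.1 1 0 = g.1.1 1 0)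
    (hd : g'.1.1 1 1 = g.1.1 1 1) : Φ g' = Φ g :=
  mz_Tmove hΦ hc (by rw [hd])

/-- `Φ` depends only on the top row, and only on `a mod N b`. -/
theorem mz_topMove (hΦ : IsMZ N q p Φ) {g g' : ↥(Gamma0 N)} (hb : g'.1.1 0 1 = g.1.1 0 1)
    (ha : g'.1.1 0 0 ≡ g.1.1 0 0 [ZMOD (N : ℤ) * g.1.1 0 1]) : Φ g' = Φ g := by
  refine hΦ.unitTop g g' 0 (by simp) hb ?_
  simpa using ha

theorem mz_sameTop (hΦ : IsMZ N q p Φ) {g g' : ↥(Gamma0 N)} (hb : g'.1.1 0 1 = g.1.1 0 1)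
    (ha : g'.1.1 0 0 = g.1.1 0 0) : Φ g' = Φ g :=
  mz_topMove hΦ hb (by rw [ha])

/-- `L_N^k = [[1, 0], [N k, 1]]`. -/
def Lk (N : ℕ) (k : ℤ) : ↥(Gamma0 N) := gamma0Mk N 1 0 (N * k) 1 (by ring) (dvd_mul_right _ _)

/-- `T^k = [[1, k], [0, 1]]`. -/
def Tk (N : ℕ) (k : ℤ) : ↥(Gamma0 N) := gamma0Mk N 1 k 0 1 (by ring) (dvd_zero _)

/-- `-1`. -/
def negOne (N : ℕ) : ↥(Gamma0 N) := gamma0Mk N (-1) 0 0 (-1) (by ring) (dvd_zero _)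

theorem mz_Tk (hΦ : IsMZ N q p Φ) (k : ℤ) : Φ (Tk N k) = 0 := by
  have h1 : Φ (Tk N k) = Φ 1 := by
    refine mz_sameRow hΦ ?_ ?_
    · show (0 : ℤ) = (1 : Matrix (Fin 2) (Fin 2) ℤ) 1 0
      simp
    · show (1 : ℤ) = (1 : Matrix (Fin 2) (Fin 2) ℤ) 1 1
      simp
  rw [h1, mz_one hΦ]

theorem mz_Lk (hΦ : IsMZ N q p Φ) (k : ℤ) : Φ (Lk N k) = 0 := by
  have h1 : Φ (Lk N k) = Φ 1 := by
    refine mz_sameTop hΦ ?_ ?_
    · show (0 : ℤ) = (1 : Matrix (Fin 2) (Fin 2) ℤ) 0 1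
      simp
    · show (1 : ℤ) = (1 : Matrix (Fin 2) (Fin 2) ℤ) 0 0
      simp
  rw [h1, mz_one hΦ]

theorem mz_negOne (hp : p.Prime) (hp2 : p ≠ 2) (hΦ : IsMZ N q p Φ) : Φ (negOne N) = 0 := by
  haveI : Fact p.Prime := ⟨hp⟩
  have h1 : negOne N * negOne N = 1 := by
    apply mz_ext
    · rw [mz_mul00]; show (-1 : ℤ) * (-1) + 0 * 0 = (1 : Matrix (Fin 2) (Fin 2) ℤ) 0 0; simp
    · rw [mz_mul01]; show (-1 : ℤ) * 0 + 0 * (-1) = (1 : Matrix (Fin 2) (Fin 2) ℤ) 0 1; simp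
    · rw [mz_mul10]; show (0 : ℤ) * (-1) + (-1) * 0 = (1 : Matrix (Fin 2) (Fin 2) ℤ) 1 0; simp
    · rw [mz_mul11]; show (0 : ℤ) * 0 + (-1) * (-1) = (1 : Matrix (Fin 2) (Fin 2) ℤ) 1 1; simp
  have h2 := hΦ.mul (negOne N) (negOne N)
  rw [h1, mz_one hΦ] at h2
  have h3 : (2 : ZMod p) * Φ (negOne N) = 0 := by rw [two_mul]; exact h2.symm
  have h4 : (2 : ZMod p) ≠ 0 := by
    intro h
    have : ((2 : ℕ) : ZMod p) = 0 := by exact_mod_cast h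
    rw [ZMod.natCast_eq_zero_iff] at this
    exact hp2 ((Nat.prime_dvd_prime_iff_eq hp Nat.prime_two).mp this)
  exact (mul_eq_zero.mp h3).resolve_left h4

/-- `Φ (-g) = Φ g`: two matrices whose entries differ by the sign. -/
theorem mz_neg (hp : p.Prime) (hp2 : p ≠ 2) (hΦ : IsMZ N q p Φ) {g g' : ↥(Gamma0 N)}
    (hc : g'.1.1 1 0 = - g.1.1 1 0) (hd : g'.1.1 1 1 = - g.1.1 1 1) : Φ g' = Φ g := by
  have h1 : Φ g' = Φ (negOne N * g) := by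
    refine mz_sameRow hΦ ?_ ?_
    · rw [hc, mz_mul10]; show _ = (0 : ℤ) * _ + (-1) * _; ring
    · rw [hd, mz_mul11]; show _ = (0 : ℤ) * _ + (-1) * _; ring
  rw [h1, hΦ.mul, mz_negOne hp hp2 hΦ, zero_add]

/-- `Φ` depends only on `d` and on `c mod N d`. -/
theorem mz_Lmove (hΦ : IsMZ N q p Φ) {g g' : ↥(Gamma0 N)} (hd : g'.1.1 1 1 = g.1.1 1 1)
    (hc : g'.1.1 1 0 ≡ g.1.1 1 0 [ZMOD (N : ℤ) * g.1.1 1 1]) : Φ g' = Φ g := by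
  obtain ⟨k, hk⟩ := hc.symm.dvd
  have h1 : Φ g' = Φ (g * Lk N k) := by
    refine mz_sameRow hΦ ?_ ?_
    · rw [mz_mul10]
      show _ = g.1.1 1 0 * (1 : ℤ) + g.1.1 1 1 * ((N : ℤ) * k)
      linear_combination hk
    · rw [mz_mul11, hd]
      show _ = g.1.1 1 0 * (0 : ℤ) + g.1.1 1 1 * (1 : ℤ)
      ring
  rw [h1, hΦ.mul, mz_Lk hΦ, add_zero]

/-- Every primitive row `(c, d)` with `N ∣ c` is the bottom row of an element of `Γ₀(N)`. -/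
theorem mz_exists_row (N : ℕ) {c d : ℤ} (hc : (N : ℤ) ∣ c) (hcd : IsCoprime c d) :
    ∃ g : ↥(Gamma0 N), g.1.1 1 0 = c ∧ g.1.1 1 1 = d := by
  obtain ⟨u, v, huv⟩ := hcd
  exact ⟨gamma0Mk N v (-u) c d (by linear_combination huv) hc, rfl, rfl⟩

/-- The bottom row of an element of `Γ₀(N)` is primitive. -/
theorem mz_isCoprime (g : ↥(Gamma0 N)) : IsCoprime (g.1.1 1 0) (g.1.1 1 1) :=
  ⟨- g.1.1 0 1, g.1.1 0 0, by linear_combination gamma0_det N g⟩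

/-- (0d): rows `(± N, e)` with `e ≡ ± 1 mod N` are killed. -/
theorem mz_rowN (hp : p.Prime) (hp2 : p ≠ 2) (hΦ : IsMZ N q p Φ) {g : ↥(Gamma0 N)}
    (hc : g.1.1 1 0 = N ∨ g.1.1 1 0 = -N)
    (hd : g.1.1 1 1 ≡ 1 [ZMOD (N : ℤ)] ∨ g.1.1 1 1 ≡ -1 [ZMOD (N : ℤ)]) : Φ g = 0 := by
  -- reduce to `c = N`, `d ≡ 1`
  have key : ∀ g : ↥(Gamma0 N), g.1.1 1 0 = N ∨ g.1.1 1 0 = -N →
      g.1.1 1 1 ≡ 1 [ZMOD (N : ℤ)] → Φ g = 0 := by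
    intro g hc hd
    rcases hc with hc | hc
    · have : Φ g = Φ (Lk N 1) := by
        refine mz_Tmove hΦ ?_ ?_
        · rw [hc]; show (N : ℤ) = (N : ℤ) * 1; ring
        · have e : (Lk N 1).1.1 1 0 = N := by show (N : ℤ) * 1 = N; ring
          rw [e]
          exact hd
      rw [this, mz_Lk hΦ]
    · have : Φ g = Φ (Lk N (-1)) := by
        refine mz_Tmove hΦ ?_ ?_
        · rw [hc]; show (-(N : ℤ)) = (N : ℤ) * (-1); ring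
        · have e : (Lk N (-1)).1.1 1 0 = -N := by show (N : ℤ) * (-1) = -N; ring
          rw [e]
          exact (Int.modEq_neg).mpr hd
      rw [this, mz_Lk hΦ]
  rcases hd with hd | hd
  · exact key g hc hd
  · obtain ⟨g', hg'c, hg'd⟩ := mz_exists_row N (c := - g.1.1 1 0) (d := - g.1.1 1 1)
      ((dvd_neg).mpr (gamma0_dvd N g)) (mz_isCoprime g).neg_neg
    have h1 : Φ g' = Φ g := mz_neg hp hp2 hΦ hg'c hg'd
    rw [← h1]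
    refine key g' ?_ ?_
    · rw [hg'c]
      rcases hc with hc | hc
      · right; rw [hc]
      · left; rw [hc]; ring
    · rw [hg'd]
      have := hd.neg
      simpa using this

end Fermat.Agent.S41.M
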