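import Mathlib

/-!
# S41, Theorem M, route C: number theory helpers

LTE lifting (`mc_lift`), Dirichlet + CRT helpers, Step A (`mc_stepA`).
-/

set_option autoImplicit false

namespace Fermat.Agent.S41.M


/-- `(1 + y)^t ≡ 1 + t y mod y²`. -/
theorem mc_one_add_pow (y : ℤ) (t : ℕ) : y ^ 2 ∣ (1 + y) ^ t - (1 + t * y) := by
  induction t with
  | zero => simp
  | succ t ih =>
    obtain ⟨z, hz⟩ := ih
    refine ⟨(1 + y) * z + t, ?_⟩
    have : (1 + y) ^ (t + 1) - (1 + ((t + 1 : ℕ) : ℤ) * y)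
        = (1 + y) * ((1 + y) ^ t - (1 + t * y)) + t * y ^ 2 := by
      push_cast
      ring
    rw [this, hz]
    ring

/-- Lifting the exponent, in divisibility form. -/
theorem mc_lte (r : ℕ) (hr : r.Prime) (hr2 : r ≠ 2) (g : ℤ) (e : ℕ) (he : 1 ≤ e)
    (hge : (r : ℤ) ^ e ∣ g - 1) (hge' : ¬ (r : ℤ) ^ (e + 1) ∣ g - 1) (n : ℕ) :
    (r : ℤ) ^ (e + n) ∣ g ^ (r ^ n) - 1 ∧ ¬ (r : ℤ) ^ (e + n + 1) ∣ g ^ (r ^ n) - 1 := by
  have hodd : Odd r := hr.odd_of_ne_two hr2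
  have hr1 : (r : ℤ) ∣ g - 1 := dvd_trans (dvd_pow_self _ (by omega)) hge
  have hrg : ¬ (r : ℤ) ∣ g := by
    intro h
    have h1 : (r : ℤ) ∣ 1 := by
      have := dvd_sub h hr1
      simpa using this
    have := Int.natAbs_dvd_natAbs.mpr h1
    simp at this
    exact hr.one_lt.ne' this
  have h := Int.emultiplicity_pow_sub_pow hr hodd (x := g) (y := 1) hr1 hrg (r ^ n)
  rw [one_pow] at h
  have h1 : emultiplicity (r : ℤ) (g - 1) = e := emultiplicity_eq_coe.mpr ⟨hge, hge'⟩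
  have h2 : emultiplicity r (r ^ n) = n := by
    have := Nat.Prime.emultiplicity_pow_self (p := r) (n := n) hr
    simpa using this
  rw [h1, h2] at h
  have h3 : emultiplicity (r : ℤ) (g ^ r ^ n - 1) = ((e + n : ℕ) : ℕ∞) := by
    rw [h]; push_cast; rfl
  exact emultiplicity_eq_coe.mp h3

/-- solving a linear congruence mod a prime -/
theorem mc_solve_lin (r : ℕ) (hr : r.Prime) (c v : ℤ) (hv : ¬ (r : ℤ) ∣ v) :
    ∃ t : ℕ, (r : ℤ) ∣ c - v * t := by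
  have : Fact r.Prime := ⟨hr⟩
  have hv' : ((v : ℤ) : ZMod r) ≠ 0 := by
    rwa [Ne, ZMod.intCast_zmod_eq_zero_iff_dvd]
  refine ⟨((c : ZMod r) * ((v : ℤ) : ZMod r)⁻¹).val, ?_⟩
  rw [← ZMod.intCast_zmod_eq_zero_iff_dvd]
  push_cast
  rw [ZMod.natCast_val, ZMod.cast_id', id]
  field_simp
  ring

/-- The key lifting step: `g` generates the classes `≡ 1 mod N r^e` modulo `N r^E`. -/
theorem mc_lift (N r : ℕ) (hr : r.Prime) (hr2 : r ≠ 2) (hNr : ¬ r ∣ N) (g : ℤ) (e : ℕ)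
    (he : 1 ≤ e) (hgN : (N : ℤ) ∣ g - 1) (hge : (r : ℤ) ^ e ∣ g - 1)
    (hge' : ¬ (r : ℤ) ^ (e + 1) ∣ g - 1)
    (x y : ℤ) (hy : ¬ (r : ℤ) ∣ y) (hxy : (N : ℤ) * (r : ℤ) ^ e ∣ x - y) (n : ℕ) :
    ∃ k : ℕ, (N : ℤ) * (r : ℤ) ^ (e + n) ∣ x - y * g ^ k := by
  have hrp : Prime (r : ℤ) := Nat.prime_iff_prime_int.mp hr
  have hr1 : (r : ℤ) ∣ g - 1 := dvd_trans (dvd_pow_self _ (by omega)) hge
  have hrg : ¬ (r : ℤ) ∣ g := by
    intro h
    have h1 : (r : ℤ) ∣ 1 := by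
      have := dvd_sub h hr1
      simpa using this
    exact hrp.not_dvd_one h1
  have hcop : ∀ m : ℕ, IsCoprime (N : ℤ) ((r : ℤ) ^ m) := by
    intro m
    apply IsCoprime.pow_right
    rw [isCoprime_comm, hrp.coprime_iff_not_dvd]
    intro h
    exact hNr (by exact_mod_cast h)
  induction n with
  | zero => exact ⟨0, by simpa using hxy⟩
  | succ n ih =>
    obtain ⟨k, hk⟩ := ih
    obtain ⟨hw, hw'⟩ := mc_lte r hr hr2 g e he hge hge' n
    have hwN : (N : ℤ) ∣ g ^ (r ^ n) - 1 := by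
      have := sub_dvd_pow_sub_pow g 1 (r ^ n)
      rw [one_pow] at this
      exact dvd_trans hgN this
    obtain ⟨u, hu⟩ := (hcop (e + n)).mul_dvd hwN hw
    have hru : ¬ (r : ℤ) ∣ u := by
      intro h
      apply hw'
      obtain ⟨u', rfl⟩ := h
      rw [hu]
      exact ⟨N * u', by ring⟩
    obtain ⟨c, hc⟩ := hk
    have hv : ¬ (r : ℤ) ∣ y * g ^ k * u := by
      intro h
      rcases hrp.dvd_or_dvd h with h | h
      · rcases hrp.dvd_or_dvd h with h | h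
        · exact hy h
        · exact hrg (hrp.dvd_of_dvd_pow h)
      · exact hru h
    obtain ⟨t, ht⟩ := mc_solve_lin r hr c (y * g ^ k * u) hv
    obtain ⟨z, hz⟩ := mc_one_add_pow ((N : ℤ) * (r : ℤ) ^ (e + n) * u) t
    obtain ⟨s, hs⟩ := ht
    refine ⟨k + r ^ n * t, ?_⟩
    have hgw : g ^ (r ^ n) = 1 + (N : ℤ) * (r : ℤ) ^ (e + n) * u := by
      rw [← hu]; ring
    have hpos : ∃ f : ℕ, e + n = f + 1 := ⟨e + n - 1, by omega⟩
    obtain ⟨f, hf⟩ := hpos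
    refine ⟨s - y * g ^ k * (N * (r : ℤ) ^ f * u ^ 2 * z), ?_⟩
    have e1 : x - y * g ^ (k + r ^ n * t)
        = (x - y * g ^ k) - y * g ^ k * ((g ^ (r ^ n)) ^ t - 1) := by
      rw [pow_add, pow_mul]; ring
    have e2 : (g ^ (r ^ n)) ^ t - 1
        = ((1 + (N : ℤ) * (r : ℤ) ^ (e + n) * u) ^ t
            - (1 + (t : ℤ) * ((N : ℤ) * (r : ℤ) ^ (e + n) * u)))
          + (t : ℤ) * ((N : ℤ) * (r : ℤ) ^ (e + n) * u) := by
      rw [hgw]; ring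
    rw [e1, e2, hz, hc]
    have e3 : c = y * g ^ k * u * t + r * s := by linarith
    rw [e3, show e + (n + 1) = (f + 1) + 1 by omega, hf]
    ring



/-- CRT for two coprime moduli over `ℤ`. -/
theorem mc_crt (m n : ℕ) (hmn : Nat.Coprime m n) (x y : ℤ) :
    ∃ z : ℤ, (m : ℤ) ∣ z - x ∧ (n : ℤ) ∣ z - y := by
  have h : IsCoprime (m : ℤ) (n : ℤ) := Nat.isCoprime_iff_coprime.mpr hmn
  obtain ⟨u, v, huv⟩ := h
  refine ⟨x * (v * n) + y * (u * m), ⟨u * (y - x), ?_⟩, ⟨v * (x - y), ?_⟩⟩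
  · linear_combination x * huv
  · linear_combination y * huv

/-- Coprimality transfers along a congruence. -/
theorem mc_coprime_of_dvd_sub (m : ℕ) (z x : ℤ) (h : (m : ℤ) ∣ z - x) (hx : IsCoprime x m) :
    IsCoprime z m := by
  obtain ⟨k, hk⟩ := h
  have : z = x + m * k := by linarith
  rw [this]
  exact hx.add_mul_left_left k

/-- Dirichlet with an integer residue. -/
theorem mc_dirichlet (m : ℕ) (hm : m ≠ 0) (x : ℤ) (hx : IsCoprime x m) (B : ℕ) :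
    ∃ p : ℕ, B < p ∧ p.Prime ∧ (m : ℤ) ∣ p - x := by
  obtain ⟨p, hp, hpp, h⟩ := Nat.forall_exists_prime_gt_and_zmodEq B hm hx
  exact ⟨p, hp, hpp, Int.modEq_iff_dvd.mp h.symm⟩

theorem mc_dirichlet2 (m n : ℕ) (hm : m ≠ 0) (hn : n ≠ 0) (hmn : Nat.Coprime m n) (x y : ℤ)
    (hx : IsCoprime x m) (hy : IsCoprime y n) (B : ℕ) :
    ∃ p : ℕ, B < p ∧ p.Prime ∧ (m : ℤ) ∣ p - x ∧ (n : ℤ) ∣ p - y := by
  obtain ⟨z, hz1, hz2⟩ := mc_crt m n hmn x y
  have hzm := mc_coprime_of_dvd_sub m z x hz1 hx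
  have hzn := mc_coprime_of_dvd_sub n z y hz2 hy
  have hzmn : IsCoprime z ((m * n : ℕ) : ℤ) := by
    push_cast
    exact hzm.mul_right hzn
  obtain ⟨p, hp, hpp, h⟩ := mc_dirichlet (m * n) (Nat.mul_ne_zero hm hn) z hzmn B
  refine ⟨p, hp, hpp, ?_, ?_⟩
  · have h1 : (m : ℤ) ∣ p - z := dvd_trans ⟨n, by push_cast; ring⟩ h
    have := dvd_add h1 hz1
    simpa using this
  · have h1 : (n : ℤ) ∣ p - z := dvd_trans ⟨m, by push_cast; ring⟩ h
    have := dvd_add h1 hz2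
    simpa using this

theorem mc_dirichlet3 (m n k : ℕ) (hm : m ≠ 0) (hn : n ≠ 0) (hk : k ≠ 0)
    (hmn : Nat.Coprime m n) (hmk : Nat.Coprime m k) (hnk : Nat.Coprime n k) (x y w : ℤ)
    (hx : IsCoprime x m) (hy : IsCoprime y n) (hw : IsCoprime w k) (B : ℕ) :
    ∃ p : ℕ, B < p ∧ p.Prime ∧ (m : ℤ) ∣ p - x ∧ (n : ℤ) ∣ p - y ∧ (k : ℤ) ∣ p - w := by
  obtain ⟨z, hz1, hz2⟩ := mc_crt m n hmn x y
  have hzm := mc_coprime_of_dvd_sub m z x hz1 hx
  have hzn := mc_coprime_of_dvd_sub n z y hz2 hy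
  have hzmn : IsCoprime z ((m * n : ℕ) : ℤ) := by
    push_cast
    exact hzm.mul_right hzn
  obtain ⟨p, hp, hpp, h, h'⟩ := mc_dirichlet2 (m * n) k (Nat.mul_ne_zero hm hn) hk
    (Nat.Coprime.mul_left hmk hnk) z w hzmn hw B
  refine ⟨p, hp, hpp, ?_, ?_, h'⟩
  · have h1 : (m : ℤ) ∣ p - z := dvd_trans ⟨n, by push_cast; ring⟩ h
    have := dvd_add h1 hz1
    simpa using this
  · have h1 : (n : ℤ) ∣ p - z := dvd_trans ⟨m, by push_cast; ring⟩ h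
    have := dvd_add h1 hz2
    simpa using this

/-- a prime exceeding a positive number does not divide it -/
theorem mc_not_dvd_of_lt {r x : ℕ} (hx : 0 < x) (h : x < r) : ¬ r ∣ x :=
  Nat.not_dvd_of_pos_of_lt hx h

/-- an odd prime dividing `x + 1` does not divide `x - 1` -/
theorem mc_not_dvd_pred (s : ℕ) (hs : s.Prime) (hs2 : s ≠ 2) (x : ℕ) (hx : 1 ≤ x)
    (h : (s : ℤ) ∣ (x : ℤ) + 1) : ¬ s ∣ x - 1 := by
  intro h'
  have h2 : (s : ℤ) ∣ ((x - 1 : ℕ) : ℤ) := by exact_mod_cast h'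
  rw [Nat.cast_sub hx] at h2
  have h3 : (s : ℤ) ∣ 2 := by
    have := dvd_sub h h2
    have e : (x : ℤ) + 1 - ((x : ℤ) - ((1 : ℕ) : ℤ)) = 2 := by push_cast; ring
    rwa [e] at this
  have h4 : s ∣ 2 := by exact_mod_cast h3
  exact hs2 ((Nat.prime_dvd_prime_iff_eq hs Nat.prime_two).mp h4)

/-- Step A: `a' = π₁ π₂` with exponent `Λ = (π₁ - 1)(π₂ - 1)` prime to the odd primes of `N q`. -/
theorem mc_stepA (N q : ℕ) (hN : 0 < N) (hq : q.Prime) (hqN : ¬ q ∣ N) (a b : ℤ)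
    (hab : IsCoprime a b) (ha : (N : ℤ) ∣ a - 1) (hb : b ≠ 0) (hqb : ¬ (q : ℤ) ∣ b) :
    ∃ a' Λ : ℕ, 0 < a' ∧ 0 < Λ ∧ (N : ℤ) * b ∣ a' - a ∧
      (∀ x : ℕ, x.Coprime a' → (a' : ℤ) ∣ (x : ℤ) ^ Λ - 1) ∧
      (∀ s : ℕ, s.Prime → s ≠ 2 → s ∣ N * q → ¬ s ∣ Λ) := by
  set b₀ : ℕ := b.natAbs with hb₀
  have hb₀pos : 0 < b₀ := Int.natAbs_pos.mpr hb
  have hbb₀ : b ∣ (b₀ : ℤ) := by rw [hb₀]; exact Int.dvd_natAbs.mpr dvd_rfl
  have hb₀b : (b₀ : ℤ) ∣ b := by rw [hb₀]; exact Int.natAbs_dvd.mpr dvd_rfl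
  have haN : IsCoprime a (N : ℤ) := mc_coprime_of_dvd_sub N a 1 ha isCoprime_one_left
  have hab₀ : IsCoprime a (b₀ : ℤ) := hab.of_isCoprime_of_dvd_right hb₀b
  -- π₁
  obtain ⟨p1, hp1B, hp1, hp1c⟩ := mc_dirichlet (N * q * b₀)
    (Nat.mul_ne_zero (Nat.mul_ne_zero hN.ne' hq.ne_zero) hb₀pos.ne') (-1)
    (isCoprime_one_left.neg_left) 2
  -- π₂
  have hcop : Nat.Coprime (N * b₀) q := by
    rw [Nat.coprime_comm, Nat.Prime.coprime_iff_not_dvd hq]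
    intro h
    rcases (Nat.Prime.dvd_mul hq).mp h with h | h
    · exact hqN h
    · apply hqb
      have : (q : ℤ) ∣ (b₀ : ℤ) := by exact_mod_cast h
      exact dvd_trans this hb₀b
  obtain ⟨p2, hp2B, hp2, hp2c, hp2q⟩ := mc_dirichlet2 (N * b₀) q
    (Nat.mul_ne_zero hN.ne' hb₀pos.ne') hq.ne_zero hcop (-a) (-1)
    (by push_cast; exact (haN.mul_right hab₀).neg_left) (isCoprime_one_left.neg_left) p1
  have h1le : 1 ≤ p1 := hp1.one_lt.le
  have h2le : 1 ≤ p2 := hp2.one_lt.le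
  refine ⟨p1 * p2, (p1 - 1) * (p2 - 1), Nat.mul_pos hp1.pos hp2.pos,
    Nat.mul_pos (by omega) (by omega), ?_, ?_, ?_⟩
  · obtain ⟨k1, hk1⟩ := hp1c
    obtain ⟨k2, hk2⟩ := hp2c
    obtain ⟨β, hβ⟩ := hbb₀
    have e1 : (p1 : ℤ) = -1 + (N * q * b₀ : ℕ) * k1 := by linarith
    have e2 : (p2 : ℤ) = -a + (N * b₀ : ℕ) * k2 := by linarith
    refine ⟨β * (-k2 - a * q * k1 + N * b₀ * q * k1 * k2), ?_⟩
    push_cast at e1 e2 ⊢
    rw [e1, e2]
    have : (N : ℤ) * b * (β * (-k2 - a * q * k1 + N * b₀ * q * k1 * k2))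
        = N * (b * β) * (-k2 - a * q * k1 + N * b₀ * q * k1 * k2) := by ring
    rw [this, ← hβ]
    ring
  · intro x hx
    have hx1 : IsCoprime (x : ℤ) (p1 : ℤ) :=
      Nat.isCoprime_iff_coprime.mpr (Nat.Coprime.coprime_mul_right_right hx)
    have hx2 : IsCoprime (x : ℤ) (p2 : ℤ) :=
      Nat.isCoprime_iff_coprime.mpr (Nat.Coprime.coprime_mul_left_right hx)
    have f1 := Int.ModEq.pow_card_sub_one_eq_one hp1 hx1
    have f2 := Int.ModEq.pow_card_sub_one_eq_one hp2 hx2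
    have g1 : (p1 : ℤ) ∣ (x : ℤ) ^ ((p1 - 1) * (p2 - 1)) - 1 := by
      have := (f1.pow (p2 - 1))
      rw [one_pow, ← pow_mul] at this
      exact Int.modEq_iff_dvd.mp this.symm
    have g2 : (p2 : ℤ) ∣ (x : ℤ) ^ ((p1 - 1) * (p2 - 1)) - 1 := by
      have := (f2.pow (p1 - 1))
      rw [one_pow, ← pow_mul, mul_comm] at this
      exact Int.modEq_iff_dvd.mp this.symm
    have hne : p1 ≠ p2 := by omega
    have hc12 : IsCoprime (p1 : ℤ) (p2 : ℤ) :=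
      Nat.isCoprime_iff_coprime.mpr ((Nat.coprime_primes hp1 hp2).mpr hne)
    have := hc12.mul_dvd g1 g2
    push_cast
    exact this
  · intro s hs hs2 hsNq hsΛ
    have hs1 : (s : ℤ) ∣ (p1 : ℤ) + 1 := by
      have h1 : (s : ℤ) ∣ ((N * q * b₀ : ℕ) : ℤ) := by
        have : s ∣ N * q * b₀ := dvd_mul_of_dvd_left hsNq b₀
        exact_mod_cast this
      have := dvd_trans h1 hp1c
      simpa using this
    have hs2' : (s : ℤ) ∣ (p2 : ℤ) + 1 := by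
      rcases (Nat.Prime.dvd_mul hs).mp hsNq with h | h
      · have h1 : (s : ℤ) ∣ ((N * b₀ : ℕ) : ℤ) := by
          have : s ∣ N * b₀ := dvd_mul_of_dvd_left h b₀
          exact_mod_cast this
        have h2 := dvd_trans h1 hp2c
        have h3 : (s : ℤ) ∣ a - 1 := dvd_trans (by exact_mod_cast h) ha
        have := dvd_sub h2 h3
        have e : (p2 : ℤ) - -a - (a - 1) = p2 + 1 := by ring
        rwa [e] at this
      · have hsq : s = q := (Nat.prime_dvd_prime_iff_eq hs hq).mp h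
        subst hsq
        simpa using hp2q
    rcases (Nat.Prime.dvd_mul hs).mp hsΛ with h | h
    · exact mc_not_dvd_pred s hs hs2 p1 h1le hs1 h
    · exact mc_not_dvd_pred s hs hs2 p2 h2le hs2' h

end Fermat.Agent.S41.M
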