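import Mathlib

/-!
# Route C of Theorem M (S41): two number-theoretic bricks

* `mc_index`: for an odd prime `ℓ` modulo which `q` is not a square, the index
  `m = (ℓ - 1) / ord_ℓ(q)` is odd, divides `ℓ - 1`, and every `m`-th power of a unit
  modulo `ℓ` is a power of `q` modulo `ℓ`.
* `mc_qr_class`: there is a residue class `c` modulo some `Q` (built from the primes of
  `2 N q` only) all of whose primes `ℓ` satisfy `ℓ ≡ 1 [MOD N]`, `ℓ ≠ 2` and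
  `q` is not a square modulo `ℓ`.

Mathlib only.
-/

namespace Fermat.Agent.S41.M

/-- Auxiliary: a non-square residue is nonzero. -/
theorem mc_idx_ne_zero {ℓ : ℕ} {x : ZMod ℓ} (hx : ¬ IsSquare x) : x ≠ 0 := by
  rintro rfl
  exact hx ⟨0, by simp⟩

theorem mc_index (ℓ q : ℕ) (hℓ : ℓ.Prime) (hℓ2 : ℓ ≠ 2) (hq : ¬ IsSquare ((q : ℕ) : ZMod ℓ)) :
    ∃ m : ℕ, Odd m ∧ m ∣ ℓ - 1 ∧ ∀ y : ℤ, ¬ (ℓ : ℤ) ∣ y →
      ∃ i : ℕ, (ℓ : ℤ) ∣ (q : ℤ) ^ i - y ^ m := by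
  have : Fact ℓ.Prime := ⟨hℓ⟩
  have hq0 : ((q : ℕ) : ZMod ℓ) ≠ 0 := mc_idx_ne_zero hq
  have hpow : ((q : ℕ) : ZMod ℓ) ^ (ℓ - 1) = 1 := ZMod.pow_card_sub_one_eq_one hq0
  have hkdvd : orderOf ((q : ℕ) : ZMod ℓ) ∣ ℓ - 1 := orderOf_dvd_of_pow_eq_one hpow
  have hℓ1 : 0 < ℓ - 1 := by
    have := hℓ.two_le
    omega
  have hkpos : 0 < orderOf ((q : ℕ) : ZMod ℓ) := Nat.pos_of_dvd_of_pos hkdvd hℓ1
  obtain ⟨m, hm⟩ := hkdvd
  have hodd : ℓ % 2 = 1 := by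
    rcases hℓ.eq_two_or_odd with h | h
    · exact absurd h hℓ2
    · exact h
  refine ⟨m, ?_, ⟨orderOf ((q : ℕ) : ZMod ℓ), by rw [hm, mul_comm]⟩, ?_⟩
  · -- `m` is odd by Euler's criterion
    by_contra hm_odd
    rw [Nat.not_odd_iff_even] at hm_odd
    obtain ⟨t, ht⟩ := hm_odd
    have hhalf : ℓ / 2 = orderOf ((q : ℕ) : ZMod ℓ) * t := by
      have h1 : ℓ - 1 = 2 * (orderOf ((q : ℕ) : ZMod ℓ) * t) := by
        rw [hm, ht]; ring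
      omega
    have h1 : ((q : ℕ) : ZMod ℓ) ^ (ℓ / 2) = 1 := by
      rw [hhalf, pow_mul, pow_orderOf_eq_one, one_pow]
    exact hq ((ZMod.euler_criterion ℓ hq0).mpr h1)
  · intro y hy
    have hy0 : ((y : ℤ) : ZMod ℓ) ≠ 0 := by
      intro h
      exact hy ((ZMod.intCast_zmod_eq_zero_iff_dvd y ℓ).mp h)
    have hyk : (((y : ℤ) : ZMod ℓ) ^ m) ^ orderOf ((q : ℕ) : ZMod ℓ) = 1 := by
      rw [← pow_mul, mul_comm, ← hm]
      exact ZMod.pow_card_sub_one_eq_one hy0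
    have : NeZero (orderOf ((q : ℕ) : ZMod ℓ)) := ⟨hkpos.ne'⟩
    obtain ⟨i, -, hi⟩ :=
      (IsPrimitiveRoot.orderOf ((q : ℕ) : ZMod ℓ)).eq_pow_of_pow_eq_one hyk
    refine ⟨i, ?_⟩
    rw [← ZMod.intCast_zmod_eq_zero_iff_dvd]
    push_cast
    rw [hi, sub_self]

/-- The case `q = 2` of `mc_qr_class`. -/
theorem mc_qr_class_two (N : ℕ) (hN : 0 < N) (hqN : ¬ 2 ∣ N) :
    ∃ Q c : ℕ, 0 < Q ∧ Nat.Coprime c Q ∧ (∀ s : ℕ, s.Prime → s ∣ Q → s = 2 ∨ s ∣ N ∨ s = 2) ∧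
      ∀ ℓ : ℕ, ℓ.Prime → ℓ ≡ c [MOD Q] → ℓ ≡ 1 [MOD N] ∧ ℓ ≠ 2 ∧
        ¬ IsSquare (((2 : ℕ) : ℕ) : ZMod ℓ) := by
  have hNodd : N % 2 = 1 := by omega
  -- `N ^ 2 ≡ 1 [MOD 8]`
  have hN8 : (4 * N * N) % 8 = 4 := by
    obtain ⟨k, hk⟩ : ∃ k, N = 2 * k + 1 := ⟨N / 2, by omega⟩
    subst hk
    have : 4 * (2 * k + 1) * (2 * k + 1) = 8 * (2 * k * k + 2 * k) + 4 := by ring
    rw [this]
    omega
  refine ⟨8 * N, 1 + 4 * N * N, by positivity, ?_, ?_, ?_⟩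
  · -- coprimality
    have h8 : Nat.Coprime (1 + 4 * N * N) 8 := by
      have h2 : Nat.Coprime (1 + 4 * N * N) 2 := by
        rw [Nat.coprime_comm, Nat.Prime.coprime_iff_not_dvd Nat.prime_two]
        omega
      have : Nat.Coprime (1 + 4 * N * N) (2 ^ 3) := Nat.Coprime.pow_right 3 h2
      simpa using this
    have hNc : Nat.Coprime (1 + 4 * N * N) N := by
      have : 1 + 4 * N * N = 1 + N * (4 * N) := by ring
      rw [this]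
      simp [Nat.coprime_add_mul_left_left]
    exact Nat.Coprime.mul_right h8 hNc
  · intro s hs hsQ
    rcases (Nat.Prime.dvd_mul hs).mp hsQ with h | h
    · left
      have h' : s ∣ 2 ^ 3 := by simpa using h
      exact (Nat.prime_dvd_prime_iff_eq hs Nat.prime_two).mp (hs.dvd_of_dvd_pow h')
    · exact Or.inr (Or.inl h)
  · intro ℓ hℓ hℓc
    have : Fact ℓ.Prime := ⟨hℓ⟩
    have hℓN : ℓ ≡ 1 [MOD N] := by
      have h1 : ℓ ≡ 1 + 4 * N * N [MOD N] := hℓc.of_mul_left 8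
      have h2 : 1 + 4 * N * N ≡ 1 [MOD N] := by
        have : 1 + 4 * N * N = 1 + N * (4 * N) := by ring
        rw [this]
        simp [Nat.ModEq]
      exact h1.trans h2
    have hℓ8 : ℓ % 8 = 5 := by
      have h1 : ℓ ≡ 1 + 4 * N * N [MOD 8] := hℓc.of_mul_right N
      have h2 : ℓ % 8 = (1 + 4 * N * N) % 8 := h1
      omega
    have hℓ2 : ℓ ≠ 2 := by
      rintro rfl
      omega
    refine ⟨hℓN, hℓ2, ?_⟩
    intro hsq
    have hsq' : IsSquare (2 : ZMod ℓ) := by simpa using hsq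
    rcases (ZMod.exists_sq_eq_two_iff hℓ2).mp hsq' with h | h <;> omega

/-- The case `q` odd of `mc_qr_class`. -/
theorem mc_qr_class_odd (N q : ℕ) (hN : 0 < N) (hq : q.Prime) (hq2 : q ≠ 2) (hqN : ¬ q ∣ N) :
    ∃ Q c : ℕ, 0 < Q ∧ Nat.Coprime c Q ∧ (∀ s : ℕ, s.Prime → s ∣ Q → s = 2 ∨ s ∣ N ∨ s = q) ∧
      ∀ ℓ : ℕ, ℓ.Prime → ℓ ≡ c [MOD Q] → ℓ ≡ 1 [MOD N] ∧ ℓ ≠ 2 ∧
        ¬ IsSquare ((q : ℕ) : ZMod ℓ) := by
  have : Fact q.Prime := ⟨hq⟩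
  -- a non-residue modulo `q`
  obtain ⟨n, hn⟩ : ∃ n : ZMod q, ¬ IsSquare n := by
    refine FiniteField.exists_nonsquare ?_
    rw [ZMod.ringChar_zmod_n]
    exact hq2
  have hn0 : n ≠ 0 := mc_idx_ne_zero hn
  -- coprimality of `q` and `4 * N`
  have hq4N : Nat.Coprime q (4 * N) := by
    have hq2' : Nat.Coprime q 2 := (Nat.coprime_primes hq Nat.prime_two).mpr hq2
    have hq4 : Nat.Coprime q (2 ^ 2) := Nat.Coprime.pow_right 2 hq2'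
    have hqN' : Nat.Coprime q N := (Nat.Prime.coprime_iff_not_dvd hq).mpr hqN
    have : Nat.Coprime q (2 ^ 2 * N) := Nat.Coprime.mul_right hq4 hqN'
    simpa using this
  -- CRT: `c ≡ 1 [MOD 4 * N]`, `c ≡ n [MOD q]`
  obtain ⟨c, hc1, hcn⟩ := Nat.chineseRemainder hq4N.symm 1 n.val
  have hcn' : ((c : ℕ) : ZMod q) = n := by
    have := (ZMod.natCast_eq_natCast_iff c n.val q).mpr hcn
    rw [this, ZMod.natCast_zmod_val]
  refine ⟨4 * N * q, c, by positivity [hq.pos], ?_, ?_, ?_⟩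
  · -- coprimality
    have h1 : Nat.Coprime c (4 * N) := by
      have := hc1.gcd_eq
      rw [Nat.Coprime, this]
      simp
    have h2 : Nat.Coprime c q := by
      rw [Nat.coprime_comm, Nat.Prime.coprime_iff_not_dvd hq]
      intro hdvd
      apply hn0
      rw [← hcn']
      exact (ZMod.natCast_eq_zero_iff c q).mpr hdvd
    exact Nat.Coprime.mul_right h1 h2
  · intro s hs hsQ
    rcases (Nat.Prime.dvd_mul hs).mp hsQ with h | h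
    · rcases (Nat.Prime.dvd_mul hs).mp h with h4 | hN'
      · left
        have h' : s ∣ 2 ^ 2 := by simpa using h4
        exact (Nat.prime_dvd_prime_iff_eq hs Nat.prime_two).mp (hs.dvd_of_dvd_pow h')
      · exact Or.inr (Or.inl hN')
    · exact Or.inr (Or.inr ((Nat.prime_dvd_prime_iff_eq hs hq).mp h))
  · intro ℓ hℓ hℓc
    have : Fact ℓ.Prime := ⟨hℓ⟩
    have hℓ4N : ℓ ≡ 1 [MOD 4 * N] := (hℓc.of_mul_right q).trans hc1
    have hℓN : ℓ ≡ 1 [MOD N] := hℓ4N.of_mul_left 4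
    have hℓ4 : ℓ % 4 = 1 := by
      have : ℓ ≡ 1 [MOD 4] := hℓ4N.of_mul_right N
      exact this
    have hℓ2 : ℓ ≠ 2 := by
      rintro rfl
      omega
    have hℓq : ((ℓ : ℕ) : ZMod q) = n := by
      have : ℓ ≡ c [MOD q] := hℓc.of_mul_left (4 * N)
      rw [(ZMod.natCast_eq_natCast_iff ℓ c q).mpr this, hcn']
    refine ⟨hℓN, hℓ2, ?_⟩
    intro hsq
    have := (ZMod.exists_sq_eq_prime_iff_of_mod_four_eq_one hℓ4 hq2).mp hsq
    rw [hℓq] at this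
    exact hn this

theorem mc_qr_class (N q : ℕ) (hN : 0 < N) (hq : q.Prime) (hqN : ¬ q ∣ N) :
    ∃ Q c : ℕ, 0 < Q ∧ Nat.Coprime c Q ∧ (∀ s : ℕ, s.Prime → s ∣ Q → s = 2 ∨ s ∣ N ∨ s = q) ∧
      ∀ ℓ : ℕ, ℓ.Prime → ℓ ≡ c [MOD Q] → ℓ ≡ 1 [MOD N] ∧ ℓ ≠ 2 ∧
        ¬ IsSquare ((q : ℕ) : ZMod ℓ) := by
  by_cases hq2 : q = 2
  · subst hq2
    exact mc_qr_class_two N hN hqN
  · exact mc_qr_class_odd N q hN hq hq2 hqN

end Fermat.Agent.S41.M
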