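import Fermat.Agent.S41.M.CBase
import Fermat.Agent.S41.M.CIdx

/-!
# S41, Theorem M, route C: the number-theoretic chain

`mc_chain_exists`: for coprime integers `a, b` with `a ≡ 1 mod N`, `b ≠ 0`, `q ∤ b` there are
`a', B, ℓ, i, j` with `a' ≡ a mod N b`, `B ≡ b mod a'`, `q^(2j) ≡ 1 mod N`,
`ℓ ≡ a' q^(2j) mod N B`, `q^i ≡ B mod ℓ`, `ℓ ≡ 1 mod N`.
(`a' = π₁ π₂`, `B = r^E`, `ℓ` prime with `q` a non-residue; Dirichlet, LTE, quadratic reciprocity.)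
-/

set_option autoImplicit false

namespace Fermat.Agent.S41.M

/-- The number-theoretic chain of route C. -/
theorem mc_chain_exists (N q : ℕ) (hN : 0 < N) (hq : q.Prime) (hqN : ¬ q ∣ N)
    (a b : ℤ) (hab : IsCoprime a b) (ha : (N : ℤ) ∣ a - 1) (hb : b ≠ 0) (hqb : ¬ (q : ℤ) ∣ b) :
    ∃ a' B ℓ i j : ℕ, 0 < a' ∧ 0 < B ∧ 0 < ℓ ∧
      (N : ℤ) * b ∣ a' - a ∧ (a' : ℤ) ∣ B - b ∧ (N : ℤ) ∣ (q : ℤ) ^ (2 * j) - 1 ∧
      (N : ℤ) * B ∣ ℓ - a' * (q : ℤ) ^ (2 * j) ∧ (ℓ : ℤ) ∣ (q : ℤ) ^ i - B ∧ (N : ℤ) ∣ ℓ - 1 := by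
  obtain ⟨a', Λ, ha'pos, hΛpos, hNb, hexp, hodd⟩ := mc_stepA N q hN hq hqN a b hab ha hb hqb
  -- `a'` is prime to `b` and `≡ 1 mod N`
  have hba' : IsCoprime b (a' : ℤ) := by
    have h1 : b ∣ (a' : ℤ) - a := dvd_trans (dvd_mul_left b (N : ℤ)) hNb
    obtain ⟨k, hk⟩ := h1
    have e : (a' : ℤ) = a + b * k := by linarith
    rw [e]
    exact (hab.symm.add_mul_left_right k)
  have ha'N : (N : ℤ) ∣ (a' : ℤ) - 1 := by
    have h1 : (N : ℤ) ∣ (a' : ℤ) - a := dvd_trans (dvd_mul_right (N : ℤ) b) hNb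
    have := dvd_add h1 ha
    simpa using this
  -- Step B: the prime `r`
  obtain ⟨r, hrB, hr, hrb⟩ := mc_dirichlet a' ha'pos.ne' b hba' (2 + N * q * Λ * a')
  have hqpos : 0 < q := hq.pos
  have hprod : 0 < N * q * Λ * a' :=
    Nat.mul_pos (Nat.mul_pos (Nat.mul_pos hN hqpos) hΛpos) ha'pos
  have hle : ∀ x : ℕ, 0 < x → x ∣ N * q * Λ * a' → ¬ r ∣ x := by
    intro x hx hxd
    have : x ≤ N * q * Λ * a' := Nat.le_of_dvd hprod hxd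
    exact Nat.not_dvd_of_pos_of_lt hx (by omega)
  have hr2 : r ≠ 2 := by omega
  have hrN : ¬ r ∣ N := hle N hN ⟨q * Λ * a', by ring⟩
  have hrq : ¬ r ∣ q := hle q hqpos ⟨N * Λ * a', by ring⟩
  have hrΛ : ¬ r ∣ Λ := hle Λ hΛpos ⟨N * q * a', by ring⟩
  have hra' : ¬ r ∣ a' := hle a' ha'pos ⟨N * q * Λ, by ring⟩
  have hrne : r ≠ q := fun h => hrq (h ▸ dvd_rfl)
  -- the unit `g = q^(2 k₁)`
  set k₁ : ℕ := Nat.totient (N * r) with hk₁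
  have hqNr : Nat.Coprime q (N * r) := by
    apply Nat.Coprime.mul_right
    · exact (Nat.Prime.coprime_iff_not_dvd hq).mpr hqN
    · exact (Nat.coprime_primes hq hr).mpr (Ne.symm hrne)
  have hk₁pos : 0 < k₁ := Nat.totient_pos.mpr (Nat.mul_pos hN hr.pos)
  have hgmod : (q : ℤ) ^ k₁ ≡ 1 [ZMOD ((N * r : ℕ) : ℤ)] := by
    have := Nat.ModEq.pow_totient hqNr
    have h2 := (Int.natCast_modEq_iff.mpr this)
    simpa using h2
  set g : ℤ := (q : ℤ) ^ (2 * k₁) with hg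
  have hgNr : ((N * r : ℕ) : ℤ) ∣ g - 1 := by
    have h1 : ((N * r : ℕ) : ℤ) ∣ (q : ℤ) ^ k₁ - 1 := Int.modEq_iff_dvd.mp hgmod.symm
    have h2 : (q : ℤ) ^ k₁ - 1 ∣ g - 1 := by
      rw [hg, mul_comm, pow_mul]
      have := sub_dvd_pow_sub_pow ((q : ℤ) ^ k₁) 1 2
      rwa [one_pow] at this
    exact dvd_trans h1 h2
  have hgN : (N : ℤ) ∣ g - 1 := dvd_trans ⟨r, by push_cast; ring⟩ hgNr
  have hgr : (r : ℤ) ∣ g - 1 := dvd_trans ⟨N, by push_cast; ring⟩ hgNr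
  have hg1 : 1 < g := by
    rw [hg]
    have h2 : (2 : ℤ) ≤ q := by exact_mod_cast hq.two_le
    have : (1 : ℤ) < (q : ℤ) ^ (2 * k₁) := one_lt_pow₀ (by linarith) (by omega)
    exact this
  -- the exact power of `r` in `g - 1`
  have hgnat : ∃ G : ℕ, 0 < G ∧ (G : ℤ) = g - 1 :=
    ⟨(g - 1).toNat, by omega, by omega⟩
  obtain ⟨G, hGpos, hG⟩ := hgnat
  obtain ⟨e, n', hn', hGe⟩ := Nat.exists_eq_pow_mul_and_not_dvd hGpos.ne' r hr.ne_one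
  have hge : (r : ℤ) ^ e ∣ g - 1 := by
    rw [← hG, hGe]
    push_cast
    exact dvd_mul_right _ _
  have hge' : ¬ (r : ℤ) ^ (e + 1) ∣ g - 1 := by
    rw [← hG, hGe]
    intro h
    have h1 : r ^ (e + 1) ∣ r ^ e * n' := by exact_mod_cast h
    rw [pow_succ] at h1
    exact hn' ((Nat.mul_dvd_mul_iff_left (pow_pos hr.pos e)).mp h1)
  have he : 1 ≤ e := by
    by_contra hcon
    have he0 : e = 0 := by omega
    subst he0
    apply hge'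
    simpa using hgr
  -- the quadratic-residue class and the odd part of `Λ`
  obtain ⟨Q, c, hQpos, hcQ, hQprimes, hQℓ⟩ := mc_qr_class N q hN hq hqN
  obtain ⟨k2, Λ', hΛ'odd, hΛeq⟩ := Nat.exists_eq_two_pow_mul_odd hΛpos.ne'
  have hΛ'pos : 0 < Λ' := hΛ'odd.pos
  have hΛ'dvd : Λ' ∣ Λ := ⟨2 ^ k2, by rw [hΛeq]; ring⟩
  have hrQ : ¬ r ∣ Q := by
    intro h
    rcases hQprimes r hr h with h | h | h
    · exact hr2 h
    · exact hrN h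
    · exact hrne h
  have hcopQr : Nat.Coprime Q (r ^ e) :=
    Nat.Coprime.pow_right e ((Nat.coprime_comm).mp ((Nat.Prime.coprime_iff_not_dvd hr).mpr hrQ))
  have hcopQΛ : Nat.Coprime Q Λ' := by
    apply Nat.coprime_of_dvd
    intro s hs hsQ hsΛ
    have hs2 : s ≠ 2 := by
      rintro rfl
      exact (Nat.not_even_iff_odd.mpr hΛ'odd) (even_iff_two_dvd.mpr hsΛ)
    have hsNq : s ∣ N * q := by
      rcases hQprimes s hs hsQ with h | h | h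
      · exact absurd h hs2
      · exact dvd_mul_of_dvd_left h q
      · exact h ▸ dvd_mul_left _ _
    exact hodd s hs hs2 hsNq (dvd_trans hsΛ hΛ'dvd)
  have hcoprΛ : Nat.Coprime (r ^ e) Λ' :=
    Nat.Coprime.pow_left e ((Nat.Prime.coprime_iff_not_dvd hr).mpr
      (fun h => hrΛ (dvd_trans h hΛ'dvd)))
  have hcQ' : IsCoprime (c : ℤ) (Q : ℤ) := Nat.isCoprime_iff_coprime.mpr hcQ
  have ha're : IsCoprime (a' : ℤ) ((r ^ e : ℕ) : ℤ) := by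
    push_cast
    apply IsCoprime.pow_right
    exact Nat.isCoprime_iff_coprime.mpr
      ((Nat.coprime_comm).mp ((Nat.Prime.coprime_iff_not_dvd hr).mpr hra'))
  have h2Λ : IsCoprime (2 : ℤ) (Λ' : ℤ) := by
    have : Nat.Coprime 2 Λ' := (Nat.coprime_two_left).mpr hΛ'odd
    exact_mod_cast Nat.isCoprime_iff_coprime.mpr this
  obtain ⟨ℓ, hℓB, hℓ, hℓQ, hℓr, hℓΛ⟩ := mc_dirichlet3 Q (r ^ e) Λ' hQpos.ne'
    (pow_pos hr.pos e).ne' hΛ'pos.ne' hcopQr hcopQΛ hcoprΛ c a' 2 hcQ' ha're h2Λ (r + q + 2)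
  have hℓmod : ℓ ≡ c [MOD Q] := by
    have : (ℓ : ℤ) ≡ c [ZMOD Q] := (Int.modEq_iff_dvd.mpr hℓQ).symm
    exact Int.natCast_modEq_iff.mp this
  obtain ⟨hℓN, hℓ2, hℓsq⟩ := hQℓ ℓ hℓ hℓmod
  have hℓN' : (N : ℤ) ∣ (ℓ : ℤ) - 1 := by
    have : (ℓ : ℤ) ≡ ((1 : ℕ) : ℤ) [ZMOD N] := Int.natCast_modEq_iff.mpr hℓN
    have := Int.modEq_iff_dvd.mp this.symm
    simpa using this
  obtain ⟨m, hmodd, hmdvd, hmpow⟩ := mc_index ℓ q hℓ hℓ2 hℓsq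
  have hmpos : 0 < m := hmodd.pos
  -- `gcd(Λ, m) = 1`
  have hΛm : Nat.Coprime Λ m := by
    apply Nat.coprime_of_dvd
    intro s hs hsΛ hsm
    have hs2 : s ≠ 2 := by
      rintro rfl
      exact (Nat.not_even_iff_odd.mpr hmodd) (even_iff_two_dvd.mpr hsm)
    have hsΛ' : s ∣ Λ' := by
      rw [hΛeq] at hsΛ
      rcases (Nat.Prime.dvd_mul hs).mp hsΛ with h | h
      · exact absurd ((Nat.prime_dvd_prime_iff_eq hs Nat.prime_two).mp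
          (hs.dvd_of_dvd_pow h)) hs2
      · exact h
    have h1 : (s : ℤ) ∣ (ℓ : ℤ) - 1 := by
      have : s ∣ ℓ - 1 := dvd_trans hsm hmdvd
      have h' : (s : ℤ) ∣ ((ℓ - 1 : ℕ) : ℤ) := by exact_mod_cast this
      rwa [Nat.cast_sub hℓ.one_lt.le, Nat.cast_one] at h'
    have h2 : (s : ℤ) ∣ (ℓ : ℤ) - 2 := dvd_trans (by exact_mod_cast hsΛ') hℓΛ
    have h3 : (s : ℤ) ∣ 1 := by
      have := dvd_sub h1 h2
      have e : (ℓ : ℤ) - 1 - ((ℓ : ℤ) - 2) = 1 := by ring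
      rwa [e] at this
    have : s ∣ 1 := by exact_mod_cast h3
    exact hs.one_lt.ne' (Nat.dvd_one.mp this)
  -- the exponent `E`
  obtain ⟨E₀, hE1, hE2⟩ := Nat.chineseRemainder hΛm 1 0
  set E : ℕ := E₀ + Λ * m * e with hE
  have hEe : e ≤ E := by
    have : e ≤ Λ * m * e := Nat.le_mul_of_pos_left e (Nat.mul_pos hΛpos hmpos)
    omega
  have hEpos : 1 ≤ E := le_trans he hEe
  have hEΛ : ∃ t : ℕ, E = 1 + Λ * t := by
    have h1 : E ≡ 1 [MOD Λ] := by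
      have h2 : E₀ + Λ * m * e ≡ E₀ + 0 [MOD Λ] :=
        Nat.ModEq.add_left E₀ ((Nat.modEq_zero_iff_dvd).mpr ⟨m * e, by ring⟩)
      exact (h2.trans (by simpa using hE1))
    have h3 : Λ ∣ E - 1 := (Nat.modEq_iff_dvd' hEpos).mp h1.symm
    obtain ⟨t, ht⟩ := h3
    exact ⟨t, by omega⟩
  have hEm : ∃ E' : ℕ, E = m * E' := by
    have h1 : m ∣ E₀ := (Nat.modEq_zero_iff_dvd).mp hE2
    obtain ⟨u, hu⟩ := h1
    exact ⟨u + Λ * e, by rw [hE, hu]; ring⟩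
  obtain ⟨t, ht⟩ := hEΛ
  obtain ⟨E', hE'⟩ := hEm
  obtain ⟨n, hn⟩ : ∃ n : ℕ, E = e + n := ⟨E - e, by omega⟩
  -- `j` from the lifting lemma
  have hxy : (N : ℤ) * (r : ℤ) ^ e ∣ (ℓ : ℤ) - (a' : ℤ) := by
    have h1 : (N : ℤ) ∣ (ℓ : ℤ) - (a' : ℤ) := by
      have := dvd_sub hℓN' ha'N
      have e1 : (ℓ : ℤ) - 1 - ((a' : ℤ) - 1) = (ℓ : ℤ) - (a' : ℤ) := by ring
      rwa [e1] at this
    have h2 : (r : ℤ) ^ e ∣ (ℓ : ℤ) - (a' : ℤ) := by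
      have := hℓr
      push_cast at this
      exact this
    have hc : IsCoprime (N : ℤ) ((r : ℤ) ^ e) := by
      apply IsCoprime.pow_right
      exact Nat.isCoprime_iff_coprime.mpr
        ((Nat.coprime_comm).mp ((Nat.Prime.coprime_iff_not_dvd hr).mpr hrN))
    exact hc.mul_dvd h1 h2
  have hra'' : ¬ (r : ℤ) ∣ (a' : ℤ) := fun h => hra' (by exact_mod_cast h)
  obtain ⟨k, hk⟩ := mc_lift N r hr hr2 hrN g e he hgN hge hge' (ℓ : ℤ) (a' : ℤ) hra'' hxy n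
  -- `i` from the index lemma
  have hℓr' : ¬ (ℓ : ℤ) ∣ (r : ℤ) := by
    intro h
    have h1 : ℓ ∣ r := by exact_mod_cast h
    exact Nat.not_dvd_of_pos_of_lt hr.pos (by omega) h1
  obtain ⟨i₀, hi₀⟩ := hmpow (r : ℤ) hℓr'
  refine ⟨a', r ^ E, ℓ, i₀ * E', k₁ * k, ha'pos, pow_pos hr.pos E, hℓ.pos, hNb, ?_, ?_, ?_, ?_,
    hℓN'⟩
  · -- `a' ∣ r^E - b`
    have h1 : (a' : ℤ) ∣ (r : ℤ) ^ Λ - 1 :=
      hexp r ((Nat.Prime.coprime_iff_not_dvd hr).mpr hra')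
    have h2 : (a' : ℤ) ∣ ((r : ℤ) ^ Λ) ^ t - 1 := by
      have := sub_dvd_pow_sub_pow ((r : ℤ) ^ Λ) 1 t
      rw [one_pow] at this
      exact dvd_trans h1 this
    have e1 : ((r ^ E : ℕ) : ℤ) - b = (r : ℤ) * (((r : ℤ) ^ Λ) ^ t - 1) + ((r : ℤ) - b) := by
      rw [ht]
      push_cast
      rw [pow_add, pow_mul]
      ring
    rw [e1]
    exact dvd_add (dvd_mul_of_dvd_right h2 _) hrb
  · -- `N ∣ q^(2j) - 1`
    have e1 : (q : ℤ) ^ (2 * (k₁ * k)) = g ^ k := by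
      rw [hg, ← pow_mul]
      ring_nf
    rw [e1]
    have := sub_dvd_pow_sub_pow g 1 k
    rw [one_pow] at this
    exact dvd_trans hgN this
  · -- `N r^E ∣ ℓ - a' q^(2j)`
    have e1 : (q : ℤ) ^ (2 * (k₁ * k)) = g ^ k := by
      rw [hg, ← pow_mul]
      ring_nf
    rw [e1, hn]
    push_cast
    exact hk
  · -- `ℓ ∣ q^i - r^E`
    have e1 : (q : ℤ) ^ (i₀ * E') - ((r ^ E : ℕ) : ℤ)
        = ((q : ℤ) ^ i₀) ^ E' - ((r : ℤ) ^ m) ^ E' := by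
      rw [hE']
      push_cast
      rw [pow_mul, pow_mul]
    rw [e1]
    exact dvd_trans hi₀ (sub_dvd_pow_sub_pow _ _ E')

end Fermat.Agent.S41.M
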