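import Fermat.Agent.S41.M.Basics

/-!
# Route C of Theorem M (S41): the group side

`mc_stmtM_of_chain`: Theorem M (`StmtM N q A`, every abelian `A`) follows from the purely
arithmetic chain statement (`mc_chain_exists`, inlined verbatim as the hypothesis `hchain`):
the row `(a, b)` of `γ ∈ Γ₀(N)`, `d ≡ 1 mod N`, is moved by the row moves of `Basics.lean`

  `(a, b) → (a', b) → (a', B) → (q^(2j) a', B) → (ℓ, B) → (ℓ, q^i) → (1, q^i)`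

(moves `m2, m1, m5, m2, m1, m2`), and `F` vanishes on the rows `(1, x)`.
-/

set_option autoImplicit false
set_option linter.unusedSectionVars false
set_option linter.unusedVariables false

noncomputable section

namespace Fermat.Agent.S41.M

open Matrix CongruenceSubgroup

/-- The chain of row moves: a row `(a, b)` with chain data has `F`-value `0`. -/
theorem mcg_core {N q : ℕ} [NeZero q] {V : Type*} [AddCommGroup V]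
    (F : Additive ↥(gamma0Inv N q) →+ V)
    (hT : F (Additive.ofMul (iotaInv N q (Tel N))) = 0)
    (hL : F (Additive.ofMul (iotaInv N q (Lel N))) = 0)
    (a b : ℤ) (a' B ℓ i j : ℕ)
    (h1 : (N : ℤ) * b ∣ a' - a) (h2 : (a' : ℤ) ∣ B - b)
    (h3 : (N : ℤ) ∣ (q : ℤ) ^ (2 * j) - 1)
    (h4 : (N : ℤ) * B ∣ ℓ - a' * (q : ℤ) ^ (2 * j))
    (h5 : (ℓ : ℤ) ∣ (q : ℤ) ^ i - B) (h6 : (N : ℤ) ∣ ℓ - 1)
    {v : V} (h : IsRow F (a : ℚ) (b : ℚ) v) : v = 0 := by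
  have hq : (q : ℚ) ≠ 0 := Nat.cast_ne_zero.mpr (NeZero.ne q)
  have hqi : ((q : ℚ) ^ i) ≠ 0 := pow_ne_zero _ hq
  -- (a, b) → (a', b)
  obtain ⟨t1, ht1⟩ := h1
  have e1 : ((a' : ℤ) : ℚ) - (a : ℚ) = (N : ℚ) * (b : ℚ) * (t1 : ℚ) := by
    exact_mod_cast congrArg (fun z : ℤ => (z : ℚ)) ht1
  have r1 : IsRow F ((a' : ℕ) : ℚ) (b : ℚ) v :=
    (h.m2 F hL (isZq_int q t1)).congr F (by push_cast at e1; linarith) rfl rfl
  -- (a', b) → (a', B)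
  obtain ⟨t2, ht2⟩ := h2
  have e2 : ((B : ℤ) : ℚ) - (b : ℚ) = ((a' : ℤ) : ℚ) * (t2 : ℚ) := by
    exact_mod_cast congrArg (fun z : ℤ => (z : ℚ)) ht2
  have r2 : IsRow F ((a' : ℕ) : ℚ) ((B : ℕ) : ℚ) v :=
    (r1.m1 F hT (isZq_int q t2)).congr F rfl (by push_cast at e2; linarith) rfl
  -- (a', B) → (q^(2j) a', B)
  have h3' : (q : ℤ) ^ (2 * j) ≡ 1 [ZMOD (N : ℤ)] :=
    (Int.modEq_iff_dvd.mpr h3).symm
  have r3 : IsRow F ((q : ℚ) ^ (2 * j) * ((a' : ℕ) : ℚ)) ((B : ℕ) : ℚ) v := r2.m5 F hT hL j h3'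
  -- (q^(2j) a', B) → (ℓ, B)
  obtain ⟨t4, ht4⟩ := h4
  have e4 : ((ℓ : ℤ) : ℚ) - ((a' : ℤ) : ℚ) * (q : ℚ) ^ (2 * j) =
      (N : ℚ) * ((B : ℤ) : ℚ) * (t4 : ℚ) := by
    exact_mod_cast congrArg (fun z : ℤ => (z : ℚ)) ht4
  have r4 : IsRow F ((ℓ : ℕ) : ℚ) ((B : ℕ) : ℚ) v :=
    (r3.m2 F hL (isZq_int q t4)).congr F (by push_cast at e4; linarith) rfl rfl
  -- (ℓ, B) → (ℓ, q^i)
  obtain ⟨t5, ht5⟩ := h5
  have e5 : (q : ℚ) ^ i - ((B : ℤ) : ℚ) = ((ℓ : ℤ) : ℚ) * (t5 : ℚ) := by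
    exact_mod_cast congrArg (fun z : ℤ => (z : ℚ)) ht5
  have r5 : IsRow F ((ℓ : ℕ) : ℚ) ((q : ℚ) ^ i) v :=
    (r4.m1 F hT (isZq_int q t5)).congr F rfl (by push_cast at e5; linarith) rfl
  -- (ℓ, q^i) → (1, q^i)
  obtain ⟨t6, ht6⟩ := h6
  have e6 : ((ℓ : ℤ) : ℚ) - 1 = (N : ℚ) * (t6 : ℚ) := by
    exact_mod_cast congrArg (fun z : ℤ => (z : ℚ)) ht6
  have r6 : IsRow F (1 : ℚ) ((q : ℚ) ^ i) v :=
    (r5.m2 F hL (isZq_div_pow q (-t6) i)).congr F (by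
      push_cast at e6 ⊢
      have : (N : ℚ) * (-(t6 : ℚ) / (q : ℚ) ^ i) * (q : ℚ) ^ i = -((N : ℚ) * (t6 : ℚ)) := by
        field_simp
      rw [this]
      linarith) rfl rfl
  exact IsRow.unique F hL r6 (isRow_one F hT ((isZq_nat q q).pow i))

/-- Entries of `γ ∈ Γ₀(N)` with `d ≡ 1 mod N`: `a ≡ 1 mod N` and `(a, b)` is coprime. -/
theorem mcg_entries (N : ℕ) (γ : ↥(Gamma0 N)) (hγ : Gamma0Map N γ = 1) :
    IsCoprime (γ.1.1 0 0) (γ.1.1 0 1) ∧ (N : ℤ) ∣ γ.1.1 0 0 - 1 := by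
  have hdet := gamma0_det N γ
  obtain ⟨c', hc'⟩ := gamma0_dvd N γ
  have hd : (N : ℤ) ∣ γ.1.1 1 1 - 1 := by
    have h1 : ((γ.1.1 1 1 : ℤ) : ZMod N) = 1 := hγ
    rw [← ZMod.intCast_zmod_eq_zero_iff_dvd]
    push_cast
    rw [h1, sub_self]
  obtain ⟨d', hd'⟩ := hd
  refine ⟨⟨γ.1.1 1 1, -γ.1.1 1 0, by linarith⟩, ?_⟩
  refine ⟨γ.1.1 0 1 * c' - γ.1.1 0 0 * d', ?_⟩
  have e1 : γ.1.1 1 1 = 1 + (N : ℤ) * d' := by linarith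
  rw [hc', e1] at hdet
  linear_combination hdet

theorem mc_stmtM_of_chain (N q : ℕ) [NeZero N] [NeZero q] (hq : q.Prime) (hqN : ¬ q ∣ N)
    (A : Type*) [AddCommGroup A]
    (hchain : ∀ a b : ℤ, IsCoprime a b → (N : ℤ) ∣ a - 1 → b ≠ 0 → ¬ (q : ℤ) ∣ b →
      ∃ a' B ℓ i j : ℕ, 0 < a' ∧ 0 < B ∧ 0 < ℓ ∧
        (N : ℤ) * b ∣ a' - a ∧ (a' : ℤ) ∣ B - b ∧ (N : ℤ) ∣ (q : ℤ) ^ (2 * j) - 1 ∧
        (N : ℤ) * B ∣ ℓ - a' * (q : ℤ) ^ (2 * j) ∧ (ℓ : ℤ) ∣ (q : ℤ) ^ i - B ∧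
        (N : ℤ) ∣ ℓ - 1) :
    StmtM N q A := by
  intro F hT hL γ hγ
  obtain ⟨hab, ha⟩ := mcg_entries N γ hγ
  have hrow := isRow_iota (q := q) F γ
  have hqprime : Prime (q : ℤ) := Nat.prime_iff_prime_int.mp hq
  by_cases hqb : (q : ℤ) ∣ γ.1.1 0 1
  · -- replace `b` by `b + a`
    have hqa : ¬ (q : ℤ) ∣ γ.1.1 0 0 := by
      intro hqa
      have : IsUnit (q : ℤ) := hab.isUnit_of_dvd' hqa hqb
      exact hqprime.not_isUnit this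
    have hqb' : ¬ (q : ℤ) ∣ γ.1.1 0 1 + γ.1.1 0 0 := by
      intro h
      exact hqa ((dvd_add_right hqb).mp h)
    have hb' : γ.1.1 0 1 + γ.1.1 0 0 ≠ 0 := by
      intro h
      exact hqb' (h ▸ dvd_zero _)
    have hab' : IsCoprime (γ.1.1 0 0) (γ.1.1 0 1 + γ.1.1 0 0) := by
      have := hab.add_mul_left_right 1
      simpa using this
    obtain ⟨a', B, ℓ, i, j, -, -, -, h1, h2, h3, h4, h5, h6⟩ :=
      hchain (γ.1.1 0 0) (γ.1.1 0 1 + γ.1.1 0 0) hab' ha hb' hqb'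
    have hrow' : IsRow F ((γ.1.1 0 0 : ℤ) : ℚ) (((γ.1.1 0 1 + γ.1.1 0 0 : ℤ)) : ℚ)
        (F (Additive.ofMul (iotaInv N q γ))) :=
      (hrow.m1 F hT (isZq_one q)).congr F rfl (by push_cast; ring) rfl
    exact mcg_core F hT hL _ _ a' B ℓ i j h1 h2 h3 h4 h5 h6 hrow'
  · have hb : γ.1.1 0 1 ≠ 0 := by
      intro h
      exact hqb (h ▸ dvd_zero _)
    obtain ⟨a', B, ℓ, i, j, -, -, -, h1, h2, h3, h4, h5, h6⟩ :=
      hchain (γ.1.1 0 0) (γ.1.1 0 1) hab ha hb hqb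
    exact mcg_core F hT hL _ _ a' B ℓ i j h1 h2 h3 h4 h5 h6 hrow

end Fermat.Agent.S41.M
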