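import Fermat.Agent.S41.M.CChain
import Fermat.Agent.S41.M.CGrp

/-!
# S41, Theorem M, route C: final statement

`mc_stmtM`: Theorem M (`StmtM N q A`) for EVERY abelian group `A` (no condition on torsion),
`q` prime, `q ∤ N`: number-theoretic chain (`mc_chain_exists`) + six row moves
(`mc_stmtM_of_chain`).
-/

set_option autoImplicit false

namespace Fermat.Agent.S41.M

/-- **Theorem M** for every abelian coefficient group. -/
theorem mc_stmtM (N q : ℕ) [NeZero N] [NeZero q] (hq : q.Prime) (hqN : ¬ q ∣ N)
    (A : Type*) [AddCommGroup A] : StmtM N q A :=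
  mc_stmtM_of_chain N q hq hqN A
    (mc_chain_exists N q (Nat.pos_of_ne_zero (NeZero.ne N)) hq hqN)

end Fermat.Agent.S41.M
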