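import Fermat.Agent.S41.M.Plan

/-!
# S41, Theorem M, piece D: the finite group step

`stmtD : StmtC N q p → StmtPow → StmtD N q p`.

`Ψ g = Φ (σ g σ⁻¹) - Φ g` is additive on `Γ₀(N s²)`.
* (D1) if `d ≡ 1 mod s` then `g ^ (s ^ (2 v))` satisfies the hypotheses of `StmtC`, so
  `s ^ (2 v) • Ψ g = 0`, hence `Ψ g = 0` (`s ≠ p`).
* (D2) `Ψ g` depends only on `d mod s`.
* (D3) for a prime `e ∤ N s` with `p ∤ e - 1` the rows `(N s^(2 (k + 1)), e)` telescope: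
  `(e - 1) • κ = 0`, so `κ = 0`.
* (D4) Dirichlet: a prime `e ≡ d mod s`, `e ≡ 2 mod p`.
-/

set_option autoImplicit false

noncomputable section

namespace Fermat.Agent.S41.M

open Matrix CongruenceSubgroup
open scoped MatrixGroups

variable {N q p : ℕ} {Φ : ↥(Gamma0 N) → ZMod p}

/-! ### Basic consequences of `IsMZ` -/

theorem md_one (h : IsMZ N q p Φ) : Φ 1 = 0 := by
  have := h.mul 1 1
  rw [mul_one] at this
  exact left_eq_add.mp this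

theorem md_inv (h : IsMZ N q p Φ) (g : ↥(Gamma0 N)) : Φ g⁻¹ = - Φ g := by
  have := h.mul g g⁻¹
  rw [mul_inv_cancel, md_one h] at this
  exact eq_neg_of_add_eq_zero_right this.symm

theorem md_pow (h : IsMZ N q p Φ) (g : ↥(Gamma0 N)) (n : ℕ) : Φ (g ^ n) = (n : ZMod p) * Φ g := by
  induction n with
  | zero => simp [md_one h]
  | succ n ih => rw [pow_succ, h.mul, ih]; push_cast; ring

/-- `Φ` depends only on the bottom row. -/
theorem md_sameRow (h : IsMZ N q p Φ) (g g' : ↥(Gamma0 N)) (hc : g'.1.1 1 0 = g.1.1 1 0)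
    (hd : g'.1.1 1 1 = g.1.1 1 1) : Φ g' = Φ g := by
  refine h.unitBot g g' 0 (by simp) hc ?_
  rw [hd]
  simp

/-- `Φ` depends only on the top row. -/
theorem md_sameTop (h : IsMZ N q p Φ) (g g' : ↥(Gamma0 N)) (ha : g'.1.1 0 0 = g.1.1 0 0)
    (hb : g'.1.1 0 1 = g.1.1 0 1) : Φ g' = Φ g := by
  refine h.unitTop g g' 0 (by simp) hb ?_
  rw [ha]
  simp

/-- The matrix `[[1, 0], [N y, 1]]`. -/
def mdL (N : ℕ) (y : ℤ) : ↥(Gamma0 N) := gamma0Mk N 1 0 (N * y) 1 (by ring) (dvd_mul_right _ _)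

theorem md_L (h : IsMZ N q p Φ) (y : ℤ) : Φ (mdL N y) = 0 := by
  rw [← md_one h]
  refine md_sameTop h 1 (mdL N y) ?_ ?_
  · simp [mdL]
  · simp [mdL]

theorem md_mul_10 (g k : ↥(Gamma0 N)) :
    (g * k).1.1 1 0 = g.1.1 1 0 * k.1.1 0 0 + g.1.1 1 1 * k.1.1 1 0 := by
  rw [Subgroup.coe_mul, Matrix.SpecialLinearGroup.coe_mul, Matrix.mul_apply, Fin.sum_univ_two]

theorem md_mul_11 (g k : ↥(Gamma0 N)) :
    (g * k).1.1 1 1 = g.1.1 1 0 * k.1.1 0 1 + g.1.1 1 1 * k.1.1 1 1 := by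
  rw [Subgroup.coe_mul, Matrix.SpecialLinearGroup.coe_mul, Matrix.mul_apply, Fin.sum_univ_two]

/-- L-move: `Φ` depends on the bottom row `(c, d)` only through `c mod N d`. -/
theorem md_Lmove (h : IsMZ N q p Φ) (g g' : ↥(Gamma0 N)) (hd : g'.1.1 1 1 = g.1.1 1 1)
    (hc : g'.1.1 1 0 ≡ g.1.1 1 0 [ZMOD (N : ℤ) * g.1.1 1 1]) : Φ g' = Φ g := by
  obtain ⟨y, hy⟩ := hc.symm.dvd
  have e : Φ g' = Φ (g * mdL N y) := by
    refine md_sameRow h _ _ ?_ ?_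
    · rw [md_mul_10]
      simp only [mdL, gamma0Mk_00, gamma0Mk_10]
      linear_combination hy
    · rw [md_mul_11]
      simp only [mdL, gamma0Mk_01, gamma0Mk_11]
      rw [hd]; ring
  rw [e, h.mul, md_L h, add_zero]

/-! ### Entries of inverses and existence of matrices with a given bottom row -/

theorem md_inv_10 {M : ℕ} (g : ↥(Gamma0 M)) : (g⁻¹).1.1 1 0 = - g.1.1 1 0 := by
  rw [Subgroup.coe_inv, Matrix.SpecialLinearGroup.coe_inv, Matrix.adjugate_fin_two]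
  simp

theorem md_inv_11 {M : ℕ} (g : ↥(Gamma0 M)) : (g⁻¹).1.1 1 1 = g.1.1 0 0 := by
  rw [Subgroup.coe_inv, Matrix.SpecialLinearGroup.coe_inv, Matrix.adjugate_fin_two]
  simp

theorem md_inv_01 {M : ℕ} (g : ↥(Gamma0 M)) : (g⁻¹).1.1 0 1 = - g.1.1 0 1 := by
  rw [Subgroup.coe_inv, Matrix.SpecialLinearGroup.coe_inv, Matrix.adjugate_fin_two]
  simp

theorem md_exists_row (M : ℕ) (c d : ℤ) (hM : (M : ℤ) ∣ c) (hcd : IsCoprime c d) :
    ∃ g : ↥(Gamma0 M), g.1.1 1 0 = c ∧ g.1.1 1 1 = d := by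
  obtain ⟨u, w, huw⟩ := hcd
  refine ⟨gamma0Mk M w (-u) c d (by linear_combination huw) hM, by simp, by simp⟩


/-! ### The difference `Ψ = Φ ∘ conjD - Φ ∘ incl` -/

/-- `Ψ g = Φ (σ g σ⁻¹) - Φ g` on `Γ₀(N s²)`. -/
def mdPsi (N s : ℕ) [NeZero (s ^ 2)] (Φ : ↥(Gamma0 N) → ZMod p) (g : ↥(Gamma0 (N * s ^ 2))) :
    ZMod p :=
  Φ (conjD N (s ^ 2) g) - Φ (incl N (s ^ 2) g)

section psi

variable {s : ℕ} [NeZero (s ^ 2)]

theorem mdPsi_mul (h : IsMZ N q p Φ) (g k : ↥(Gamma0 (N * s ^ 2))) :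
    mdPsi N s Φ (g * k) = mdPsi N s Φ g + mdPsi N s Φ k := by
  simp only [mdPsi, map_mul, h.mul]
  ring

theorem mdPsi_inv (h : IsMZ N q p Φ) (g : ↥(Gamma0 (N * s ^ 2))) :
    mdPsi N s Φ g⁻¹ = - mdPsi N s Φ g := by
  simp only [mdPsi, map_inv, md_inv h]
  ring

theorem mdPsi_pow (h : IsMZ N q p Φ) (g : ↥(Gamma0 (N * s ^ 2))) (n : ℕ) :
    mdPsi N s Φ (g ^ n) = (n : ZMod p) * mdPsi N s Φ g := by
  simp only [mdPsi, map_pow, md_pow h]
  ring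

omit [NeZero (s ^ 2)] in
theorem md_s_dvd_c (g : ↥(Gamma0 (N * s ^ 2))) : (s : ℤ) ∣ g.1.1 1 0 := by
  have h1 : ((N * s ^ 2 : ℕ) : ℤ) ∣ g.1.1 1 0 := dvd_of_mem_Gamma0 g.2
  refine dvd_trans ?_ h1
  push_cast
  exact Dvd.intro_left ((N : ℤ) * s) (by ring)

theorem md_conjD_10 (g : ↥(Gamma0 (N * s ^ 2))) :
    (conjD N (s ^ 2) g).1.1 1 0 = g.1.1 1 0 / ((s ^ 2 : ℕ) : ℤ) := by
  rw [conjD_coe]
  simp [conjDMat]

theorem md_conjD_11 (g : ↥(Gamma0 (N * s ^ 2))) :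
    (conjD N (s ^ 2) g).1.1 1 1 = g.1.1 1 1 := by
  rw [conjD_coe]
  simp [conjDMat]

/-- (D1): `Ψ g = 0` if `d ≡ 1 mod s`. -/
theorem md_D1 (hyp : Hyp N q p) (h : IsMZ N q p Φ) {v j : ℕ} (hG : Good N q s v j)
    (hsN : (s : ℤ) ≡ 1 [ZMOD (N : ℤ)]) (hsp : s ≠ p) (hC : StmtC N q p) (hPow : StmtPow)
    (g : ↥(Gamma0 (N * s ^ 2))) (hd : (s : ℤ) ∣ g.1.1 1 1 - 1) : mdPsi N s Φ g = 0 := by
  have : Fact p.Prime := ⟨hyp.hp⟩
  have hP := hPow s (2 * v) g.1 (md_s_dvd_c g) hd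
  have hcoe : ((g ^ (s ^ (2 * v)) : ↥(Gamma0 (N * s ^ 2))).1) = g.1 ^ (s ^ (2 * v)) := rfl
  have h10 := hP 1 0
  have h01 := hP 0 1
  have h00 := hP 0 0
  have h11 := hP 1 1
  simp only [Matrix.one_apply_eq, Matrix.one_apply_ne, ne_eq, one_ne_zero, not_false_eq_true,
    zero_ne_one, sub_zero] at h10 h01 h00 h11
  have hss : (s : ℤ) ∣ (s : ℤ) ^ (2 * v) := dvd_pow_self _ (by have := hG.v1; omega)
  have key := hC hyp Φ h s v j hG hsN (g ^ (s ^ (2 * v))) (by rw [hcoe]; exact h10)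
    (by rw [hcoe]; exact h01) (by
      rw [hcoe]
      have : (g.1 ^ (s ^ (2 * v))).1 0 0 - (g.1 ^ (s ^ (2 * v))).1 1 1
          = ((g.1 ^ (s ^ (2 * v))).1 0 0 - 1) - ((g.1 ^ (s ^ (2 * v))).1 1 1 - 1) := by ring
      rw [this]
      exact dvd_sub (dvd_trans hss h00) (dvd_trans hss h11))
  have hz : mdPsi N s Φ (g ^ (s ^ (2 * v))) = 0 := by
    rw [mdPsi, key, sub_self]
  rw [mdPsi_pow h] at hz
  rcases mul_eq_zero.mp hz with h0 | h0
  · exfalso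
    rw [Nat.cast_pow] at h0
    have h1 : (s : ZMod p) = 0 := pow_eq_zero_iff (by have := hG.v1; omega) |>.mp h0
    rw [ZMod.natCast_eq_zero_iff] at h1
    exact hsp ((Nat.prime_dvd_prime_iff_eq hyp.hp hG.hs).mp h1).symm
  · exact h0

/-- (D2): `Ψ g` depends only on `d mod s`. -/
theorem md_D2 (hyp : Hyp N q p) (h : IsMZ N q p Φ) {v j : ℕ} (hG : Good N q s v j)
    (hsN : (s : ℤ) ≡ 1 [ZMOD (N : ℤ)]) (hsp : s ≠ p) (hC : StmtC N q p) (hPow : StmtPow)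
    (g g' : ↥(Gamma0 (N * s ^ 2))) (hd : (s : ℤ) ∣ g'.1.1 1 1 - g.1.1 1 1) :
    mdPsi N s Φ g' = mdPsi N s Φ g := by
  have h1 : mdPsi N s Φ (g' * g⁻¹) = 0 := by
    refine md_D1 hyp h hG hsN hsp hC hPow _ ?_
    rw [md_mul_11, md_inv_01, md_inv_11]
    have hdet := gamma0_det _ g
    have e : g'.1.1 1 0 * -g.1.1 0 1 + g'.1.1 1 1 * g.1.1 0 0 - 1
        = (g'.1.1 1 1 - g.1.1 1 1) * g.1.1 0 0 + g.1.1 0 1 * (g.1.1 1 0 - g'.1.1 1 0) := by
      linear_combination hdet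
    rw [e]
    exact dvd_add (Dvd.dvd.mul_right hd _)
      (Dvd.dvd.mul_left (dvd_sub (md_s_dvd_c g) (md_s_dvd_c g')) _)
  rw [mdPsi_mul h, mdPsi_inv h] at h1
  exact sub_eq_zero.mp (by rw [sub_eq_add_neg]; exact h1)


/-- (D3): `Ψ g = 0` if `d ≡ e mod s` for a prime `e ∤ N s` with `p ∤ e - 1`. -/
theorem md_D3 (hyp : Hyp N q p) (h : IsMZ N q p Φ) {v j : ℕ} (hG : Good N q s v j)
    (hsN : (s : ℤ) ≡ 1 [ZMOD (N : ℤ)]) (hsp : s ≠ p) (hC : StmtC N q p) (hPow : StmtPow)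
    (e : ℕ) (he : e.Prime) (heN : ¬ e ∣ N) (hes : e ≠ s) (hpe : ¬ p ∣ e - 1)
    (g : ↥(Gamma0 (N * s ^ 2))) (hd : (s : ℤ) ∣ g.1.1 1 1 - e) : mdPsi N s Φ g = 0 := by
  have : Fact p.Prime := ⟨hyp.hp⟩
  have hs0 : (s : ℤ) ≠ 0 := by exact_mod_cast hG.hs.ne_zero
  have hs2 : (((s ^ 2 : ℕ)) : ℤ) ≠ 0 := by exact_mod_cast (NeZero.ne (s ^ 2))
  -- coprimality of `e` with `N` and `s`
  have hcopN : IsCoprime (N : ℤ) (e : ℤ) := by
    rw [Int.isCoprime_iff_gcd_eq_one, Int.gcd_natCast_natCast]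
    exact (Nat.coprime_comm.mp ((Nat.Prime.coprime_iff_not_dvd he).mpr heN))
  have hcops : IsCoprime (s : ℤ) (e : ℤ) := by
    rw [Int.isCoprime_iff_gcd_eq_one, Int.gcd_natCast_natCast]
    exact (Nat.coprime_primes hG.hs he).mpr (Ne.symm hes)
  -- the rows `(N s^(2 (k + 1)), e)`
  have hrow : ∀ k : ℕ, ∃ G : ↥(Gamma0 (N * s ^ 2)),
      G.1.1 1 0 = (N : ℤ) * (s : ℤ) ^ (2 * (k + 1)) ∧ G.1.1 1 1 = e := by
    intro k
    refine md_exists_row (N * s ^ 2) _ _ ?_ ?_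
    · push_cast
      exact Dvd.intro ((s : ℤ) ^ (2 * k)) (by ring)
    · exact IsCoprime.mul_left hcopN (IsCoprime.pow_left hcops)
  choose G hGc hGd using hrow
  set κ := mdPsi N s Φ (G 0) with hκ
  have hall : ∀ k, mdPsi N s Φ (G k) = κ := fun k =>
    md_D2 hyp h hG hsN hsp hC hPow _ _ (by rw [hGd, hGd, sub_self]; exact dvd_zero _)
  have hg : mdPsi N s Φ g = κ :=
    md_D2 hyp h hG hsN hsp hC hPow _ _ (by rw [hGd]; exact hd)
  -- `Φ (conjD (G (k + 1))) = Φ (incl (G k))`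
  have hstep : ∀ k, Φ (conjD N (s ^ 2) (G (k + 1))) = Φ (incl N (s ^ 2) (G k)) := by
    intro k
    refine md_sameRow h _ _ ?_ ?_
    · rw [md_conjD_10, hGc]
      show _ = (G k).1.1 1 0
      rw [hGc]
      have : (N : ℤ) * (s : ℤ) ^ (2 * (k + 1 + 1)) = ((s ^ 2 : ℕ) : ℤ) * ((N : ℤ) * (s : ℤ) ^ (2 * (k + 1))) := by
        push_cast; ring
      rw [this, Int.mul_ediv_cancel_left _ hs2]
    · rw [md_conjD_11, hGd]
      show _ = (G k).1.1 1 1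
      rw [hGd]
  set f : ℕ → ZMod p := fun k => Φ (incl N (s ^ 2) (G k)) with hf
  have hrec : ∀ k, f (k + 1) = f k - κ := by
    intro k
    have := hall (k + 1)
    rw [mdPsi, hstep k] at this
    simp only [hf]
    rw [← this]; ring
  have hlin : ∀ k, f k = f 0 - (k : ZMod p) * κ := by
    intro k
    induction k with
    | zero => simp
    | succ k ih => rw [hrec, ih]; push_cast; ring
  -- wrap around
  have hwrap : f (e - 1) = f 0 := by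
    simp only [hf]
    refine md_Lmove h _ _ ?_ ?_
    · show (G (e - 1)).1.1 1 1 = (G 0).1.1 1 1
      rw [hGd, hGd]
    · show (G (e - 1)).1.1 1 0 ≡ (G 0).1.1 1 0 [ZMOD (N : ℤ) * (G 0).1.1 1 1]
      rw [hGc, hGc, hGd]
      have hfer : (s : ℤ) ^ (e - 1) ≡ 1 [ZMOD (e : ℤ)] :=
        Int.ModEq.pow_card_sub_one_eq_one he hcops
      have h2 : (s : ℤ) ^ (2 * (e - 1)) ≡ 1 [ZMOD (e : ℤ)] := by
        have := hfer.pow 2
        rwa [← pow_mul, one_pow, mul_comm] at this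
      have e1 : (N : ℤ) * (s : ℤ) ^ (2 * (e - 1 + 1))
          = ((N : ℤ) * (s : ℤ) ^ 2) * (s : ℤ) ^ (2 * (e - 1)) := by ring
      have e2 : (N : ℤ) * (s : ℤ) ^ (2 * (0 + 1)) = ((N : ℤ) * (s : ℤ) ^ 2) * 1 := by ring
      rw [e1, e2]
      obtain ⟨t, ht⟩ := h2.symm.dvd
      refine (Int.modEq_iff_dvd).mpr ⟨- (s : ℤ) ^ 2 * t, ?_⟩
      linear_combination (-(N : ℤ) * (s : ℤ) ^ 2) * ht
  have hzero : ((e - 1 : ℕ) : ZMod p) * κ = 0 := by
    have := hlin (e - 1)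
    rw [hwrap] at this
    linear_combination this
  rw [hg]
  rcases mul_eq_zero.mp hzero with h0 | h0
  · exfalso
    rw [ZMod.natCast_eq_zero_iff] at h0
    exact hpe h0
  · exact h0

end psi

/-- **Piece D**: `Φ (σ g σ⁻¹) = Φ g` for all `g ∈ Γ₀(N s²)`. -/
theorem stmtD (N q p : ℕ) : StmtC N q p → StmtPow → StmtD N q p := by
  intro hC hPow hyp Φ h s v j hG hsN hsp _ g
  have hp2 : (p : ℤ) ≠ 0 := by exact_mod_cast hyp.hp.ne_zero
  -- `s ∤ d`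
  have hcopd : IsCoprime (g.1.1 1 1) (s : ℤ) := by
    obtain ⟨t, ht⟩ := md_s_dvd_c g
    have hdet := gamma0_det _ g
    exact ⟨g.1.1 0 0, - g.1.1 0 1 * t, by rw [ht] at hdet; linear_combination hdet⟩
  -- CRT
  have hsp' : IsCoprime (s : ℤ) (p : ℤ) := by
    rw [Int.isCoprime_iff_gcd_eq_one, Int.gcd_natCast_natCast]
    exact (Nat.coprime_primes hG.hs hyp.hp).mpr hsp
  obtain ⟨u, w, huw⟩ := hsp'
  set d := g.1.1 1 1 with hd
  obtain ⟨r, hr⟩ : ∃ r : ℤ, r = d * (w * p) + 2 * (u * s) := ⟨_, rfl⟩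
  have hr1 : r = d + s * (u * (2 - d)) := by
    rw [hr]; linear_combination d * huw
  have hr2 : r = 2 + p * (w * (d - 2)) := by
    rw [hr]; linear_combination (2 : ℤ) * huw
  have hcop2 : IsCoprime (2 : ℤ) (p : ℤ) := by
    rw [Int.isCoprime_iff_gcd_eq_one]
    have : Int.gcd 2 (p : ℤ) = Nat.gcd 2 p := by
      have := Int.gcd_natCast_natCast 2 p
      simpa using this
    rw [this]
    exact (Nat.coprime_primes Nat.prime_two hyp.hp).mpr (Ne.symm hyp.p2)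
  have hrs : IsCoprime r (s : ℤ) := by
    rw [hr1]; exact IsCoprime.add_mul_left_left hcopd _
  have hrp : IsCoprime r (p : ℤ) := by
    rw [hr2]; exact IsCoprime.add_mul_left_left hcop2 _
  have hrsp : IsCoprime r ((s * p : ℕ) : ℤ) := by
    push_cast
    exact IsCoprime.mul_right hrs hrp
  obtain ⟨e, hegt, he, hemod⟩ := Nat.forall_exists_prime_gt_and_zmodEq (N + s + 2)
    (q := s * p) (a := r) (Nat.mul_ne_zero hG.hs.ne_zero hyp.hp.ne_zero) hrsp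
  have heN : ¬ e ∣ N := by
    intro hdiv
    have := Nat.le_of_dvd (Nat.pos_of_ne_zero hyp.N0) hdiv
    omega
  have hes : e ≠ s := by omega
  have hes' : (s : ℤ) ∣ d - e := by
    have h1 : (s : ℤ) ∣ (e : ℤ) - r := by
      have := hemod.symm.dvd
      refine dvd_trans ?_ this
      push_cast
      exact dvd_mul_right _ _
    have h2 : d - e = - ((e : ℤ) - r) - s * (u * (2 - d)) := by
      linear_combination -hr1
    rw [h2]
    exact dvd_sub (Dvd.dvd.neg_right h1) (Dvd.intro _ rfl)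
  have hpe : ¬ p ∣ e - 1 := by
    intro hdiv
    have h1 : (p : ℤ) ∣ (e : ℤ) - r := by
      have := hemod.symm.dvd
      refine dvd_trans ?_ this
      push_cast
      exact dvd_mul_left _ _
    have h3 : (p : ℤ) ∣ ((e - 1 : ℕ) : ℤ) := by exact_mod_cast hdiv
    have he1 : 1 ≤ e := he.one_lt.le
    rw [Nat.cast_sub he1, Nat.cast_one] at h3
    have h4 : (p : ℤ) ∣ 1 := by
      have : (1 : ℤ) = ((e : ℤ) - 1) - ((e : ℤ) - r) - p * (w * (d - 2)) := by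
        linear_combination -hr2
      rw [this]
      exact dvd_sub (dvd_sub h3 h1) (Dvd.intro _ rfl)
    have := Int.eq_one_of_dvd_one (by positivity) h4
    have hp1 : p = 1 := by exact_mod_cast this
    exact hyp.hp.one_lt.ne' hp1
  have := md_D3 hyp h hG hsN hsp hC hPow e he heN hes hpe g hes'
  exact sub_eq_zero.mp this

end Fermat.Agent.S41.M
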