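import Fermat.Agent.S41.M.BasicsZ
import Fermat.Agent.S41.M.Dir

/-!
# S41, Theorem M, route B: the end (E)

From `StmtD` (invariance of `Φ` under `c ↦ c / s²` for all good primes `s ≡ 1 mod N`):
`Φ γ = 0` for every `γ ∈ Γ₀(N)` with `d ≡ 1 mod N`.
-/

set_option autoImplicit false

noncomputable section

namespace Fermat.Agent.S41.M

open Matrix CongruenceSubgroup
open scoped MatrixGroups

variable {N q p : ℕ} {Φ : ↥(Gamma0 N) → ZMod p}

/-- For a prime `e ≡ 3 mod 4` every unit mod `e` is `±` a square. -/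
theorem me_sq {e : ℕ} (he : e.Prime) (he4 : e % 4 = 3) {a : ℤ} (ha : IsCoprime a (e : ℤ)) :
    ∃ t : ℤ, IsCoprime t (e : ℤ) ∧ (a ≡ t ^ 2 [ZMOD (e : ℤ)] ∨ a ≡ -t ^ 2 [ZMOD (e : ℤ)]) := by
  haveI : Fact e.Prime := ⟨he⟩
  have heP : Prime (e : ℤ) := Nat.prime_iff_prime_int.mp he
  have ha0 : ((a : ℤ) : ZMod e) ≠ 0 := by
    intro h0
    rw [ZMod.intCast_zmod_eq_zero_iff_dvd] at h0
    exact (heP.coprime_iff_not_dvd.mp ha.symm) h0
  have hm1 : ¬ IsSquare (-1 : ZMod e) := by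
    rw [ZMod.exists_sq_eq_neg_one_iff]
    simp [he4]
  have hdich : IsSquare ((a : ℤ) : ZMod e) ∨ IsSquare (-((a : ℤ) : ZMod e)) := by
    by_contra hcon
    push Not at hcon
    obtain ⟨h1, h2⟩ := hcon
    have e1 := quadraticChar_neg_one_iff_not_isSquare.mpr h1
    have e2 := quadraticChar_neg_one_iff_not_isSquare.mpr h2
    have e3 : quadraticChar (ZMod e) (-((a : ℤ) : ZMod e))
        = quadraticChar (ZMod e) (-1) * quadraticChar (ZMod e) ((a : ℤ) : ZMod e) := by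
      rw [← map_mul]; congr 1; ring
    rw [e2, e1] at e3
    have e4 : quadraticChar (ZMod e) (-1) = 1 := by linarith
    exact hm1 ((quadraticChar_one_iff_isSquare (neg_ne_zero.mpr one_ne_zero)).mp e4)
  have lift : ∀ t : ZMod e, t ≠ 0 → ∃ t0 : ℤ, IsCoprime t0 (e : ℤ) ∧ ((t0 : ℤ) : ZMod e) = t := by
    intro t ht
    refine ⟨(t.val : ℤ), ?_, by simp⟩
    refine (heP.coprime_iff_not_dvd.mpr ?_).symm
    intro hdvd
    rw [← ZMod.intCast_zmod_eq_zero_iff_dvd] at hdvd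
    apply ht
    simpa using hdvd
  rcases hdich with ⟨t, ht⟩ | ⟨t, ht⟩
  · have ht0 : t ≠ 0 := by
      rintro rfl
      exact ha0 (by simpa using ht)
    obtain ⟨t0, hcop, ht0'⟩ := lift t ht0
    refine ⟨t0, hcop, Or.inl ?_⟩
    rw [← ZMod.intCast_eq_intCast_iff]
    push_cast
    rw [ht0', ht]; ring
  · have ht0 : t ≠ 0 := by
      rintro rfl
      apply ha0
      have : -((a : ℤ) : ZMod e) = 0 := by simpa using ht
      exact neg_eq_zero.mp this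
    obtain ⟨t0, hcop, ht0'⟩ := lift t ht0
    refine ⟨t0, hcop, Or.inr ?_⟩
    rw [← ZMod.intCast_eq_intCast_iff]
    push_cast
    rw [ht0', ← neg_eq_iff_eq_neg, ht]; ring

theorem me_coprime_four {a : ℤ} (h : a % 4 = 3) : IsCoprime a 4 :=
  ⟨3, -(3 * (a / 4) + 2), by have := Int.emod_add_mul_ediv a 4; omega⟩

/-- A prime `e ≡ ± d mod c`, `e ≡ 3 mod 4`. -/
theorem me_prime {c d : ℤ} (hc : c ≠ 0) (hcd : IsCoprime c d) (B : ℕ) :
    ∃ (ε : ℤ) (e : ℕ), (ε = 1 ∨ ε = -1) ∧ B < e ∧ e.Prime ∧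
      (e : ℤ) ≡ ε * d [ZMOD c] ∧ e % 4 = 3 := by
  have fin : ∀ (ε a : ℤ), (ε = 1 ∨ ε = -1) → a ≡ ε * d [ZMOD c] → a % 4 = 3 →
      ∃ (ε : ℤ) (e : ℕ), (ε = 1 ∨ ε = -1) ∧ B < e ∧ e.Prime ∧
        (e : ℤ) ≡ ε * d [ZMOD c] ∧ e % 4 = 3 := by
    intro ε a hε ha ha4
    have hεd : IsCoprime (ε * d) c := by
      rcases hε with rfl | rfl
      · simpa using hcd.symm
      · simpa using hcd.symm.neg_left
    have hac : IsCoprime a c := mdir_isCoprime_of_modEq ha hεd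
    have ha4' : IsCoprime a (4 * c) := IsCoprime.mul_right (me_coprime_four ha4) hac
    obtain ⟨e, hB, he, hmod⟩ := mdir_prime B (mul_ne_zero (by norm_num : (4 : ℤ) ≠ 0) hc) ha4'
    refine ⟨ε, e, hε, hB, he, (hmod.of_mul_left 4).trans ha, ?_⟩
    have h4 : (e : ℤ) ≡ a [ZMOD 4] := hmod.of_mul_right c
    have : (e : ℤ) % 4 = a % 4 := h4
    omega
  rcases Int.emod_two_eq_zero_or_one c with hc2 | hc2
  · -- c even, d odd
    have hd2 : d % 2 = 1 := by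
      rcases Int.emod_two_eq_zero_or_one d with hd2 | hd2
      · exfalso
        have h1 : (2 : ℤ) ∣ c := Int.dvd_of_emod_eq_zero hc2
        have h2 : (2 : ℤ) ∣ d := Int.dvd_of_emod_eq_zero hd2
        have h3 : IsUnit (2 : ℤ) := hcd.isUnit_of_dvd' h1 h2
        have := Int.isUnit_iff.mp h3
        omega
      · exact hd2
    by_cases hd4 : d % 4 = 3
    · exact fin 1 d (Or.inl rfl) (by simp) hd4
    · by_cases hc4 : c % 4 = 2
      · refine fin 1 (d + c) (Or.inl rfl) ?_ (by omega)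
        rw [one_mul]
        exact (Int.modEq_of_dvd ⟨-1, by ring⟩)
      · refine fin (-1) (-d) (Or.inr rfl) (by simp) (by omega)
  · -- c odd
    have hc4 : IsCoprime c 4 := by
      have h2 : IsCoprime c 2 := ⟨1, -(c / 2), by have := Int.emod_add_mul_ediv c 2; omega⟩
      have : (4 : ℤ) = 2 ^ 2 := by norm_num
      rw [this]
      exact h2.pow_right
    obtain ⟨e, hB, he, hmod, hmod4⟩ := mdir_prime2 B hc (by norm_num : (4 : ℤ) ≠ 0) hc4
      hcd.symm (by norm_num : IsCoprime (3 : ℤ) 4)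
    refine ⟨1, e, Or.inl rfl, hB, he, by simpa using hmod, ?_⟩
    have : (e : ℤ) % 4 = 3 % 4 := hmod4
    omega

/-- The core of (E): rows `(c, e)` with `e` a prime `≡ 3 mod 4`, `e ≡ ± 1 mod N`, `e` large. -/
theorem me_core (hD : StmtD N q p) (hV : StmtV) (h : Hyp N q p) (hΦ : IsMZ N q p Φ)
    {g : ↥(Gamma0 N)} {e : ℕ} (he : e.Prime) (he4 : e % 4 = 3) (heN : N < e)
    (hd : g.1.1 1 1 = e)
    (hdN : (e : ℤ) ≡ 1 [ZMOD (N : ℤ)] ∨ (e : ℤ) ≡ -1 [ZMOD (N : ℤ)]) : Φ g = 0 := by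
  have heP : Prime (e : ℤ) := Nat.prime_iff_prime_int.mp he
  have hN0 : (N : ℤ) ≠ 0 := by exact_mod_cast h.N0
  -- `c = N c0`, `c0` a unit mod `e`
  obtain ⟨c0, hc0⟩ := gamma0_dvd N g
  have hcop : IsCoprime (g.1.1 1 0) (e : ℤ) := hd ▸ mz_isCoprime g
  have hc0e : IsCoprime c0 (e : ℤ) := by
    rw [hc0] at hcop
    exact hcop.of_mul_left_right
  have hNe : IsCoprime (N : ℤ) (e : ℤ) := by
    rw [Int.isCoprime_iff_gcd_eq_one, Int.gcd_natCast_natCast]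
    refine Nat.Coprime.symm ((Nat.Prime.coprime_iff_not_dvd he).mpr ?_)
    intro hdvd
    exact absurd (Nat.le_of_dvd (Nat.pos_of_ne_zero h.N0) hdvd) (not_le.mpr heN)
  obtain ⟨t, hte, ht⟩ := me_sq he he4 hc0e
  -- the auxiliary prime `s`
  obtain ⟨s, hsB, hs, hsN, hse⟩ := mdir_prime2 (max (max q N) (max p e)) hN0 heP.ne_zero hNe
    (isCoprime_one_left : IsCoprime (1 : ℤ) (N : ℤ)) hte
  have hsq : q < s := lt_of_le_of_lt ((le_max_left _ _).trans (le_max_left _ _)) hsB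
  have hsN' : N < s := lt_of_le_of_lt ((le_max_right _ _).trans (le_max_left _ _)) hsB
  have hsp : p < s := lt_of_le_of_lt ((le_max_left _ _).trans (le_max_right _ _)) hsB
  have hse' : e < s := lt_of_le_of_lt ((le_max_right _ _).trans (le_max_right _ _)) hsB
  have hs2 : 2 < s := lt_of_le_of_lt h.hq.two_le hsq
  obtain ⟨v, j, hv1, hj1, hv, hv'⟩ := hV q s h.hq.two_le hs (by
    intro hdvd
    exact absurd (Nat.le_of_dvd h.hq.pos hdvd) (not_le.mpr hsq))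
  have hG : Good N q s v j :=
    { hs := hs
      s2 := Nat.ne_of_gt hs2
      sq := Nat.ne_of_gt hsq
      sN := fun hdvd => absurd (Nat.le_of_dvd (Nat.pos_of_ne_zero h.N0) hdvd) (not_le.mpr hsN')
      sphi := fun hdvd => absurd
        ((Nat.le_of_dvd (Nat.totient_pos.mpr (Nat.pos_of_ne_zero h.N0)) hdvd).trans
          (Nat.totient_le N)) (not_le.mpr hsN')
      v1 := hv1
      j1 := hj1
      hv := hv
      hv' := hv' }
  haveI : NeZero (s ^ 2) := ⟨pow_ne_zero _ hs.ne_zero⟩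
  have hsP : Prime (s : ℤ) := Nat.prime_iff_prime_int.mp hs
  have hse2 : IsCoprime ((s : ℤ) ^ 2) (e : ℤ) := by
    have : IsCoprime (s : ℤ) (e : ℤ) := by
      rw [Int.isCoprime_iff_gcd_eq_one, Int.gcd_natCast_natCast]
      exact (Nat.coprime_primes hs he).mpr (Nat.ne_of_gt hse')
    exact this.pow_left
  -- `C0 ≡ 0 mod s²`, `C0 ≡ c0 mod e`
  obtain ⟨C0, hC0s, hC0e⟩ := mdir_crt hse2 0 c0
  obtain ⟨C1, hC1⟩ : (s : ℤ) ^ 2 ∣ C0 := by
    have := hC0s.symm.dvd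
    simpa using this
  have hC0cop : IsCoprime C0 (e : ℤ) := mdir_isCoprime_of_modEq hC0e hc0e
  have hrow : IsCoprime ((N : ℤ) * C0) (e : ℤ) := IsCoprime.mul_left hNe hC0cop
  obtain ⟨G, hGc, hGd⟩ := mz_exists_row (N * s ^ 2) (c := (N : ℤ) * C0) (d := (e : ℤ))
    ⟨C1, by rw [hC1]; push_cast; ring⟩ hrow
  have hDG := hD h Φ hΦ s v j hG hsN (Nat.ne_of_gt hsp) G
  -- `incl G` and `g`
  have e1 : Φ (incl N (s ^ 2) G) = Φ g := by
    refine mz_Lmove hΦ ?_ ?_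
    · show G.1.1 1 1 = g.1.1 1 1
      rw [hGd, hd]
    · show G.1.1 1 0 ≡ g.1.1 1 0 [ZMOD (N : ℤ) * g.1.1 1 1]
      rw [hGc, hc0, hd]
      exact Int.ModEq.mul_left' hC0e
  -- `conjD G` has row `(N C1, e)`, `C1 ≡ ± 1 mod e`
  have hconj10 : (conjD N (s ^ 2) G).1.1 1 0 = N * C1 := by
    rw [conjD_coe]
    have : ((G : SL(2, ℤ)) : Matrix (Fin 2) (Fin 2) ℤ) 1 0 = ((s ^ 2 : ℕ) : ℤ) * (N * C1) := by
      rw [hGc, hC1]; push_cast; ring
    simp only [conjDMat, Matrix.of_apply, Matrix.cons_val_one, Matrix.cons_val_zero,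
      Matrix.cons_val', Matrix.cons_val_fin_one]
    rw [this, Int.mul_ediv_cancel_left _ (by exact_mod_cast pow_ne_zero 2 hs.ne_zero)]
  have hconj11 : (conjD N (s ^ 2) G).1.1 1 1 = e := by
    rw [conjD_coe]
    simp only [conjDMat, Matrix.of_apply, Matrix.cons_val_one, Matrix.cons_val_zero,
      Matrix.cons_val', Matrix.cons_val_fin_one]
    exact hGd
  -- `s² C1 = C0 ≡ c0 ≡ ± t² ≡ ± s²`, so `C1 ≡ ± 1 mod e`
  have hst : (s : ℤ) ^ 2 ≡ t ^ 2 [ZMOD (e : ℤ)] := hse.pow 2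
  have hC1pm : C1 ≡ 1 [ZMOD (e : ℤ)] ∨ C1 ≡ -1 [ZMOD (e : ℤ)] := by
    have hcancel : ∀ x y : ℤ, (s : ℤ) ^ 2 * x ≡ (s : ℤ) ^ 2 * y [ZMOD (e : ℤ)] →
        x ≡ y [ZMOD (e : ℤ)] := by
      intro x y hxy
      have hdvd : (e : ℤ) ∣ (s : ℤ) ^ 2 * (y - x) := by
        have := hxy.dvd
        rwa [← mul_sub] at this
      exact Int.modEq_of_dvd (hse2.symm.dvd_of_dvd_mul_left hdvd)
    rcases ht with ht | ht
    · left
      apply hcancel
      calc (s : ℤ) ^ 2 * C1 = C0 := hC1.symm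
        _ ≡ c0 [ZMOD (e : ℤ)] := hC0e
        _ ≡ t ^ 2 [ZMOD (e : ℤ)] := ht
        _ ≡ (s : ℤ) ^ 2 [ZMOD (e : ℤ)] := hst.symm
        _ = (s : ℤ) ^ 2 * 1 := by ring
    · right
      apply hcancel
      calc (s : ℤ) ^ 2 * C1 = C0 := hC1.symm
        _ ≡ c0 [ZMOD (e : ℤ)] := hC0e
        _ ≡ -t ^ 2 [ZMOD (e : ℤ)] := ht
        _ ≡ -(s : ℤ) ^ 2 [ZMOD (e : ℤ)] := hst.symm.neg
        _ = (s : ℤ) ^ 2 * (-1) := by ring
  have e2 : Φ (conjD N (s ^ 2) G) = 0 := by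
    rcases hC1pm with hC1 | hC1
    · obtain ⟨g3, hg3c, hg3d⟩ := mz_exists_row N (c := (N : ℤ)) (d := (e : ℤ)) dvd_rfl hNe
      have e3 : Φ (conjD N (s ^ 2) G) = Φ g3 := by
        refine mz_Lmove hΦ (by rw [hconj11, hg3d]) ?_
        rw [hconj10, hg3c, hg3d]
        have := Int.ModEq.mul_left' (c := (N : ℤ)) hC1
        simpa using this
      rw [e3]
      exact mz_rowN h.hp h.p2 hΦ (Or.inl hg3c) (by rw [hg3d]; exact hdN)
    · obtain ⟨g3, hg3c, hg3d⟩ := mz_exists_row N (c := -(N : ℤ)) (d := (e : ℤ))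
        ((dvd_neg).mpr dvd_rfl) hNe.neg_left
      have e3 : Φ (conjD N (s ^ 2) G) = Φ g3 := by
        refine mz_Lmove hΦ (by rw [hconj11, hg3d]) ?_
        rw [hconj10, hg3c, hg3d]
        have := Int.ModEq.mul_left' (c := (N : ℤ)) hC1
        simpa using this
      rw [e3]
      exact mz_rowN h.hp h.p2 hΦ (Or.inr hg3c) (by rw [hg3d]; exact hdN)
  rw [← e1, ← hDG, e2]

/-- **(E)**. -/
theorem stmtE (N q p : ℕ) (hD : StmtD N q p) (hV : StmtV) : StmtE N q p := by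
  intro h Φ hΦ γ hγ
  have hN0 : (N : ℤ) ≠ 0 := by exact_mod_cast h.N0
  have hd1 : γ.1.1 1 1 ≡ 1 [ZMOD (N : ℤ)] := by
    have : (((γ.1.1 1 1 : ℤ)) : ZMod N) = ((1 : ℤ) : ZMod N) := by
      rw [Int.cast_one]; exact hγ
    exact (ZMod.intCast_eq_intCast_iff _ _ _).mp this
  -- make `c ≠ 0`
  obtain ⟨γ1, hγ1, hc1, hd1'⟩ : ∃ γ1 : ↥(Gamma0 N), Φ γ1 = Φ γ ∧ γ1.1.1 1 0 ≠ 0 ∧
      γ1.1.1 1 1 ≡ 1 [ZMOD (N : ℤ)] := by
    by_cases hc : γ.1.1 1 0 = 0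
    · refine ⟨γ * Lk N 1, by rw [hΦ.mul, mz_Lk hΦ, add_zero], ?_, ?_⟩
      · rw [mz_mul10, hc]
        show (0 : ℤ) * 1 + γ.1.1 1 1 * ((N : ℤ) * 1) ≠ 0
        have hdet := gamma0_det N γ
        rw [hc] at hdet
        have hd0 : γ.1.1 1 1 ≠ 0 := by
          rintro h0
          rw [h0] at hdet
          simp at hdet
        simpa using mul_ne_zero hd0 hN0
      · rw [mz_mul11]
        show γ.1.1 1 0 * 0 + γ.1.1 1 1 * 1 ≡ 1 [ZMOD (N : ℤ)]
        simpa using hd1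
    · exact ⟨γ, rfl, hc, hd1⟩
  rw [← hγ1]
  obtain ⟨ε, e, hε, heB, he, hmod, he4⟩ := me_prime hc1 (mz_isCoprime γ1) N
  -- the matrix with row `(ε c, e)`
  have hεc : IsCoprime (ε * γ1.1.1 1 0) (ε * γ1.1.1 1 1) := by
    rcases hε with rfl | rfl
    · simpa using mz_isCoprime γ1
    · simpa using (mz_isCoprime γ1).neg_neg
  have hmod' : (e : ℤ) ≡ ε * γ1.1.1 1 1 [ZMOD ε * γ1.1.1 1 0] := by
    rcases hε with rfl | rfl
    · simpa using hmod
    · have := hmod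
      rw [neg_one_mul] at this ⊢
      rw [neg_one_mul]
      exact (Int.modEq_neg).mpr this
  have hrow : IsCoprime (ε * γ1.1.1 1 0) (e : ℤ) :=
    (mdir_isCoprime_of_modEq hmod' hεc.symm).symm
  obtain ⟨g2, hg2c, hg2d⟩ := mz_exists_row N (c := ε * γ1.1.1 1 0) (d := (e : ℤ))
    (Dvd.dvd.mul_left (gamma0_dvd N γ1) ε) hrow
  obtain ⟨g1, hg1c, hg1d⟩ := mz_exists_row N (c := ε * γ1.1.1 1 0) (d := ε * γ1.1.1 1 1)
    (Dvd.dvd.mul_left (gamma0_dvd N γ1) ε) hεc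
  have e1 : Φ g1 = Φ γ1 := by
    rcases hε with rfl | rfl
    · exact mz_sameRow hΦ (by rw [hg1c]; ring) (by rw [hg1d]; ring)
    · exact mz_neg h.hp h.p2 hΦ (by rw [hg1c]; ring) (by rw [hg1d]; ring)
  have e2 : Φ g2 = Φ g1 := by
    refine mz_Tmove hΦ (by rw [hg2c, hg1c]) ?_
    rw [hg2d, hg1d, hg1c]
    exact hmod'
  rw [← e1, ← e2]
  refine me_core hD hV h hΦ he he4 heB hg2d ?_
  -- `e ≡ ε mod N`
  have hN : (e : ℤ) ≡ ε * γ1.1.1 1 1 [ZMOD (N : ℤ)] := by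
    obtain ⟨k, hk⟩ := gamma0_dvd N γ1
    have : (e : ℤ) ≡ ε * γ1.1.1 1 1 [ZMOD (N : ℤ) * k] := hk ▸ hmod
    exact this.of_mul_right k
  have hN' : (e : ℤ) ≡ ε [ZMOD (N : ℤ)] := by
    refine hN.trans ?_
    have := Int.ModEq.mul_left ε hd1'
    simpa using this
  rcases hε with rfl | rfl
  · exact Or.inl hN'
  · exact Or.inr hN'

end Fermat.Agent.S41.M
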