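import Fermat.Agent.S41.M.Plan

/-!
# S41, Theorem M, piece NT (helper35)

`stmtNT : StmtNT` — for `x = q^(2j) = 1 + s^v w`, `s ∤ w`, a modulus `M` prime to `q` with
`s ∤ φ(M)` and a target `r ≡ 1 mod s^v` there is `m ≥ 1` with `q^(2m) ≡ 1 mod M` and
`q^(2m) ≡ r mod s^(2v)`.  Proof: `(1 + y)^n ≡ 1 + n y mod y²` and `m = j φ(M) m'` with
`φ(M) w m' ≡ ρ mod s^v`.

`stmtV : StmtV` — `j = s - 1` and `v` the multiplicity of `s` in `q^(2j) - 1`.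
-/

set_option autoImplicit false

namespace Fermat.Agent.S41.M

/-- `(1 + y)^n ≡ 1 + n y mod y²`. -/
theorem mnt_one_add_pow (y : ℤ) (n : ℕ) : y ^ 2 ∣ (1 + y) ^ n - 1 - n * y := by
  induction n with
  | zero => simp
  | succ n ih =>
    obtain ⟨k, hk⟩ := ih
    refine ⟨(1 + y) * k + n, ?_⟩
    have : (1 + y) ^ (n + 1) - 1 - ((n + 1 : ℕ) : ℤ) * y
        = (1 + y) * ((1 + y) ^ n - 1 - n * y) + n * y ^ 2 := by
      push_cast
      ring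
    rw [this, hk]
    ring

/-- the congruence class `ρ a⁻¹ mod s^v` has a positive representative. -/
theorem mnt_exists_inv (s v : ℕ) (hs : s.Prime) (a ρ : ℤ) (ha : ¬ (s : ℤ) ∣ a) :
    ∃ m' : ℕ, 1 ≤ m' ∧ a * (m' : ℤ) ≡ ρ [ZMOD (s : ℤ) ^ v] := by
  have hcop : IsCoprime a ((s : ℤ) ^ v) := by
    apply IsCoprime.pow_right
    have hsp : Prime (s : ℤ) := Nat.prime_iff_prime_int.mp hs
    exact ((Prime.coprime_iff_not_dvd hsp).mpr ha).symm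
  obtain ⟨x, y, hxy⟩ := hcop
  have hpos : (0 : ℤ) < (s : ℤ) ^ v := by
    have : (0 : ℤ) < s := by exact_mod_cast hs.pos
    positivity
  have hnn := Int.emod_nonneg (x * ρ) hpos.ne'
  have hm0pos : 1 ≤ (x * ρ) % ((s : ℤ) ^ v) + (s : ℤ) ^ v := by omega
  refine ⟨((x * ρ) % ((s : ℤ) ^ v) + (s : ℤ) ^ v).toNat, ?_, ?_⟩
  · have : (1 : ℤ) ≤ ((((x * ρ) % ((s : ℤ) ^ v) + (s : ℤ) ^ v).toNat : ℕ) : ℤ) := by
      rw [Int.toNat_of_nonneg (by omega)]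
      exact hm0pos
    exact_mod_cast this
  · rw [Int.toNat_of_nonneg (by omega)]
    have h1 : (x * ρ) % ((s : ℤ) ^ v) + (s : ℤ) ^ v ≡ x * ρ [ZMOD (s : ℤ) ^ v] := by
      have h0 : (s : ℤ) ^ v ≡ 0 [ZMOD (s : ℤ) ^ v] := (Int.modEq_zero_iff_dvd).mpr dvd_rfl
      simpa using (Int.mod_modEq (x * ρ) ((s : ℤ) ^ v)).add h0
    have h2 : a * (x * ρ) ≡ ρ [ZMOD (s : ℤ) ^ v] := by
      apply Int.modEq_iff_dvd.mpr
      refine ⟨y * ρ, ?_⟩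
      linear_combination (-ρ) * hxy
    exact (h1.mul_left a).trans h2

theorem mnt_stmtNT_core (q s v j M : ℕ) (r : ℤ) (hs : s.Prime) (_hs2 : s ≠ 2) (_hv : 1 ≤ v)
    (hj : 1 ≤ j)
    (h1 : (s : ℤ) ^ v ∣ (q : ℤ) ^ (2 * j) - 1) (h2 : ¬ (s : ℤ) ^ (v + 1) ∣ (q : ℤ) ^ (2 * j) - 1)
    (hqM : Nat.Coprime q M) (hsM : ¬ s ∣ M.totient) (hr : r ≡ 1 [ZMOD (s : ℤ) ^ v]) :
    ∃ m : ℕ, 1 ≤ m ∧ (q : ℤ) ^ (2 * m) ≡ 1 [ZMOD (M : ℤ)] ∧
      (q : ℤ) ^ (2 * m) ≡ r [ZMOD (s : ℤ) ^ (2 * v)] := by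
  obtain ⟨w, hw⟩ := h1
  -- s ∤ w
  have hsw : ¬ (s : ℤ) ∣ w := by
    rintro ⟨w', rfl⟩
    apply h2
    refine ⟨w', ?_⟩
    rw [hw]; ring
  -- r = 1 + s^v ρ
  obtain ⟨ρ, hρ⟩ := (Int.modEq_iff_dvd.mp hr.symm)
  -- E = φ(M) ≠ 0
  have hE0 : M.totient ≠ 0 := fun h => hsM (h ▸ dvd_zero s)
  have hE1 : 1 ≤ M.totient := Nat.one_le_iff_ne_zero.mpr hE0
  have hsE : ¬ (s : ℤ) ∣ (M.totient : ℤ) := by
    intro h
    exact hsM (Int.natCast_dvd_natCast.mp h)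
  have hsp : Prime (s : ℤ) := Nat.prime_iff_prime_int.mp hs
  have hsEw : ¬ (s : ℤ) ∣ (M.totient : ℤ) * w := by
    intro h
    rcases hsp.dvd_or_dvd h with h | h
    · exact hsE h
    · exact hsw h
  obtain ⟨m', hm'1, hm'⟩ := mnt_exists_inv s v hs ((M.totient : ℤ) * w) ρ hsEw
  refine ⟨j * (M.totient * m'), ?_, ?_, ?_⟩
  · exact Nat.one_le_iff_ne_zero.mpr
      (Nat.mul_ne_zero (by omega) (Nat.mul_ne_zero hE0 (by omega)))
  · -- q^(2 j E m') = (q^E)^(2 j m') ≡ 1 mod M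
    have hEuler : (q : ℤ) ^ M.totient ≡ 1 [ZMOD (M : ℤ)] := by
      have := Nat.ModEq.pow_totient hqM
      have h' := (Int.natCast_modEq_iff).mpr this
      simpa using h'
    have : (q : ℤ) ^ (2 * (j * (M.totient * m'))) = ((q : ℤ) ^ M.totient) ^ (2 * j * m') := by
      rw [← pow_mul]; congr 1; ring
    rw [this]
    simpa using hEuler.pow (2 * j * m')
  · -- q^(2 j n) = (1 + s^v w)^n ≡ 1 + n s^v w mod s^(2v)
    have hx : (q : ℤ) ^ (2 * j) = 1 + (s : ℤ) ^ v * w := by linarith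
    have : (q : ℤ) ^ (2 * (j * (M.totient * m'))) = (1 + (s : ℤ) ^ v * w) ^ (M.totient * m') := by
      rw [← hx, ← pow_mul]; congr 1; ring
    rw [this]
    obtain ⟨k, hk⟩ := mnt_one_add_pow ((s : ℤ) ^ v * w) (M.totient * m')
    obtain ⟨t, ht⟩ := Int.modEq_iff_dvd.mp hm'
    -- ρ - E w m' = s^v t
    apply Int.modEq_iff_dvd.mpr
    refine ⟨t - w ^ 2 * k, ?_⟩
    have e1 : (1 + (s : ℤ) ^ v * w) ^ (M.totient * m')
        = 1 + ((M.totient * m' : ℕ) : ℤ) * ((s : ℤ) ^ v * w) + ((s : ℤ) ^ v * w) ^ 2 * k := by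
      linarith
    rw [e1]
    have e2 : r = 1 + (s : ℤ) ^ v * ρ := by linarith
    rw [e2]
    push_cast
    have e3 : ρ = (M.totient : ℤ) * w * m' + (s : ℤ) ^ v * t := by linarith
    rw [e3]
    ring

theorem mnt_stmtV_core (q s : ℕ) (hq : 2 ≤ q) (hs : s.Prime) (hsq : ¬ s ∣ q) :
    ∃ v j : ℕ, 1 ≤ v ∧ 1 ≤ j ∧ (s : ℤ) ^ v ∣ (q : ℤ) ^ (2 * j) - 1 ∧
      ¬ (s : ℤ) ^ (v + 1) ∣ (q : ℤ) ^ (2 * j) - 1 := by
  have hfact : Fact s.Prime := ⟨hs⟩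
  have hj : 1 ≤ s - 1 := by have := hs.two_le; omega
  -- A = q^(2 (s-1)) - 1 as a natural number
  have hqpow : 1 < q ^ (2 * (s - 1)) := Nat.one_lt_pow (by omega) (by omega)
  set A : ℕ := q ^ (2 * (s - 1)) - 1 with hA
  have hA0 : A ≠ 0 := by omega
  have hcast : ((A : ℕ) : ℤ) = (q : ℤ) ^ (2 * (s - 1)) - 1 := by
    rw [hA, Nat.cast_sub hqpow.le]
    push_cast
    ring
  -- s ∣ A by Fermat
  have hcop : IsCoprime (q : ℤ) (s : ℤ) := by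
    have : Nat.Coprime q s := (Nat.Coprime.symm ((Nat.Prime.coprime_iff_not_dvd hs).mpr hsq))
    exact Nat.isCoprime_iff_coprime.mpr this
  have hF : (q : ℤ) ^ (s - 1) ≡ 1 [ZMOD (s : ℤ)] := Int.ModEq.pow_card_sub_one_eq_one hs hcop
  have hF2 : (q : ℤ) ^ (2 * (s - 1)) ≡ 1 [ZMOD (s : ℤ)] := by
    have := hF.pow 2
    rw [← pow_mul, one_pow, mul_comm] at this
    exact this
  have hsA : s ∣ A := by
    have h1 : (s : ℤ) ∣ (q : ℤ) ^ (2 * (s - 1)) - 1 := by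
      have := (Int.modEq_iff_dvd.mp hF2.symm)
      exact this
    rw [← hcast] at h1
    exact Int.natCast_dvd_natCast.mp h1
  refine ⟨padicValNat s A, s - 1, ?_, hj, ?_, ?_⟩
  · exact one_le_padicValNat_of_dvd hA0 hsA
  · rw [← hcast]
    have := @pow_padicValNat_dvd s A
    exact_mod_cast this
  · rw [← hcast]
    intro h
    have h' : s ^ (padicValNat s A + 1) ∣ A := by exact_mod_cast h
    exact pow_succ_padicValNat_not_dvd hA0 h'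

/-- **NT**: the units `q^(2m)` are `s`-adically dense in `1 + s^v ℤ` modulo `s^(2v)`, with
`q^(2m) ≡ 1 mod M`. -/
theorem stmtNT : StmtNT := by
  intro q s v j M r hs hs2 hv hj h1 h2 hqM hsM hr
  exact mnt_stmtNT_core q s v j M r hs hs2 hv hj h1 h2 hqM hsM hr

/-- **V**: existence of the exponent `v`. -/
theorem stmtV : StmtV := by
  intro q s hq hs hsq
  exact mnt_stmtV_core q s hq hs hsq

end Fermat.Agent.S41.M
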