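import Fermat.Agent.S41.M.BasicsZ
import Fermat.Agent.S41.M.Dir

/-!
# S41, Theorem M, route B: the KEY LEMMA (P1)

If `s^(2v) ∣ c` then `Φ g` depends only on `c` and on `d mod c / s^v`
(conjugation by `e12(1/s^v)` moves `d` by a factor which is `s`-adically close to `1` and `≡ 1`
at the other primes of `c`; such a factor is a power of `q²`).
-/

set_option autoImplicit false

noncomputable section

namespace Fermat.Agent.S41.M

open Matrix CongruenceSubgroup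
open scoped MatrixGroups

variable {N q p : ℕ} {Φ : ↥(Gamma0 N) → ZMod p}

/-- The parabolic matrix `P = e12(-1/S) e21(N S² K) e12(1/S)`. -/
def mp1P (N : ℕ) (S K : ℤ) : ↥(Gamma0 N) :=
  gamma0Mk N (1 - N * S * K) (-(N * K)) (N * S ^ 2 * K) (1 + N * S * K) (by ring)
    ⟨S ^ 2 * K, by ring⟩

theorem mp1_P (hΦ : IsMZ N q p Φ) {S : ℤ} (hS : IsCoprime S (N : ℤ)) (K : ℤ) :
    Φ (mp1P N S K) = 0 := by
  obtain ⟨u, w, huw⟩ := hS
  let γ : ↥(Gamma0 N) := gamma0Mk N u (-1) (w * N) S (by linear_combination huw)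
    (dvd_mul_left _ _)
  have hid : mp1P N S K * γ = γ * Lk N K := by
    apply mz_ext
    · rw [mz_mul00, mz_mul00]
      show (1 - (N : ℤ) * S * K) * u + (-(N * K)) * (w * N) = u * 1 + (-1) * ((N : ℤ) * K)
      linear_combination (-(N : ℤ) * K) * huw
    · rw [mz_mul01, mz_mul01]
      show (1 - (N : ℤ) * S * K) * (-1) + (-(N * K)) * S = u * 0 + (-1) * 1
      ring
    · rw [mz_mul10, mz_mul10]
      show ((N : ℤ) * S ^ 2 * K) * u + (1 + N * S * K) * (w * N) = w * N * 1 + S * ((N : ℤ) * K)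
      linear_combination ((N : ℤ) * S * K) * huw
    · rw [mz_mul11, mz_mul11]
      show ((N : ℤ) * S ^ 2 * K) * (-1) + (1 + N * S * K) * S = w * N * 0 + S * 1
      ring
  have h1 := hΦ.mul (mp1P N S K) γ
  rw [hid, hΦ.mul, mz_Lk hΦ, add_zero] at h1
  have h2 : Φ (mp1P N S K) + Φ γ = 0 + Φ γ := by rw [zero_add]; exact h1.symm
  exact add_right_cancel h2

/-- One step of (P1): `d' = d + c / s^v`. -/
theorem mp1_step (hNT : StmtNT) (h : Hyp N q p) (hΦ : IsMZ N q p Φ) {s v j : ℕ}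
    (hG : Good N q s v j) {g g' : ↥(Gamma0 N)} (hsc : (s : ℤ) ^ (2 * v) ∣ g.1.1 1 0)
    (hc : g'.1.1 1 0 = g.1.1 1 0)
    (hd : g'.1.1 1 1 = g.1.1 1 1 + g.1.1 1 0 / (s : ℤ) ^ v) : Φ g' = Φ g := by
  have hsP : Prime (s : ℤ) := Nat.prime_iff_prime_int.mp hG.hs
  have hs0 : (s : ℤ) ≠ 0 := hsP.ne_zero
  set S : ℤ := (s : ℤ) ^ v with hSdef
  have hS0 : S ≠ 0 := pow_ne_zero _ hs0
  have hS2 : S ^ 2 = (s : ℤ) ^ (2 * v) := by rw [hSdef, ← pow_mul, mul_comm]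
  -- coprimality of `s` and `N`
  have hsN : IsCoprime (s : ℤ) (N : ℤ) := by
    rw [Int.isCoprime_iff_gcd_eq_one, Int.gcd_natCast_natCast]
    exact (Nat.Prime.coprime_iff_not_dvd hG.hs).mpr hG.sN
  have hSN : IsCoprime S (N : ℤ) := hsN.pow_left
  -- `c = N S² c0`
  have hNS : (N : ℤ) * S ^ 2 ∣ g.1.1 1 0 := by
    have : IsCoprime (N : ℤ) (S ^ 2) := (hSN.pow_left).symm
    exact this.mul_dvd (gamma0_dvd N g) (hS2 ▸ hsc)
  obtain ⟨c0, hc0⟩ := hNS
  have hcS : g.1.1 1 0 / S = N * S * c0 := by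
    rw [hc0]
    have : (N : ℤ) * S ^ 2 * c0 = S * (N * S * c0) := by ring
    rw [this, Int.mul_ediv_cancel_left _ hS0]
  have hcop : IsCoprime (g.1.1 1 0) (g.1.1 1 1) := mz_isCoprime g
  have hc0d : IsCoprime c0 (g.1.1 1 1) := by
    rw [hc0] at hcop
    exact hcop.of_mul_left_right
  have hSd : IsCoprime S (g.1.1 1 1) := by
    rw [hc0] at hcop
    have : IsCoprime (S ^ 2) (g.1.1 1 1) := hcop.of_mul_left_left.of_mul_left_right
    exact (IsCoprime.pow_left_iff (by norm_num : 0 < 2)).mp this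
  have hsd : IsCoprime (s : ℤ) (g.1.1 1 1) :=
    (IsCoprime.pow_left_iff (Nat.lt_of_lt_of_le Nat.zero_lt_one hG.v1)).mp hSd
  have hd0 : g.1.1 1 1 ≠ 0 := by
    intro h0
    rw [h0] at hsd
    have : IsUnit (s : ℤ) := isCoprime_zero_right.mp hsd
    exact hsP.not_unit this
  -- Dirichlet
  have h2s : IsCoprime (2 : ℤ) (s : ℤ) := by
    rw [Int.isCoprime_iff_gcd_eq_one]
    have : Nat.Coprime 2 s := (Nat.coprime_primes Nat.prime_two hG.hs).mpr (Ne.symm hG.s2)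
    exact_mod_cast this
  obtain ⟨π, hπB, hπ, hπd, hπs⟩ := mdir_prime2 (max q N) hd0 hs0 hsd.symm hc0d h2s
  have hπq : q < π := lt_of_le_of_lt (le_max_left _ _) hπB
  have hπN : N < π := lt_of_le_of_lt (le_max_right _ _) hπB
  obtain ⟨K, hK⟩ := hπd.symm.dvd
  -- hK : π - c0 = d * K
  -- the modified matrices
  set gt : ↥(Gamma0 N) := g * Lk N (S ^ 2 * K) with hgt
  set gt' : ↥(Gamma0 N) := g' * mp1P N S K with hgt'
  have hgtc : gt.1.1 1 0 = N * S ^ 2 * π := by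
    rw [hgt, mz_mul10]
    show g.1.1 1 0 * 1 + g.1.1 1 1 * ((N : ℤ) * (S ^ 2 * K)) = _
    rw [hc0]
    linear_combination ((N : ℤ) * S ^ 2) * (-hK)
  have hgtd : gt.1.1 1 1 = g.1.1 1 1 := by
    rw [hgt, mz_mul11]
    show g.1.1 1 0 * 0 + g.1.1 1 1 * 1 = _
    ring
  have hgt'c : gt'.1.1 1 0 = N * S ^ 2 * π := by
    rw [hgt', mz_mul10, hc, hd, hcS]
    show g.1.1 1 0 * (1 - (N : ℤ) * S * K) + (g.1.1 1 1 + N * S * c0) * ((N : ℤ) * S ^ 2 * K) = _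
    rw [hc0]
    linear_combination ((N : ℤ) * S ^ 2) * (-hK)
  have hgt'd : gt'.1.1 1 1 = g.1.1 1 1 + N * S * π := by
    rw [hgt', mz_mul11, hc, hd, hcS]
    show g.1.1 1 0 * (-((N : ℤ) * K)) + (g.1.1 1 1 + N * S * c0) * (1 + (N : ℤ) * S * K) = _
    rw [hc0]
    linear_combination ((N : ℤ) * S) * (-hK)
  have hΦgt : Φ gt = Φ g := by rw [hgt, hΦ.mul, mz_Lk hΦ, add_zero]
  have hΦgt' : Φ gt' = Φ g' := by rw [hgt', hΦ.mul, mp1_P hΦ hSN, add_zero]
  -- number theory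
  have hqM : Nat.Coprime q (N * π) := by
    refine Nat.Coprime.mul_right ((Nat.Prime.coprime_iff_not_dvd h.hq).mpr h.qN) ?_
    exact (Nat.coprime_primes h.hq hπ).mpr (Nat.ne_of_lt hπq)
  have hNπ : Nat.Coprime N π := by
    refine Nat.Coprime.symm ((Nat.Prime.coprime_iff_not_dvd hπ).mpr ?_)
    intro hdvd
    exact absurd (Nat.le_of_dvd (Nat.pos_of_ne_zero h.N0) hdvd) (not_le.mpr hπN)
  have hstot : ¬ s ∣ (N * π).totient := by
    rw [Nat.totient_mul hNπ, Nat.totient_prime hπ]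
    intro hdvd
    rcases (Nat.Prime.dvd_mul hG.hs).mp hdvd with h1 | h1
    · exact hG.sphi h1
    · -- π ≡ 2 mod s, so s ∤ π - 1
      have h2 : (s : ℤ) ∣ (π : ℤ) - 1 := by
        have hπ1 : 1 ≤ π := hπ.one_lt.le
        have := Int.natCast_dvd_natCast.mpr h1
        rwa [Nat.cast_sub hπ1, Nat.cast_one] at this
      have h3 : (s : ℤ) ∣ 2 - (π : ℤ) := hπs.dvd
      have h4 : (s : ℤ) ∣ 1 := by
        have := dvd_add h2 h3
        have e : (π : ℤ) - 1 + (2 - (π : ℤ)) = 1 := by ring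
        rwa [e] at this
      exact hsP.not_unit (isUnit_of_dvd_one h4)
  -- inverse of d mod S²
  have hdS2 : IsCoprime (g.1.1 1 1) (S ^ 2) := (hSd.pow_left).symm
  obtain ⟨u, w, huw⟩ := hdS2
  have hr : (1 + (N : ℤ) * S * π * u) ≡ 1 [ZMOD (s : ℤ) ^ v] := by
    refine (Int.modEq_of_dvd ⟨-((N : ℤ) * π * u), ?_⟩)
    rw [← hSdef]
    ring
  obtain ⟨m, -, hm1, hm2⟩ := hNT q s v j (N * π) (1 + (N : ℤ) * S * π * u) hG.hs hG.s2 hG.v1
    hG.j1 hG.hv hG.hv' hqM hstot hr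
  -- unit move
  have hmN : (q : ℤ) ^ (2 * m) ≡ 1 [ZMOD (N : ℤ)] := by
    have : (q : ℤ) ^ (2 * m) ≡ 1 [ZMOD (N : ℤ) * (π : ℤ)] := by
      simpa using hm1
    exact this.of_mul_right _
  have key : Φ gt' = Φ gt := by
    refine hΦ.unitBot gt gt' m hmN (by rw [hgtc, hgt'c]) ?_
    rw [hgt'd, hgtd, hgtc]
    -- `d + N S π ≡ q^(2m) d mod N S² π`
    obtain ⟨A, hA⟩ := hm1.symm.dvd
    obtain ⟨B, hB⟩ := hm2.symm.dvd
    rw [← hS2] at hB
    push_cast at hA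
    have hcopr : IsCoprime ((N : ℤ) * π) (S ^ 2) := by
      refine IsCoprime.mul_left (hSN.pow_left).symm ?_
      have hπs' : IsCoprime (π : ℤ) (s : ℤ) := by
        rw [Int.isCoprime_iff_gcd_eq_one, Int.gcd_natCast_natCast]
        refine (Nat.coprime_primes hπ hG.hs).mpr ?_
        intro e
        -- π ≡ 2 mod s and π = s give s ∣ 2
        rw [e] at hπs
        have h3 : (s : ℤ) ∣ 2 - (s : ℤ) := hπs.dvd
        have h4 : (s : ℤ) ∣ 2 := by
          have := dvd_add h3 (dvd_refl (s : ℤ))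
          simpa using this
        have h5 : s ∣ 2 := by exact_mod_cast h4
        exact hG.s2 ((Nat.prime_dvd_prime_iff_eq hG.hs Nat.prime_two).mp h5)
      exact (IsCoprime.pow_right_iff (by norm_num : 0 < 2)).mpr
        ((IsCoprime.pow_right_iff (Nat.lt_of_lt_of_le Nat.zero_lt_one hG.v1)).mpr hπs')
    refine (Int.modEq_of_dvd ?_)
    have e : (N : ℤ) * S ^ 2 * π = ((N : ℤ) * π) * S ^ 2 := by ring
    rw [e]
    refine hcopr.mul_dvd ⟨A * g.1.1 1 1 - S, ?_⟩ ⟨B * g.1.1 1 1 - (N : ℤ) * S * π * w, ?_⟩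
    · linear_combination (g.1.1 1 1) * hA
    · linear_combination (g.1.1 1 1) * hB + ((N : ℤ) * S * π) * huw
  rw [← hΦgt', key, hΦgt]

/-- (P1) for nonnegative multiples. -/
theorem mp1_nat (hNT : StmtNT) (h : Hyp N q p) (hΦ : IsMZ N q p Φ) {s v j : ℕ}
    (hG : Good N q s v j) (n : ℕ) : ∀ g g' : ↥(Gamma0 N), (s : ℤ) ^ (2 * v) ∣ g.1.1 1 0 →
    g'.1.1 1 0 = g.1.1 1 0 →
    g'.1.1 1 1 = g.1.1 1 1 + (n : ℤ) * (g.1.1 1 0 / (s : ℤ) ^ v) → Φ g' = Φ g := by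
  induction n with
  | zero =>
    intro g g' _ hc hd
    refine mz_sameRow hΦ hc ?_
    rw [hd]; simp
  | succ n ih =>
    intro g g' hsc hc hd
    have hsP : Prime (s : ℤ) := Nat.prime_iff_prime_int.mp hG.hs
    have hs0 : (s : ℤ) ≠ 0 := hsP.ne_zero
    have hS0 : (s : ℤ) ^ v ≠ 0 := pow_ne_zero _ hs0
    -- c = S * c1, c1 = S * c2
    obtain ⟨c2, hc2⟩ := hsc
    have hc1 : g.1.1 1 0 / (s : ℤ) ^ v = (s : ℤ) ^ v * c2 := by
      rw [hc2]
      have : (s : ℤ) ^ (2 * v) * c2 = (s : ℤ) ^ v * ((s : ℤ) ^ v * c2) := by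
        rw [two_mul, pow_add]; ring
      rw [this, Int.mul_ediv_cancel_left _ hS0]
    have hcc : g.1.1 1 0 = (s : ℤ) ^ v * ((s : ℤ) ^ v * c2) := by
      rw [hc2, two_mul, pow_add]; ring
    have hcop : IsCoprime (g.1.1 1 0) (g.1.1 1 1) := mz_isCoprime g
    have hcop' : IsCoprime (g.1.1 1 0)
        (g.1.1 1 1 + (n : ℤ) * (g.1.1 1 0 / (s : ℤ) ^ v)) := by
      rw [hc1]
      have h1 : IsCoprime ((s : ℤ) ^ v) (g.1.1 1 1 + (n : ℤ) * ((s : ℤ) ^ v * c2)) := by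
        have : IsCoprime ((s : ℤ) ^ v) (g.1.1 1 1) := by
          rw [hcc] at hcop
          exact hcop.of_mul_left_left
        have e : g.1.1 1 1 + (n : ℤ) * ((s : ℤ) ^ v * c2)
            = g.1.1 1 1 + ((n : ℤ) * c2) * (s : ℤ) ^ v := by ring
        rw [e]
        exact this.add_mul_right_right _
      have h2 : IsCoprime ((s : ℤ) ^ v * c2) (g.1.1 1 1 + (n : ℤ) * ((s : ℤ) ^ v * c2)) := by
        have : IsCoprime ((s : ℤ) ^ v * c2) (g.1.1 1 1) := by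
          rw [hcc] at hcop
          exact hcop.of_mul_left_right
        exact this.add_mul_right_right _
      rw [hcc]
      exact IsCoprime.mul_left h1 h2
    obtain ⟨g'', hg''c, hg''d⟩ := mz_exists_row N (gamma0_dvd N g) hcop'
    have e1 : Φ g'' = Φ g := ih g g'' ⟨c2, hc2⟩ hg''c hg''d
    have e2 : Φ g' = Φ g'' := by
      refine mp1_step hNT h hΦ hG (by rw [hg''c]; exact ⟨c2, hc2⟩) (by rw [hc, hg''c]) ?_
      rw [hd, hg''d, hg''c]
      push_cast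
      ring
    rw [e2, e1]

/-- **(P1)**. -/
theorem stmtP1 (N q p : ℕ) (hNT : StmtNT) : StmtP1 N q p := by
  intro h Φ hΦ s v j hG g g' hsc hc hk
  obtain ⟨k, hk⟩ := hk
  rcases le_or_gt 0 k with hk0 | hk0
  · obtain ⟨n, rfl⟩ := Int.eq_ofNat_of_zero_le hk0
    exact mp1_nat hNT h hΦ hG n g g' hsc hc hk
  · obtain ⟨n, hn⟩ := Int.eq_ofNat_of_zero_le (neg_nonneg.mpr hk0.le)
    refine (mp1_nat hNT h hΦ hG n g' g (by rw [hc]; exact hsc) hc.symm ?_).symm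
    rw [hc, hk, ← hn]
    ring

end Fermat.Agent.S41.M
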