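import Fermat.Agent.S41.M.BasicsZ

/-!
# S41, Theorem M, route B: (P2) from (P1) by the Atkin–Lehner involution (helper39)

`ω (a,b;c,d) = (d, -c/N; -N b, a)` is an involutive automorphism of `Γ₀(N)` exchanging the bottom
row and the top row; `Φ ∘ ω` satisfies `IsMZ` again.
-/

set_option autoImplicit false

noncomputable section

namespace Fermat.Agent.S41.M

open Matrix CongruenceSubgroup
open scoped MatrixGroups

variable {N q p : ℕ} {Φ : ↥(Gamma0 N) → ZMod p}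

theorem mp2h_cancel (N : ℕ) (g : ↥(Gamma0 N)) : (N : ℤ) * (g.1.1 1 0 / (N : ℤ)) = g.1.1 1 0 :=
  Int.mul_ediv_cancel' (gamma0_dvd N g)

/-- The Atkin–Lehner involution `ω (a,b;c,d) = (d, -c/N; -N b, a)`. -/
def mp2hOm (N : ℕ) (g : ↥(Gamma0 N)) : ↥(Gamma0 N) :=
  gamma0Mk N (g.1.1 1 1) (-(g.1.1 1 0 / (N : ℤ))) (-((N : ℤ) * g.1.1 0 1)) (g.1.1 0 0)
    (by
      have h1 := mp2h_cancel N g
      have h2 := gamma0_det N g
      linear_combination h2 - (g.1.1 0 1) * h1)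
    ((dvd_neg).mpr (dvd_mul_right _ _))

theorem mp2hOm_00 (g : ↥(Gamma0 N)) : (mp2hOm N g).1.1 0 0 = g.1.1 1 1 := rfl
theorem mp2hOm_01 (g : ↥(Gamma0 N)) : (mp2hOm N g).1.1 0 1 = -(g.1.1 1 0 / (N : ℤ)) := rfl
theorem mp2hOm_10 (g : ↥(Gamma0 N)) : (mp2hOm N g).1.1 1 0 = -((N : ℤ) * g.1.1 0 1) := rfl
theorem mp2hOm_11 (g : ↥(Gamma0 N)) : (mp2hOm N g).1.1 1 1 = g.1.1 0 0 := rfl

theorem mp2hOm_mul (hN : N ≠ 0) (g h : ↥(Gamma0 N)) :
    mp2hOm N (g * h) = mp2hOm N g * mp2hOm N h := by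
  have hN' : (N : ℤ) ≠ 0 := by exact_mod_cast hN
  have hg := mp2h_cancel N g
  have hh := mp2h_cancel N h
  have hgh := mp2h_cancel N (g * h)
  have hgh' : (N : ℤ) * ((g * h).1.1 1 0 / (N : ℤ))
      = g.1.1 1 0 * h.1.1 0 0 + g.1.1 1 1 * h.1.1 1 0 := by rw [hgh, mz_mul10]
  apply mz_ext
  · rw [mz_mul00 (mp2hOm N g) (mp2hOm N h), mp2hOm_00 (g * h), mp2hOm_00 g, mp2hOm_00 h,
      mp2hOm_01 g, mp2hOm_10 h, mz_mul11]
    linear_combination (-(h.1.1 0 1)) * hg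
  · rw [mz_mul01 (mp2hOm N g) (mp2hOm N h), mp2hOm_01 (g * h), mp2hOm_00 g, mp2hOm_01 g,
      mp2hOm_01 h, mp2hOm_11 h]
    apply mul_left_cancel₀ hN'
    linear_combination (-1 : ℤ) * hgh' + (g.1.1 1 1) * hh + (h.1.1 0 0) * hg
  · rw [mz_mul10 (mp2hOm N g) (mp2hOm N h), mp2hOm_10 (g * h), mp2hOm_10 g, mp2hOm_00 h,
      mp2hOm_11 g, mp2hOm_10 h, mz_mul01]
    ring
  · rw [mz_mul11 (mp2hOm N g) (mp2hOm N h), mp2hOm_11 (g * h), mp2hOm_10 g, mp2hOm_01 h,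
      mp2hOm_11 g, mp2hOm_11 h, mz_mul00]
    linear_combination (-(g.1.1 0 1)) * hh

theorem mp2hOm_invol (hN : N ≠ 0) (g : ↥(Gamma0 N)) : mp2hOm N (mp2hOm N g) = g := by
  have hN' : (N : ℤ) ≠ 0 := by exact_mod_cast hN
  apply mz_ext
  · rw [mp2hOm_00, mp2hOm_11]
  · rw [mp2hOm_01, mp2hOm_10, neg_mul_eq_mul_neg, Int.mul_ediv_cancel_left _ hN']
    ring
  · rw [mp2hOm_10, mp2hOm_01]
    have := mp2h_cancel N g
    linear_combination this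
  · rw [mp2hOm_11, mp2hOm_00]

theorem mp2h_isMZ (hN : N ≠ 0) (hΦ : IsMZ N q p Φ) : IsMZ N q p (fun g => Φ (mp2hOm N g)) where
  mul g h := by
    show Φ (mp2hOm N (g * h)) = _
    rw [mp2hOm_mul hN, hΦ.mul]
  T := by
    show Φ (mp2hOm N (Tel N)) = 0
    have : Φ (mp2hOm N (Tel N)) = Φ 1 := by
      refine mz_sameTop hΦ ?_ ?_
      · rw [mp2hOm_01]
        show -((0 : ℤ) / (N : ℤ)) = (1 : Matrix (Fin 2) (Fin 2) ℤ) 0 1
        simp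
      · rw [mp2hOm_00]
        show (1 : ℤ) = (1 : Matrix (Fin 2) (Fin 2) ℤ) 0 0
        simp
    rw [this, mz_one hΦ]
  L := by
    show Φ (mp2hOm N (Lel N)) = 0
    have : Φ (mp2hOm N (Lel N)) = Φ 1 := by
      refine mz_sameRow hΦ ?_ ?_
      · rw [mp2hOm_10]
        show -((N : ℤ) * (0 : ℤ)) = (1 : Matrix (Fin 2) (Fin 2) ℤ) 1 0
        simp
      · rw [mp2hOm_11]
        show (1 : ℤ) = (1 : Matrix (Fin 2) (Fin 2) ℤ) 1 1
        simp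
    rw [this, mz_one hΦ]
  unitBot g g' m hm hc hd := by
    show Φ (mp2hOm N g') = Φ (mp2hOm N g)
    refine hΦ.unitTop _ _ m hm ?_ ?_
    · rw [mp2hOm_01, mp2hOm_01, hc]
    · rw [mp2hOm_00, mp2hOm_00, mp2hOm_01]
      have e : (N : ℤ) * -(g.1.1 1 0 / (N : ℤ)) = -(g.1.1 1 0) := by
        rw [mul_neg, mp2h_cancel]
      rw [e]
      exact (Int.modEq_neg).mpr hd
  unitTop g g' m hm hb ha := by
    show Φ (mp2hOm N g') = Φ (mp2hOm N g)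
    refine hΦ.unitBot _ _ m hm ?_ ?_
    · rw [mp2hOm_10, mp2hOm_10, hb]
    · rw [mp2hOm_11, mp2hOm_11, mp2hOm_10]
      exact (Int.modEq_neg).mpr ha

theorem stmtP2h (N q p : ℕ) (hP1 : StmtP1 N q p) : StmtP2 N q p := by
  intro h Φ hΦ s v j hG g g' hsb hb hk
  obtain ⟨k, hk⟩ := hk
  have hN' : (N : ℤ) ≠ 0 := by exact_mod_cast h.N0
  have hS0 : (s : ℤ) ^ v ≠ 0 := pow_ne_zero _ (by exact_mod_cast hG.hs.ne_zero)
  have key := hP1 h _ (mp2h_isMZ h.N0 hΦ) s v j hG (mp2hOm N g) (mp2hOm N g')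
    (by rw [mp2hOm_10]; exact (dvd_neg).mpr (Dvd.dvd.mul_left hsb _))
    (by rw [mp2hOm_10, mp2hOm_10, hb])
    ⟨-k, by
      rw [mp2hOm_11, mp2hOm_11, mp2hOm_10, hk]
      obtain ⟨b2, hb2⟩ := hsb
      have hdiv : (s : ℤ) ^ v ∣ g.1.1 0 1 := by
        refine dvd_trans ?_ ⟨b2, hb2⟩
        exact pow_dvd_pow _ (by omega)
      obtain ⟨b1, hb1⟩ := hdiv
      rw [hb1, Int.mul_ediv_cancel_left _ hS0]
      have : -((N : ℤ) * ((s : ℤ) ^ v * b1)) / (s : ℤ) ^ v = -((N : ℤ) * b1) := by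
        have e : -((N : ℤ) * ((s : ℤ) ^ v * b1)) = (s : ℤ) ^ v * (-((N : ℤ) * b1)) := by ring
        rw [e, Int.mul_ediv_cancel_left _ hS0]
      rw [this]
      ring⟩
  simp only [mp2hOm_invol h.N0] at key
  exact key

end Fermat.Agent.S41.M
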