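import Fermat.Agent.S41.M.Plan

/-!
# S41, Theorem M, piece Pow (helper35)

`stmtPow : StmtPow` — a matrix `g ∈ SL(2, ℤ)` which is upper unipotent mod `s`
(`s ∣ c`, `s ∣ d - 1`, hence `s ∣ a - 1`) has `g^(s^w) ≡ 1 mod s^w`.

Proof: in any ring `(1 + Y)^n = 1 + n Y + Y² Z`; for `Y = g - 1` the entries of `Y²` are divisible
by `s`, and for `Y = M - 1` with `M ≡ 1 mod s^w`, `w ≥ 1`, the entries of `Y²` are divisible by
`s^(2w)`, hence by `s^(w+1)`.
-/

set_option autoImplicit false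

namespace Fermat.Agent.S41.M

open Matrix
open scoped MatrixGroups

/-- all entries of `A` are divisible by `n`. -/
def MPowDvd (n : ℤ) (A : Matrix (Fin 2) (Fin 2) ℤ) : Prop := ∀ i j : Fin 2, n ∣ A i j

theorem mpow_dvd_add {n : ℤ} {A B : Matrix (Fin 2) (Fin 2) ℤ} (hA : MPowDvd n A)
    (hB : MPowDvd n B) : MPowDvd n (A + B) := fun i j => by
  rw [Matrix.add_apply]; exact dvd_add (hA i j) (hB i j)

theorem mpow_dvd_mul_right {n : ℤ} {A : Matrix (Fin 2) (Fin 2) ℤ} (hA : MPowDvd n A)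
    (B : Matrix (Fin 2) (Fin 2) ℤ) : MPowDvd n (A * B) := fun i j => by
  rw [Matrix.mul_apply]
  exact Finset.dvd_sum fun k _ => Dvd.dvd.mul_right (hA i k) _

theorem mpow_dvd_mul {n m : ℤ} {A B : Matrix (Fin 2) (Fin 2) ℤ} (hA : MPowDvd n A)
    (hB : MPowDvd m B) : MPowDvd (n * m) (A * B) := fun i j => by
  rw [Matrix.mul_apply]
  exact Finset.dvd_sum fun k _ => mul_dvd_mul (hA i k) (hB k j)

theorem mpow_dvd_nsmul {n : ℤ} (k : ℕ) {m : ℤ} {A : Matrix (Fin 2) (Fin 2) ℤ} (hk : n ∣ (k : ℤ) * m)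
    (hA : MPowDvd m A) : MPowDvd n (k • A) := fun i j => by
  rw [Matrix.smul_apply, nsmul_eq_mul]
  obtain ⟨t, ht⟩ := hA i j
  rw [ht, ← mul_assoc]
  exact Dvd.dvd.mul_right hk t

theorem mpow_dvd_of_dvd {n m : ℤ} (h : n ∣ m) {A : Matrix (Fin 2) (Fin 2) ℤ} (hA : MPowDvd m A) :
    MPowDvd n A := fun i j => h.trans (hA i j)

/-- `(1 + Y)^n = 1 + n Y + Y² Z` in any ring. -/
theorem mpow_one_add_pow {R : Type*} [Ring R] (Y : R) (n : ℕ) :
    ∃ Z : R, (1 + Y) ^ n = 1 + n • Y + Y * Y * Z := by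
  induction n with
  | zero => exact ⟨0, by simp⟩
  | succ n ih =>
    obtain ⟨Z, hZ⟩ := ih
    refine ⟨(n : R) + Z * (1 + Y), ?_⟩
    rw [pow_succ, hZ]
    simp only [nsmul_eq_mul, Nat.cast_add, Nat.cast_one]
    have hc : Commute (n : R) Y := Nat.cast_commute n Y
    have hc2 : (n : R) * (Y * Y) = Y * Y * n := by
      rw [← mul_assoc, hc.eq, mul_assoc, hc.eq, ← mul_assoc]
    calc (1 + (n : R) * Y + Y * Y * Z) * (1 + Y)
        = 1 + ((n : R) * Y + Y) + ((n : R) * (Y * Y) + Y * Y * (Z * (1 + Y))) := by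
          noncomm_ring
      _ = 1 + ((n : R) + 1) * Y + Y * Y * ((n : R) + Z * (1 + Y)) := by
          rw [hc2]; noncomm_ring

/-- key step: if the entries of `Y` are divisible by `m`, those of `Y * Y` by `m'`, and
`m' ∣ n * m`, then the entries of `(1 + Y)^n - 1` are divisible by `m'`. -/
theorem mpow_step (Y : Matrix (Fin 2) (Fin 2) ℤ) (n : ℕ) (m m' : ℤ) (hY : MPowDvd m Y)
    (hYY : MPowDvd m' (Y * Y)) (hn : m' ∣ (n : ℤ) * m) : MPowDvd m' ((1 + Y) ^ n - 1) := by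
  obtain ⟨Z, hZ⟩ := mpow_one_add_pow Y n
  have : (1 + Y) ^ n - 1 = n • Y + Y * Y * Z := by rw [hZ]; abel
  rw [this]
  exact mpow_dvd_add (mpow_dvd_nsmul n hn hY) (mpow_dvd_mul_right hYY Z)

/-- base case: `g` upper unipotent mod `s` ⇒ `g^s ≡ 1 mod s`. -/
theorem mpow_base (s : ℕ) (g : SL(2, ℤ)) (hc : (s : ℤ) ∣ g.1 1 0) (hd : (s : ℤ) ∣ g.1 1 1 - 1) :
    MPowDvd (s : ℤ) ((g.1) ^ s - 1) := by
  have hdet : g.1 0 0 * g.1 1 1 - g.1 0 1 * g.1 1 0 = 1 := by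
    have := g.2
    rw [Matrix.det_fin_two] at this
    exact this
  have ha : (s : ℤ) ∣ g.1 0 0 - 1 := by
    have e : g.1 0 0 - 1 = -(g.1 0 0) * (g.1 1 1 - 1) + g.1 0 1 * g.1 1 0 := by
      linear_combination hdet
    rw [e]
    exact dvd_add (Dvd.dvd.mul_left hd _) (Dvd.dvd.mul_left hc _)
  set Y : Matrix (Fin 2) (Fin 2) ℤ := g.1 - 1 with hY
  have hg : g.1 = 1 + Y := by rw [hY]; abel
  have hYY : MPowDvd (s : ℤ) (Y * Y) := by
    obtain ⟨a', ha'⟩ := ha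
    obtain ⟨c', hc'⟩ := hc
    obtain ⟨d', hd'⟩ := hd
    have h00 : Y 0 0 = (s : ℤ) * a' := by
      rw [hY, Matrix.sub_apply, Matrix.one_apply_eq, ha']
    have h10 : Y 1 0 = (s : ℤ) * c' := by
      rw [hY, Matrix.sub_apply, Matrix.one_apply_ne (by decide), sub_zero, hc']
    have h11 : Y 1 1 = (s : ℤ) * d' := by
      rw [hY, Matrix.sub_apply, Matrix.one_apply_eq, hd']
    intro i j
    rw [Matrix.mul_apply, Fin.sum_univ_two]
    fin_cases i <;> fin_cases j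
    · refine ⟨(s : ℤ) * a' * a' + Y 0 1 * c', ?_⟩
      simp only [Fin.zero_eta]
      rw [h00, h10]; ring
    · refine ⟨a' * Y 0 1 + Y 0 1 * d', ?_⟩
      simp only [Fin.zero_eta, Fin.mk_one]
      rw [h00, h11]; ring
    · refine ⟨c' * (s : ℤ) * a' + d' * (s : ℤ) * c', ?_⟩
      simp only [Fin.zero_eta, Fin.mk_one]
      rw [h00, h10, h11]; ring
    · refine ⟨c' * Y 0 1 + (s : ℤ) * d' * d', ?_⟩
      simp only [Fin.mk_one]
      rw [h10, h11]; ring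
  rw [hg]
  exact mpow_step Y s 1 s (fun i j => one_dvd _) hYY (by simp)

/-- induction: `g^(s^w) ≡ 1 mod s^w`. -/
theorem mpow_main (s : ℕ) (g : SL(2, ℤ)) (hc : (s : ℤ) ∣ g.1 1 0) (hd : (s : ℤ) ∣ g.1 1 1 - 1)
    (w : ℕ) : MPowDvd ((s : ℤ) ^ w) ((g.1) ^ (s ^ w) - 1) := by
  induction w with
  | zero => intro i j; simp
  | succ w ih =>
    rcases Nat.eq_zero_or_pos w with hw | hw
    · subst hw
      simpa using mpow_base s g hc hd
    · set Y : Matrix (Fin 2) (Fin 2) ℤ := (g.1) ^ (s ^ w) - 1 with hY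
      have hM : (g.1) ^ (s ^ w) = 1 + Y := by rw [hY]; abel
      have e : (g.1) ^ (s ^ (w + 1)) = (1 + Y) ^ s := by
        rw [pow_succ, pow_mul, hM]
      rw [e]
      have hYY : MPowDvd ((s : ℤ) ^ (w + 1)) (Y * Y) := by
        refine mpow_dvd_of_dvd ?_ (mpow_dvd_mul ih ih)
        rw [← pow_add]
        exact pow_dvd_pow _ (by omega)
      refine mpow_step Y s ((s : ℤ) ^ w) ((s : ℤ) ^ (w + 1)) ih hYY ?_
      rw [pow_succ, mul_comm]

/-- **Pow**: a matrix which is upper unipotent mod `s` has its `s^w`-th power `≡ 1 mod s^w`. -/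
theorem stmtPow : StmtPow := by
  intro s w g hc hd i j
  have := mpow_main s g hc hd w i j
  rw [Matrix.sub_apply] at this
  have e : (g ^ (s ^ w)).1 = (g.1) ^ (s ^ w) := by
    simp
  rw [e]
  exact this

end Fermat.Agent.S41.M
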