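import Fermat.Agent.S41.M.Plan

/-!
# S41, Theorem M, route B, piece C (helper53)

`stmtSig : StmtP1 N q p → StmtP2 N q p → StmtC N q p`.

For `g = (a, b; c, d) ∈ Γ₀(N s²)` with `s^(2v) ∣ b, c` and `s ∣ a - d`, write `c = s² c₂`,
`a - d = s e`.  Then
* `g₁ = (a - s c₂, b + e - c₂; c, d + s c₂)` has the same `c` as `g` and `d` moved by `c / s`
  (so `Φ g₁ = Φ g` by `P1`);
* `g₃ = u g₁ u⁻¹`, `u = (s, 1; s - 1, 1) ∈ Γ₀(N)` (as `N ∣ s - 1`), is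
  `(a + s (1 - s) b, s² b; c₂ + (s - 1) e - (s - 1)² b, d + s (s - 1) b)`, so `Φ g₃ = Φ g₁`;
* `g₄ = conjD g = (a, s² b; c₂, d)` has the same `b` as `g₃` and `a₄ - a₃ = s (s - 1) b`
  (so `Φ g₄ = Φ g₃` by `P2`).
-/

set_option autoImplicit false
set_option linter.unusedSimpArgs false

noncomputable section

namespace Fermat.Agent.S41.M

open Matrix CongruenceSubgroup
open scoped MatrixGroups

/-- If `x * u = u * y` in `Γ₀(N)` then `Φ x = Φ y` (the target is commutative). -/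
theorem msig_eq_of_mul_eq {N q p : ℕ} {Φ : ↥(Gamma0 N) → ZMod p} (hΦ : IsMZ N q p Φ)
    {x y u : ↥(Gamma0 N)} (h : x * u = u * y) : Φ x = Φ y := by
  have h1 := hΦ.mul x u
  have h2 := hΦ.mul u y
  rw [h] at h1
  rw [h1] at h2
  have h3 : Φ x + Φ u = Φ y + Φ u := by rw [h2, add_comm]
  exact add_right_cancel h3

/-- Equality in `Γ₀(N)` from equality of the four entries. -/
theorem msig_ext {N : ℕ} {x y : ↥(Gamma0 N)} (h00 : x.1.1 0 0 = y.1.1 0 0)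
    (h01 : x.1.1 0 1 = y.1.1 0 1) (h10 : x.1.1 1 0 = y.1.1 1 0) (h11 : x.1.1 1 1 = y.1.1 1 1) :
    x = y := by
  apply Subtype.ext
  apply Subtype.ext
  ext i j
  fin_cases i <;> fin_cases j
  · exact h00
  · exact h01
  · exact h10
  · exact h11

theorem msig_mul_00 {N : ℕ} (x y : ↥(Gamma0 N)) :
    (x * y).1.1 0 0 = x.1.1 0 0 * y.1.1 0 0 + x.1.1 0 1 * y.1.1 1 0 := by
  show ((x.1 * y.1 : SL(2, ℤ)) : Matrix (Fin 2) (Fin 2) ℤ) 0 0 = _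
  rw [Matrix.SpecialLinearGroup.coe_mul, Matrix.mul_apply, Fin.sum_univ_two]

theorem msig_mul_01 {N : ℕ} (x y : ↥(Gamma0 N)) :
    (x * y).1.1 0 1 = x.1.1 0 0 * y.1.1 0 1 + x.1.1 0 1 * y.1.1 1 1 := by
  show ((x.1 * y.1 : SL(2, ℤ)) : Matrix (Fin 2) (Fin 2) ℤ) 0 1 = _
  rw [Matrix.SpecialLinearGroup.coe_mul, Matrix.mul_apply, Fin.sum_univ_two]

theorem msig_mul_10 {N : ℕ} (x y : ↥(Gamma0 N)) :
    (x * y).1.1 1 0 = x.1.1 1 0 * y.1.1 0 0 + x.1.1 1 1 * y.1.1 1 0 := by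
  show ((x.1 * y.1 : SL(2, ℤ)) : Matrix (Fin 2) (Fin 2) ℤ) 1 0 = _
  rw [Matrix.SpecialLinearGroup.coe_mul, Matrix.mul_apply, Fin.sum_univ_two]

theorem msig_mul_11 {N : ℕ} (x y : ↥(Gamma0 N)) :
    (x * y).1.1 1 1 = x.1.1 1 0 * y.1.1 0 1 + x.1.1 1 1 * y.1.1 1 1 := by
  show ((x.1 * y.1 : SL(2, ℤ)) : Matrix (Fin 2) (Fin 2) ℤ) 1 1 = _
  rw [Matrix.SpecialLinearGroup.coe_mul, Matrix.mul_apply, Fin.sum_univ_two]

/-- **Piece C** of Theorem M (route B). -/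
theorem stmtSig (N q p : ℕ) : StmtP1 N q p → StmtP2 N q p → StmtC N q p := by
  intro hP1 hP2 hyp Φ hΦ s v j hgood hsN _ g hc hb had
  have hs0 : (s : ℤ) ≠ 0 := by
    have := hgood.hs.pos
    exact_mod_cast this.ne'
  have hv1 : 1 ≤ v := hgood.v1
  obtain ⟨v', rfl⟩ : ∃ v', v = v' + 1 := ⟨v - 1, by omega⟩
  have hdet : g.1.1 0 0 * g.1.1 1 1 - g.1.1 0 1 * g.1.1 1 0 = 1 := by
    have := (g.1 : SL(2, ℤ)).2
    rw [Matrix.det_fin_two] at this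
    linarith
  obtain ⟨c', hc'e⟩ := hc
  obtain ⟨b', hb'e⟩ := hb
  obtain ⟨e, he⟩ := had
  have hae : g.1.1 0 0 = g.1.1 1 1 + s * e := by linarith
  obtain ⟨n, hn⟩ := dvd_of_mem_Gamma0 g.2
  have hn' : g.1.1 1 0 = (s : ℤ) ^ 2 * ((N : ℤ) * n) := by rw [hn]; push_cast; ring
  have hc2' : (N : ℤ) * n = (s : ℤ) ^ (2 * v') * c' := by
    have h1 : (s : ℤ) ^ 2 * ((N : ℤ) * n) = (s : ℤ) ^ 2 * ((s : ℤ) ^ (2 * v') * c') := by
      rw [← hn', hc'e]; ring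
    exact mul_left_cancel₀ (pow_ne_zero 2 hs0) h1
  obtain ⟨t, ht⟩ : (N : ℤ) ∣ (s : ℤ) - 1 := Int.modEq_iff_dvd.mp hsN.symm
  -- the matrices
  let g1 : ↥(Gamma0 N) := gamma0Mk N (g.1.1 0 0 - s * ((N : ℤ) * n))
    (g.1.1 0 1 + e - (N : ℤ) * n) (g.1.1 1 0) (g.1.1 1 1 + s * ((N : ℤ) * n))
    (by linear_combination hdet + (s : ℤ) * ((N : ℤ) * n) * hae + ((N : ℤ) * n - e) * hn')
    (by rw [hn']; exact Dvd.intro _ (by ring : (N : ℤ) * ((s : ℤ) ^ 2 * n) = _))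
  let u : ↥(Gamma0 N) := gamma0Mk N s 1 (s - 1) 1 (by ring) ⟨t, ht⟩
  let g3 : ↥(Gamma0 N) := gamma0Mk N (g.1.1 0 0 + s * (1 - s) * g.1.1 0 1)
    ((s : ℤ) ^ 2 * g.1.1 0 1)
    ((N : ℤ) * n + (s - 1) * e - (s - 1) ^ 2 * g.1.1 0 1)
    (g.1.1 1 1 + s * (s - 1) * g.1.1 0 1)
    (by linear_combination hdet + (s : ℤ) * (s - 1) * g.1.1 0 1 * hae + g.1.1 0 1 * hn')
    (by
      rw [ht]
      exact ⟨n + t * e - t * (N * t) * g.1.1 0 1, by ring⟩)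
  -- step 1: P1
  have h1 : Φ g1 = Φ (incl N (s ^ 2) g) := by
    refine hP1 hyp Φ hΦ s (v' + 1) j hgood (incl N (s ^ 2) g) g1 ⟨c', hc'e⟩ rfl
      ⟨(s : ℤ) ^ v', ?_⟩
    show g.1.1 1 1 + s * ((N : ℤ) * n) = g.1.1 1 1 + (s : ℤ) ^ v' * (g.1.1 1 0 / (s : ℤ) ^ (v' + 1))
    have hdiv : g.1.1 1 0 / (s : ℤ) ^ (v' + 1) = (s : ℤ) ^ (v' + 1) * c' := by
      rw [hc'e, show (s : ℤ) ^ (2 * (v' + 1)) * c' = (s : ℤ) ^ (v' + 1) * ((s : ℤ) ^ (v' + 1) * c')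
        by ring, Int.mul_ediv_cancel_left _ (pow_ne_zero _ hs0)]
    rw [hdiv, hc2']
    ring
  -- step 2: conjugation by `u`
  have h2 : Φ g3 = Φ g1 := by
    apply msig_eq_of_mul_eq hΦ (u := u)
    apply msig_ext
    · rw [msig_mul_00, msig_mul_00]
      simp only [g3, g1, u, gamma0Mk_00, gamma0Mk_01, gamma0Mk_10, gamma0Mk_11, hae, hn']
      ring
    · rw [msig_mul_01, msig_mul_01]
      simp only [g3, g1, u, gamma0Mk_00, gamma0Mk_01, gamma0Mk_10, gamma0Mk_11, hae, hn']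
      ring
    · rw [msig_mul_10, msig_mul_10]
      simp only [g3, g1, u, gamma0Mk_00, gamma0Mk_01, gamma0Mk_10, gamma0Mk_11, hae, hn']
      ring
    · rw [msig_mul_11, msig_mul_11]
      simp only [g3, g1, u, gamma0Mk_00, gamma0Mk_01, gamma0Mk_10, gamma0Mk_11, hae, hn']
      ring
  -- step 3: P2
  have h3 : Φ (conjD N (s ^ 2) g) = Φ g3 := by
    have hb3 : (s : ℤ) ^ (2 * (v' + 1)) ∣ g3.1.1 0 1 := by
      show (s : ℤ) ^ (2 * (v' + 1)) ∣ (s : ℤ) ^ 2 * g.1.1 0 1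
      exact Dvd.dvd.mul_left ⟨b', hb'e⟩ _
    refine hP2 hyp Φ hΦ s (v' + 1) j hgood g3 (conjD N (s ^ 2) g) hb3 ?_
      ⟨t * (s : ℤ) ^ v', ?_⟩
    · show (conjDMat (s ^ 2) g.1.1) 0 1 = (s : ℤ) ^ 2 * g.1.1 0 1
      simp [conjDMat]
    · show (conjDMat (s ^ 2) g.1.1) 0 0 = (g.1.1 0 0 + s * (1 - s) * g.1.1 0 1)
        + t * (s : ℤ) ^ v' * ((N : ℤ) * (((s : ℤ) ^ 2 * g.1.1 0 1) / (s : ℤ) ^ (v' + 1)))
      have hdiv : ((s : ℤ) ^ 2 * g.1.1 0 1) / (s : ℤ) ^ (v' + 1) = (s : ℤ) ^ (v' + 3) * b' := by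
        rw [hb'e, show (s : ℤ) ^ 2 * ((s : ℤ) ^ (2 * (v' + 1)) * b')
          = (s : ℤ) ^ (v' + 1) * ((s : ℤ) ^ (v' + 3) * b') by ring,
          Int.mul_ediv_cancel_left _ (pow_ne_zero _ hs0)]
      rw [hdiv]
      have e00 : (conjDMat (s ^ 2) g.1.1) 0 0 = g.1.1 0 0 := by simp [conjDMat]
      rw [e00, hb'e]
      linear_combination ((s : ℤ) ^ (2 * v' + 3) * b') * ht
  rw [h3, h2, h1]

end Fermat.Agent.S41.M
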