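import Fermat.Agent.S41.M.M0
import Fermat.Agent.S41.M.NT
import Fermat.Agent.S41.M.P1
import Fermat.Agent.S41.M.P2h
import Fermat.Agent.S41.M.Sig
import Fermat.Agent.S41.M.Pow
import Fermat.Agent.S41.M.D
import Fermat.Agent.S41.M.E

/-!
# S41: THEOREM M (route B, elementary proof by Dirichlet's theorem)

`stmtM_B : StmtM N q (ZMod p)` for `N ≠ 0`, `q` prime, `q ∤ N`, `p` an odd prime, `p ≠ q`:
a homomorphism `Γ₀(N)[1/q] → ZMod p` killing `T` and `L_N` kills every `γ ∈ Γ₀(N)` with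
`d ≡ 1 mod N`.

Pieces: `M0` (helper97), `NT`, `V`, `Pow` (helper35), `P1`, `P2`, `E` (helper39), `Sig` (helper53),
`D` (helper70).
-/

set_option autoImplicit false

namespace Fermat.Agent.S41.M

/-- **Theorem M** (route B). -/
theorem stmtM_B (N q p : ℕ) (hN : N ≠ 0) (hq : q.Prime) (hqN : ¬ q ∣ N) (hp : p.Prime)
    (hp2 : p ≠ 2) (hpq : p ≠ q) : StmtM N q (ZMod p) :=
  stmtM_of_pieces ⟨hN, hq, hp, hp2, hpq, hqN⟩ (stmtM0 N q p)
    (stmtE N q p (stmtD N q p (stmtSig N q p (stmtP1 N q p stmtNT)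
      (stmtP2h N q p (stmtP1 N q p stmtNT))) stmtPow) stmtV)

end Fermat.Agent.S41.M
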