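import Fermat.Agent.S41.M.Plan
import Fermat.Agent.S41.M.Basics

/-!
# S41, Theorem M, route B: piece M0 (`StmtM0`)

The restriction to `Γ₀(N)` of a homomorphism `F` on `Γ₀(N)[1/q]` killing `T` and `L_N` satisfies
`IsMZ` (the two unit moves).  Holds for every `N`, `q ≠ 0` and every coefficient group; stated
here in the form of the route B interface.
-/

set_option autoImplicit false

noncomputable section

namespace Fermat.Agent.S41.M

open Matrix CongruenceSubgroup
open scoped MatrixGroups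

/-- Unit move on the bottom row, for any abelian coefficient group. -/
theorem m0_unitBot {N q : ℕ} [NeZero q] {V : Type*} [AddCommGroup V]
    (F : Additive ↥(gamma0Inv N q) →+ V)
    (hT : F (Additive.ofMul (iotaInv N q (Tel N))) = 0)
    (hL : F (Additive.ofMul (iotaInv N q (Lel N))) = 0)
    (g g' : ↥(Gamma0 N)) (m : ℕ) (hm : (q : ℤ) ^ (2 * m) ≡ 1 [ZMOD (N : ℤ)])
    (hc : g'.1.1 1 0 = g.1.1 1 0)
    (hd : g'.1.1 1 1 ≡ (q : ℤ) ^ (2 * m) * g.1.1 1 1 [ZMOD g.1.1 1 0]) :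
    F (Additive.ofMul (iotaInv N q g')) = F (Additive.ofMul (iotaInv N q g)) := by
  obtain ⟨k, hk⟩ := Int.modEq_iff_dvd.mp hd
  have h1 := ((isBot_iota F g).b5 F hT hL m hm).b1 F hT (isZq_int q (-k))
  refine IsBot.unique F hT (isBot_iota F g') (h1.congr F ?_ ?_ rfl)
  · rw [hc]
  · have : (g'.1.1 1 1 : ℚ) = (((q : ℤ) ^ (2 * m) * g.1.1 1 1 - g.1.1 1 0 * k : ℤ) : ℚ) := by
      congr 1
      linarith
    rw [this]
    push_cast
    ring

/-- Unit move on the top row, for any abelian coefficient group. -/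
theorem m0_unitTop {N q : ℕ} [NeZero q] {V : Type*} [AddCommGroup V]
    (F : Additive ↥(gamma0Inv N q) →+ V)
    (hT : F (Additive.ofMul (iotaInv N q (Tel N))) = 0)
    (hL : F (Additive.ofMul (iotaInv N q (Lel N))) = 0)
    (g g' : ↥(Gamma0 N)) (m : ℕ) (hm : (q : ℤ) ^ (2 * m) ≡ 1 [ZMOD (N : ℤ)])
    (hb : g'.1.1 0 1 = g.1.1 0 1)
    (ha : g'.1.1 0 0 ≡ (q : ℤ) ^ (2 * m) * g.1.1 0 0 [ZMOD (N : ℤ) * g.1.1 0 1]) :
    F (Additive.ofMul (iotaInv N q g')) = F (Additive.ofMul (iotaInv N q g)) := by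
  obtain ⟨k, hk⟩ := Int.modEq_iff_dvd.mp ha
  have h1 := ((isRow_iota F g).m5 F hT hL m hm).m2 F hL (isZq_int q (-k))
  refine IsRow.unique F hL (isRow_iota F g') (h1.congr F ?_ ?_ rfl)
  · have : (g'.1.1 0 0 : ℚ) =
        (((q : ℤ) ^ (2 * m) * g.1.1 0 0 - (N : ℤ) * g.1.1 0 1 * k : ℤ) : ℚ) := by
      congr 1
      linarith
    rw [this]
    push_cast
    ring
  · rw [hb]

/-- `IsMZ`-type package for any abelian coefficient group is `m0_unitBot`/`m0_unitTop`; this is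
the route B statement. -/
theorem stmtM0 (N q p : ℕ) : StmtM0 N q p := by
  intro h F hT hL
  have : NeZero q := ⟨h.hq.ne_zero⟩
  refine ⟨fun g g' => ?_, hT, hL, fun g g' m hm hc hd => m0_unitBot F hT hL g g' m hm hc hd,
    fun g g' m hm hb ha => m0_unitTop F hT hL g g' m hm hb ha⟩
  rw [map_mul, mbF_mul]

end Fermat.Agent.S41.M
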