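import Fermat.Agent.S41.IharaFinal

/-!
# S41, Theorem M: interface of the elementary proof (helper39)

Mathematical proof: board note "S41 Theorem M — complete elementary proof (Dirichlet only)".

`Φ : Γ₀(N) → ZMod p` is the restriction to `Γ₀(N)` of a homomorphism on `Γ₀(N)[1/q]` killing
`T` and `L_N`.  Everything the proof uses about `Φ` is collected in `IsMZ N q p Φ`:
homomorphism, `Φ T = Φ L_N = 0` and the two UNIT MOVES (bottom row / top row): if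
`q^(2m) ≡ 1 mod N` then `Φ` does not change when `d` is replaced by `q^(2m) d` modulo `c`
(resp. `a` by `q^(2m) a` modulo `N b`).

Pieces (each is a `Prop` below; the final glue `stmtM_of_pieces` is proved here):
* `StmtM0`   : `IsMZ` holds for the restriction of `F` (uses `p ≠ q`, `p ≠ 2`).
* `StmtNT`   : the number theory lemma (units are `s`-adically dense in `1 + s^v ℤ`).
* `StmtP1`   : KEY LEMMA: if `s^(2v) ∣ c` then `Φ` has period `c / s^v` in `d`.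
* `StmtP2`   : mirror image for the top row (from `StmtP1` by the Atkin–Lehner symmetry).
* `StmtC`    : `Φ (σ g σ⁻¹) = Φ g` for `g ≡ 1 mod s^(2v)`, `σ = diag(s, 1/s)`, `s ≡ 1 mod N`.
* `StmtPow`  : `g ≡ [[1,*],[0,1]] mod s` implies `g^(s^w) ≡ 1 mod s^w`.
* `StmtD`    : `Φ (σ g σ⁻¹) = Φ g` for ALL `g ∈ Γ₀(N s²)`.
* `StmtE`    : the conclusion of Theorem M for `Φ`.
-/

set_option autoImplicit false

noncomputable section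

namespace Fermat.Agent.S41.M

open Matrix CongruenceSubgroup
open scoped MatrixGroups

/-- Standing hypotheses on `(N, q, p)`. -/
structure Hyp (N q p : ℕ) : Prop where
  N0 : N ≠ 0
  hq : q.Prime
  hp : p.Prime
  p2 : p ≠ 2
  pq : p ≠ q
  qN : ¬ q ∣ N

/-- What the proof uses about `Φ = F|Γ₀(N)`. -/
structure IsMZ (N q p : ℕ) (Φ : ↥(Gamma0 N) → ZMod p) : Prop where
  mul : ∀ g h : ↥(Gamma0 N), Φ (g * h) = Φ g + Φ h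
  T : Φ (Tel N) = 0
  L : Φ (Lel N) = 0
  /-- unit move on the bottom row `(c, d)`. -/
  unitBot : ∀ (g g' : ↥(Gamma0 N)) (m : ℕ), (q : ℤ) ^ (2 * m) ≡ 1 [ZMOD (N : ℤ)] →
    g'.1.1 1 0 = g.1.1 1 0 →
    g'.1.1 1 1 ≡ (q : ℤ) ^ (2 * m) * g.1.1 1 1 [ZMOD g.1.1 1 0] → Φ g' = Φ g
  /-- unit move on the top row `(a, b)`. -/
  unitTop : ∀ (g g' : ↥(Gamma0 N)) (m : ℕ), (q : ℤ) ^ (2 * m) ≡ 1 [ZMOD (N : ℤ)] →
    g'.1.1 0 1 = g.1.1 0 1 →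
    g'.1.1 0 0 ≡ (q : ℤ) ^ (2 * m) * g.1.1 0 0 [ZMOD (N : ℤ) * g.1.1 0 1] → Φ g' = Φ g

/-- The auxiliary prime `s` with its exponent `v = v_s(q^(2j) - 1)`. -/
structure Good (N q s v j : ℕ) : Prop where
  hs : s.Prime
  s2 : s ≠ 2
  sq : s ≠ q
  sN : ¬ s ∣ N
  sphi : ¬ s ∣ N.totient
  v1 : 1 ≤ v
  j1 : 1 ≤ j
  hv : (s : ℤ) ^ v ∣ (q : ℤ) ^ (2 * j) - 1
  hv' : ¬ (s : ℤ) ^ (v + 1) ∣ (q : ℤ) ^ (2 * j) - 1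

/-- M0: the restriction of `F` to `Γ₀(N)` satisfies `IsMZ`. -/
def StmtM0 (N q p : ℕ) : Prop :=
  Hyp N q p → ∀ F : Additive ↥(gamma0Inv N q) →+ ZMod p,
    F (Additive.ofMul (iotaInv N q (Tel N))) = 0 →
    F (Additive.ofMul (iotaInv N q (Lel N))) = 0 →
    IsMZ N q p (fun g => F (Additive.ofMul (iotaInv N q g)))

/-- NT: for `x = q^(2j) = 1 + s^v w`, `s ∤ w`, a modulus `M` prime to `q` with `s ∤ φ(M)` and a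
target `r ≡ 1 mod s^v` there is `m ≥ 1` with `q^(2m) ≡ 1 mod M` and `q^(2m) ≡ r mod s^(2v)`. -/
def StmtNT : Prop :=
  ∀ (q s v j M : ℕ) (r : ℤ), s.Prime → s ≠ 2 → 1 ≤ v → 1 ≤ j →
    (s : ℤ) ^ v ∣ (q : ℤ) ^ (2 * j) - 1 → ¬ (s : ℤ) ^ (v + 1) ∣ (q : ℤ) ^ (2 * j) - 1 →
    Nat.Coprime q M → ¬ s ∣ M.totient → r ≡ 1 [ZMOD (s : ℤ) ^ v] →
    ∃ m : ℕ, 1 ≤ m ∧ (q : ℤ) ^ (2 * m) ≡ 1 [ZMOD (M : ℤ)] ∧
      (q : ℤ) ^ (2 * m) ≡ r [ZMOD (s : ℤ) ^ (2 * v)]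

/-- Existence of the exponent `v` for an odd prime `s ≠ q`. -/
def StmtV : Prop :=
  ∀ (q s : ℕ), 2 ≤ q → s.Prime → ¬ s ∣ q →
    ∃ v j : ℕ, 1 ≤ v ∧ 1 ≤ j ∧ (s : ℤ) ^ v ∣ (q : ℤ) ^ (2 * j) - 1 ∧
      ¬ (s : ℤ) ^ (v + 1) ∣ (q : ℤ) ^ (2 * j) - 1

/-- P1 (KEY LEMMA): if `s^(2v) ∣ c` then `Φ g` depends only on `c` and on `d mod c / s^v`. -/
def StmtP1 (N q p : ℕ) : Prop :=
  Hyp N q p → ∀ Φ : ↥(Gamma0 N) → ZMod p, IsMZ N q p Φ → ∀ s v j : ℕ, Good N q s v j →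
    ∀ g g' : ↥(Gamma0 N), (s : ℤ) ^ (2 * v) ∣ g.1.1 1 0 → g'.1.1 1 0 = g.1.1 1 0 →
      (∃ k : ℤ, g'.1.1 1 1 = g.1.1 1 1 + k * (g.1.1 1 0 / (s : ℤ) ^ v)) → Φ g' = Φ g

/-- P2: if `s^(2v) ∣ b` then `Φ g` depends only on `b` and on `a mod N b / s^v`. -/
def StmtP2 (N q p : ℕ) : Prop :=
  Hyp N q p → ∀ Φ : ↥(Gamma0 N) → ZMod p, IsMZ N q p Φ → ∀ s v j : ℕ, Good N q s v j →
    ∀ g g' : ↥(Gamma0 N), (s : ℤ) ^ (2 * v) ∣ g.1.1 0 1 → g'.1.1 0 1 = g.1.1 0 1 →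
      (∃ k : ℤ, g'.1.1 0 0 = g.1.1 0 0 + k * ((N : ℤ) * (g.1.1 0 1 / (s : ℤ) ^ v))) →
      Φ g' = Φ g

/-- C: `Φ (σ g σ⁻¹) = Φ g` for `σ = diag(s, 1/s)`, `s ≡ 1 mod N`, and `g ∈ Γ₀(N s²)` with
`s^(2v) ∣ b, c` and `s ∣ a - d`.  (`conjD N (s^2) g = [[a, s² b], [c / s², d]] = σ g σ⁻¹`.) -/
def StmtC (N q p : ℕ) : Prop :=
  Hyp N q p → ∀ Φ : ↥(Gamma0 N) → ZMod p, IsMZ N q p Φ → ∀ s v j : ℕ, Good N q s v j →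
    (s : ℤ) ≡ 1 [ZMOD (N : ℤ)] → ∀ [NeZero (s ^ 2)] (g : ↥(Gamma0 (N * s ^ 2))),
      (s : ℤ) ^ (2 * v) ∣ g.1.1 1 0 → (s : ℤ) ^ (2 * v) ∣ g.1.1 0 1 →
      (s : ℤ) ∣ g.1.1 0 0 - g.1.1 1 1 →
      Φ (conjD N (s ^ 2) g) = Φ (incl N (s ^ 2) g)

/-- Pow: a matrix which is upper unipotent mod `s` has its `s^w`-th power `≡ 1 mod s^w`. -/
def StmtPow : Prop :=
  ∀ (s w : ℕ) (g : SL(2, ℤ)), (s : ℤ) ∣ g.1 1 0 → (s : ℤ) ∣ g.1 1 1 - 1 →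
    ∀ i j : Fin 2, (s : ℤ) ^ w ∣ (g ^ (s ^ w)).1 i j - (1 : Matrix (Fin 2) (Fin 2) ℤ) i j

/-- D: `Φ (σ g σ⁻¹) = Φ g` for all `g ∈ Γ₀(N s²)` (`s` good, `s ≡ 1 mod N`, `s ≠ p`). -/
def StmtD (N q p : ℕ) : Prop :=
  Hyp N q p → ∀ Φ : ↥(Gamma0 N) → ZMod p, IsMZ N q p Φ → ∀ s v j : ℕ, Good N q s v j →
    (s : ℤ) ≡ 1 [ZMOD (N : ℤ)] → s ≠ p → ∀ [NeZero (s ^ 2)] (g : ↥(Gamma0 (N * s ^ 2))),
      Φ (conjD N (s ^ 2) g) = Φ (incl N (s ^ 2) g)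

/-- E: the conclusion of Theorem M for `Φ`. -/
def StmtE (N q p : ℕ) : Prop :=
  Hyp N q p → ∀ Φ : ↥(Gamma0 N) → ZMod p, IsMZ N q p Φ →
    ∀ γ : ↥(Gamma0 N), Gamma0Map N γ = 1 → Φ γ = 0

/-- Final glue: Theorem M from `M0` and `E`. -/
theorem stmtM_of_pieces {N q p : ℕ} (h : Hyp N q p) (h0 : StmtM0 N q p) (hE : StmtE N q p) :
    StmtM N q (ZMod p) := by
  intro F hT hL γ hγ
  exact hE h _ (h0 h F hT hL) γ hγ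

end Fermat.Agent.S41.M
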